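/-
Project MW (S17): THE GLOBAL SEAMS OF THE HEIGHT SIDE, v2 (architect helper7; finding #1920 (R3)).

They replace `mw_SeamHTSYS`, `mw_SeamGAUSS`, `mw_SeamVDM`, `mw_SeamNONSPEC`, `mw_SeamPOS`,
`mw_SeamEVDIAG` of `MW/SeamsHeight.lean` (which stay on main but are no longer consumed).
`mw_SeamLEI`, `mw_SeamEVOFF`, `mw_SeamNAIVELB`, `mw_SeamNORTH`, `mw_SeamREF`, `mw_SeamINF`,
`mw_SeamMINREP`, `mw_SeamMOVE`, `mw_SeamBIL`, `mw_SeamAQUAD` are consumed as they are.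

* `mw_SeamGKL`    [GKL]   global form of `[KLμ]`: sum over all places + product formula + `[ABS]`;
* `mw_SeamHDLB`   [HDLB]  `h_Δ ≥ -C`;
* `mw_SeamHY`     [HY]    `h_y(P) = a · h_Δ(P,∞) + O(1)` for `y = L(a∞)`          (⟸ GKL, `μ = 0`);
* `mw_SeamAMPLE`  [AMPLE] `deg D ≥ 1 ⟹ h_D ≥ -C`                          (⟸ LEI + HDLB + Riemann);
* `mw_SeamDIAG`   [DIAG]  `β([P-∞],[P-∞]) = h_𝔊(P) + 2 h_Δ(P,∞) + O(1)`   (⟸ GKL `μ = 1`, LEI, HY);
* `mw_SeamVDMC`   [VDMC]  the confluent arithmetic Vandermonde inequality (⟸ upper half of `[KLμ]`);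
* `mw_SeamRRK`    [RRK]   Riemann–Roch with duality, canonical divisor `div(dt)`;
* `mw_SeamSPEC`   [SPEC]  a FINITE family of special systems `L(𝔇 - A)` serving every minimal
                          representative                                               (⟸ RRK);
* `mw_SeamBLlow`  [BL↓]   lower bound for the height of a subsystem of a complete system;
* `mw_SeamHG`     [HG]    `h_𝔊 ≥ h_𝔇 - C`, `𝔇 = div(dt)`                          (⟸ BL↓, LEI, HY);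
* `mw_SeamPOS1`   [POS1]  positivity: `β(a,a) ≥ naive(E_a) - C`
                          (⟸ DIAG, EVOFF, VDMC, SPEC, RRK, HG, HY, AMPLE).
Prefix `mw_`.
-/
import Fermat.Agent.MW.Core.Seams

set_option autoImplicit false

noncomputable section

namespace Fermat.Agent.MW

open AlgebraicCurve ModularCurve
open scoped Classical

variable (N : ℕ) [NeZero N]

/-! ### vocabulary -/

/-- **the Gauss height** `h_𝔊(P) = h(τ(P) ∧ x(P)) - 2 h(x(P))` (`τ` the tangent vector with respect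
to the uniformiser `π`; independent of `π`).  It is the height of `P` for the canonical class. -/
def mw_hGauss {r : ℕ} (x : Fin (r + 1) → mw_F N) (P : mw_X N) (π : mw_F N) : ℝ :=
  mw_ht (mw_wedge (mw_tanAt N x P π) (mw_vec x P)) - 2 * mw_ht (mw_vec x P)

/-- **the Weil machine**: `h_D(P) = ∑_z D(z) · h_Δ(P, z)` (for `P ∉ supp D`) -/
def mw_hDiv {r : ℕ} (x : Fin (r + 1) → mw_F N) (D : mw_Div N) (P : mw_X N) : ℝ :=
  D.sum fun z n => (n : ℝ) * mw_hD x P z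

/-- `l(D)` -/
def mw_l (D : mw_Div N) : ℕ := Module.finrank mw_K ↥(riemannRochSpace D)

/-- the order at `z` of the differential `dt` -/
def mw_dOrd (t : mw_F N) (z : mw_X N) : ℤ :=
  if 0 ≤ z.ord t then z.ord (t - algebraMap mw_K (mw_F N) (mw_val z t)) - 1 else z.ord t - 1

/-- `𝔇` is a canonical divisor for the genus `g`: Riemann–Roch with duality -/
def mw_IsCanon (g : ℕ) (𝔇 : mw_Div N) : Prop :=
  ∀ D : mw_Div N, (mw_l N D : ℤ) - mw_l N (𝔇 - D) = Divisor.degree D + 1 - g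

/-! ### [GKL], [HDLB], [HY], [AMPLE] -/

/-- **[GKL]** the global form of the master local theorem: for a section `G_cc` of the complete
system `y = L(a∞)`, ANY point `P`, `μ = ord_P G_cc`, `π` a uniformiser at `P`:
`∑_{z ≠ P} Z_cc(z) h_Δ(P,z) = h_y(P) + h(cc) + μ · h_𝔊(P) + O(1)`. -/
def mw_SeamGKL : Prop :=
  ∀ {r : ℕ} (x : Fin (r + 1) → mw_F N), mw_IsRef N x → ∀ Pinf : mw_X N, mw_IsInf N Pinf →
  ∃ a₀ : ℕ, ∀ a : ℕ, a₀ ≤ a → ∀ {s : ℕ} (y : Fin (s + 1) → mw_F N), mw_IsComplete N Pinf a y →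
    ∃ C : ℝ, ∀ (cc : Fin (s + 1) → mw_K) (P : mw_X N) (π : mw_F N) (μ : ℕ), cc ≠ 0 →
      mw_zeroMult y cc P = (μ : ℤ) → (1 ≤ μ → P.ord π = 1) →
      |(∑ᶠ z : mw_X N, if z = P then (0 : ℝ) else (mw_zeroMult y cc z : ℝ) * mw_hD x P z)
        - (mw_ht (mw_vec y P) + mw_ht cc + (μ : ℝ) * mw_hGauss N x P π)| ≤ C

/-- **[HDLB]** the diagonal height is bounded below. -/
def mw_SeamHDLB : Prop :=
  ∀ {r : ℕ} (x : Fin (r + 1) → mw_F N), mw_IsRef N x →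
    ∃ C : ℝ, ∀ P Q : mw_X N, P ≠ Q → -C ≤ mw_hD x P Q

/-- **[HY]** `h_y(P) = a · h_Δ(P, ∞) + O(1)` for the complete system `y = L(a∞)`. -/
def mw_SeamHY : Prop :=
  ∀ {r : ℕ} (x : Fin (r + 1) → mw_F N), mw_IsRef N x → ∀ Pinf : mw_X N, mw_IsInf N Pinf →
  ∃ a₀ : ℕ, ∀ a : ℕ, a₀ ≤ a → ∀ {s : ℕ} (y : Fin (s + 1) → mw_F N), mw_IsComplete N Pinf a y →
    ∃ C : ℝ, ∀ P : mw_X N, P ≠ Pinf → |mw_ht (mw_vec y P) - (a : ℝ) * mw_hD x P Pinf| ≤ C

/-- **[AMPLE]** the height of a FIXED divisor of positive degree is bounded below. -/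
def mw_SeamAMPLE : Prop :=
  ∀ {r : ℕ} (x : Fin (r + 1) → mw_F N), mw_IsRef N x → ∀ D : mw_Div N, 1 ≤ Divisor.degree D →
    ∃ C : ℝ, ∀ P : mw_X N, P ∉ D.support → -C ≤ mw_hDiv N x D P

/-! ### [DIAG] -/

/-- **[DIAG]** the diagonal values of the pairing (arithmetic adjunction):
`β([P-∞],[P-∞]) = h_𝔊(P) + 2 h_Δ(P,∞) + O(1)` for ALL `P ≠ ∞`. -/
def mw_SeamDIAG : Prop :=
  ∀ {r : ℕ} (x : Fin (r + 1) → mw_F N), mw_IsRef N x → ∀ Pinf : mw_X N, mw_IsInf N Pinf →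
  ∀ β : JZero N → JZero N → ℝ, mw_IsPairing N x β → mw_QuasiBiadd β →
    ∃ C : ℝ, ∀ (P : mw_X N) (π : mw_F N), P ≠ Pinf → P.ord π = 1 →
      |β (mw_aj N Pinf P) (mw_aj N Pinf P)
        - (mw_hGauss N x P π + 2 * mw_hD x P Pinf)| ≤ C

/-! ### [VDMC] -/

/-- **[VDMC] the confluent arithmetic Vandermonde inequality.**  `y = L(a∞)`, `𝔅 ≥ 0` fixed,
`E = ∑ E(P) P ≥ 0` of degree `l(a∞ - 𝔅)`, disjoint from `𝔅` and `∞`, imposing independent conditions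
(`l(a∞ - 𝔅 - E) = 0`); `π P` a uniformiser at the multiple points `P` of `E`.  Then
`∑_{P<Q} E(P)E(Q) h_Δ(P,Q) + ∑_P E(P) h_𝔅(P) ≤ ∑_P E(P) h_y(P) + ∑_P C(E(P),2) h_𝔊(P) + C`. -/
def mw_SeamVDMC : Prop :=
  ∀ {r : ℕ} (x : Fin (r + 1) → mw_F N), mw_IsRef N x → ∀ Pinf : mw_X N, mw_IsInf N Pinf →
  ∃ a₀ : ℕ, ∀ a : ℕ, a₀ ≤ a → ∀ {s : ℕ} (y : Fin (s + 1) → mw_F N), mw_IsComplete N Pinf a y →
  ∀ 𝔅 : mw_Div N, 0 ≤ 𝔅 →
    ∃ C : ℝ, ∀ (E : mw_Div N) (π : mw_X N → mw_F N), 0 ≤ E → E Pinf = 0 →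
      Disjoint E.support 𝔅.support →
      Divisor.degree E = (mw_l N (Finsupp.single Pinf (a : ℤ) - 𝔅) : ℤ) →
      mw_l N (Finsupp.single Pinf (a : ℤ) - 𝔅 - E) = 0 →
      (∀ P ∈ E.support, 2 ≤ E P → P.ord (π P) = 1) →
      (E.sum fun P n => E.sum fun Q m =>
          if P = Q then (0 : ℝ) else (n : ℝ) * (m : ℝ) / 2 * mw_hD x P Q)
        + (E.sum fun P n => (n : ℝ) * mw_hDiv N x 𝔅 P)
        ≤ (E.sum fun P n => (n : ℝ) * mw_ht (mw_vec y P))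
          + (E.sum fun P n => (n : ℝ) * ((n : ℝ) - 1) / 2 * mw_hGauss N x P (π P)) + C

/-! ### [RRK], [SPEC] -/

/-- **[RRK] Riemann–Roch with duality**: for every non-constant `t` the divisor of `dt` is a
canonical divisor (for ONE genus `g`). -/
def mw_SeamRRK : Prop :=
  ∃ g : ℕ, ∀ t : mw_F N, (∀ c : mw_K, t ≠ algebraMap mw_K (mw_F N) c) →
    ∃ 𝔇 : mw_Div N, (∀ z, 𝔇 z = mw_dOrd N t z) ∧ mw_IsCanon N g 𝔇

/-- **[SPEC]** a finite family of special systems: for `1 ≤ d ≤ g` and a finite set `S` there is a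
FINITE family of effective `A` of degree `g - d`, avoiding `S`, with `l(𝔇 - A) = d`, such that every
effective `E` of degree `d` with `l(E) = 1` imposes independent conditions on `L(𝔇 - A)` for some
member `A` of the family disjoint from `E`. -/
def mw_SeamSPEC : Prop :=
  ∀ (g : ℕ) (𝔇 : mw_Div N), mw_IsCanon N g 𝔇 → ∀ d : ℕ, 1 ≤ d → d ≤ g → ∀ S : Finset (mw_X N),
    ∃ Fam : Finset (mw_Div N),
      (∀ A ∈ Fam, 0 ≤ A ∧ Divisor.degree A = (g : ℤ) - d ∧ Disjoint A.support S ∧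
        mw_l N (𝔇 - A) = d) ∧
      ∀ E : mw_Div N, 0 ≤ E → Divisor.degree E = d → mw_l N E = 1 →
        ∃ A ∈ Fam, Disjoint A.support E.support ∧ mw_l N (𝔇 - A - E) = 0

/-! ### [BL↓], [HG] -/

/-- **[BL↓]** the height of a subsystem `ψ` of the complete system `y = L(a∞)` is at least
`h_y - h_𝔅`, `𝔅` the base divisor of `ψ` (as a system of sections of `a∞`). -/
def mw_SeamBLlow : Prop :=
  ∀ {r : ℕ} (x : Fin (r + 1) → mw_F N), mw_IsRef N x → ∀ Pinf : mw_X N, mw_IsInf N Pinf →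
  ∃ a₀ : ℕ, ∀ a : ℕ, a₀ ≤ a → ∀ {s : ℕ} (y : Fin (s + 1) → mw_F N), mw_IsComplete N Pinf a y →
  ∀ {m : ℕ} (ψ : Fin (m + 1) → mw_F N), LinearIndependent mw_K ψ →
    (∀ i, ψ i ∈ riemannRochSpace (Finsupp.single Pinf (a : ℤ))) →
  ∀ 𝔅 : mw_Div N, (∀ z, 𝔅 z = z.ord (ψ (mw_piv ψ z)) + (Finsupp.single Pinf (a : ℤ) : mw_Div N) z) →
    ∃ C : ℝ, ∀ P : mw_X N, P ∉ 𝔅.support →
      mw_ht (mw_vec y P) - mw_hDiv N x 𝔅 P - C ≤ mw_ht (mw_vec ψ P)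

/-- **[HG]** the Gauss height dominates the height of the canonical divisor `𝔇 = div(dt)`. -/
def mw_SeamHG : Prop :=
  ∀ {r : ℕ} (x : Fin (r + 1) → mw_F N), mw_IsRef N x → ∀ Pinf : mw_X N, mw_IsInf N Pinf →
  ∀ (t : mw_F N) (𝔇 : mw_Div N), (∀ z, 𝔇 z = mw_dOrd N t z) →
    ∃ C : ℝ, ∀ (P : mw_X N) (π : mw_F N), P ∉ 𝔇.support → P ≠ Pinf → P.ord π = 1 →
      mw_hDiv N x 𝔇 P - C ≤ mw_hGauss N x P π

/-! ### [POS1] -/

/-- **[POS1] positivity**: for the minimal reduced representative `E` of ANY class `a`,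
`β(a, a) ≥ naive(E) - C`. -/
def mw_SeamPOS1 : Prop :=
  ∀ {r : ℕ} (x : Fin (r + 1) → mw_F N), mw_IsRef N x → ∀ Pinf : mw_X N, mw_IsInf N Pinf →
  ∀ β : JZero N → JZero N → ℝ, mw_IsPairing N x β → mw_QuasiBiadd β →
    ∃ C : ℝ, ∀ (a : JZero N) (E : mw_Div N), mw_IsMinRep N Pinf a E →
      mw_naive N x Pinf E - C ≤ β a a

end Fermat.Agent.MW
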