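/-
Project MW (S17): THE SUB-SEAMS OF `[POS1]` (architect helper7).  `MW/Global/POS1.lean` proves
`RRK + SPEC + TWO + BASE + CPL + EXP + VDMC + HG + HY + AMPLE ⟹ POS1`.

* `mw_SeamEXP`   [EXP]   expansion of `β(a,a)` along the minimal representative `E` of `a`:
                         `β(a,a) ≥ 2·deg E·naive(E) + ∑_P E(P)² h_𝔊(P) - ∑_{P≠Q} E(P)E(Q) h_Δ(P,Q) - C`
                                                     (⟸ quasi-biadditivity + DIAG + EVOFF);
* `mw_SeamTWO`   [TWO]   two non-constant functions whose differentials have no common zero or pole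
                         outside `∞`                                   (⟸ RRK finiteness + Riemann);
* `mw_SeamBASE`  [BASE]  a divisor of large degree is linearly equivalent to `n + 1` effective
                         divisors with pairwise disjoint supports                  (⟸ Riemann);
* `mw_SeamCPL`   [CPL]   complete systems exist.
Prefix `mw_`.
-/
import Fermat.Agent.MW.Global.Seams

set_option autoImplicit false

noncomputable section

namespace Fermat.Agent.MW

open AlgebraicCurve ModularCurve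
open scoped Classical

variable (N : ℕ) [NeZero N]

/-- **[EXP]** the expansion of `β(a,a)` along the minimal representative (lower bound), for
representatives of degree `≤ n₀`; `π P` a uniformiser at each point `P` of `E`. -/
def mw_SeamEXP : Prop :=
  ∀ {r : ℕ} (x : Fin (r + 1) → mw_F N), mw_IsRef N x → ∀ Pinf : mw_X N, mw_IsInf N Pinf →
  ∀ β : JZero N → JZero N → ℝ, mw_IsPairing N x β → mw_QuasiBiadd β → ∀ n₀ : ℕ,
    ∃ C : ℝ, ∀ (a : JZero N) (E : mw_Div N) (π : mw_X N → mw_F N), mw_IsMinRep N Pinf a E →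
      Divisor.degree E ≤ (n₀ : ℤ) → (∀ P ∈ E.support, P.ord (π P) = 1) →
      2 * (Divisor.degree E : ℝ) * mw_naive N x Pinf E
        + (E.sum fun P n => (n : ℝ) ^ 2 * mw_hGauss N x P (π P))
        - (E.sum fun P n => E.sum fun Q m =>
            if P = Q then (0 : ℝ) else (n : ℝ) * (m : ℝ) * mw_hD x P Q) - C ≤ β a a

/-- **[TWO]** two non-constant functions whose differentials have no common zero or pole
outside `∞`. -/
def mw_SeamTWO : Prop :=
  ∀ Pinf : mw_X N, mw_IsInf N Pinf →
    ∃ t₁ t₂ : mw_F N, (∀ c : mw_K, t₁ ≠ algebraMap mw_K (mw_F N) c) ∧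
      (∀ c : mw_K, t₂ ≠ algebraMap mw_K (mw_F N) c) ∧
      ∀ z : mw_X N, z ≠ Pinf → mw_dOrd N t₁ z = 0 ∨ mw_dOrd N t₂ z = 0

/-- **[BASE]** a divisor `D` of large degree is linearly equivalent to `n + 1` effective divisors
`𝔅 j = D + div (f j)` with pairwise disjoint supports. -/
def mw_SeamBASE : Prop :=
  ∃ c : ℤ, ∀ D : mw_Div N, c ≤ Divisor.degree D → ∀ n : ℕ,
    ∃ 𝔅 : Fin (n + 1) → mw_Div N, (∀ j, 0 ≤ 𝔅 j) ∧
      (∀ j, ∃ f : mw_F N, f ≠ 0 ∧ ∀ z : mw_X N, 𝔅 j z = D z + z.ord f) ∧
      ∀ i j, i ≠ j → Disjoint (𝔅 i).support (𝔅 j).support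

/-- **[CPL]** complete systems exist. -/
def mw_SeamCPL : Prop :=
  ∀ Pinf : mw_X N, mw_IsInf N Pinf → ∀ a : ℕ,
    ∃ (s : ℕ) (y : Fin (s + 1) → mw_F N), mw_IsComplete N Pinf a y

end Fermat.Agent.MW
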