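/-
Project MW (S17), global height side, leaf **[AMPLE]** (helper4).  Prefix `mw_ample_`.

`theorem mw_ample (hLEI : mw_SeamLEI N) (hHDLB : mw_SeamHDLB N) (hBASE : mw_SeamBASE N) :
  mw_SeamAMPLE N`: the height `h_D(P) = ∑_z D(z) h_Δ(P,z)` of a FIXED divisor of degree `≥ 1` is
bounded below off its support.

Proof.  `m ≥ 1` with `m · deg D ≥ c_BASE`; [BASE] (`n = 1`) gives `𝔅₀, 𝔅₁ ≥ 0` with disjoint
supports and `𝔅_j = m D + div f_j`; `G_j := 𝔅_j - m D = div f_j`.  Two auxiliary points `R₁ ≠ R₂`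
off `supp G₀ ∪ supp G₁`.  For `P ∉ supp D` choose `j` with `P ∉ supp 𝔅_j` and `i` with `R_i ≠ P`:
`m h_D(P) = h_{𝔅_j}(P) - h_{G_j}(P)`, `h_{𝔅_j}(P) ≥ -C₁ ∑_z 𝔅_j(z)` by [HDLB], and
`h_{G_j}(P) = h_{G_j}(R_i) - B(P - R_i, G_j)` is bounded by [LEI].
-/
import Fermat.Agent.MW.Global.Seams3
import Fermat.Agent.MW.Bil
import Fermat.Agent.JT3.Riemann.FBar
import Fermat.Agent.FF.Generic

set_option autoImplicit false
set_option linter.unusedSectionVars false

noncomputable section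

namespace Fermat.Agent.MW

open AlgebraicCurve ModularCurve Fermat.Agent.JT3 Fermat.Agent.FF
open scoped Classical

variable (N : ℕ) [NeZero N] {r : ℕ} (x : Fin (r + 1) → mw_F N)

/-! ### the Weil machine in terms of the global pairing -/

/-- `B(P, E) = - h_E(P)` -/
theorem mw_ample_B_single (E : mw_Div N) (P : mw_X N) :
    mw_B x (Finsupp.single P 1) E = -mw_hDiv N x E P := by
  unfold mw_B mw_hDiv
  rw [Finsupp.sum_single_index]
  · congr 1
    refine Finsupp.sum_congr fun Q _ => ?_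
    rw [one_mul]
  · refine Finset.sum_eq_zero fun Q _ => ?_
    simp

theorem mw_ample_hDiv_eq (E : mw_Div N) (P : mw_X N) :
    mw_hDiv N x E P = -mw_B x (Finsupp.single P 1) E := by
  rw [mw_ample_B_single, neg_neg]

theorem mw_ample_hDiv_add (D E : mw_Div N) (P : mw_X N) :
    mw_hDiv N x (D + E) P = mw_hDiv N x D P + mw_hDiv N x E P := by
  rw [mw_ample_hDiv_eq, mw_ample_hDiv_eq, mw_ample_hDiv_eq, mw_bil_B_add_right]
  ring

theorem mw_ample_hDiv_sub (D E : mw_Div N) (P : mw_X N) :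
    mw_hDiv N x (D - E) P = mw_hDiv N x D P - mw_hDiv N x E P := by
  rw [mw_ample_hDiv_eq, mw_ample_hDiv_eq, mw_ample_hDiv_eq, mw_bil_B_sub_right]
  ring

theorem mw_ample_hDiv_zero (P : mw_X N) : mw_hDiv N x 0 P = 0 := by
  unfold mw_hDiv
  exact Finsupp.sum_zero_index

theorem mw_ample_hDiv_nsmul (m : ℕ) (D : mw_Div N) (P : mw_X N) :
    mw_hDiv N x (m • D) P = (m : ℝ) * mw_hDiv N x D P := by
  induction m with
  | zero => rw [zero_smul, mw_ample_hDiv_zero, Nat.cast_zero, zero_mul]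
  | succ k ih =>
    rw [succ_nsmul, mw_ample_hDiv_add, ih]
    push_cast
    ring

/-- `B(P - R, E) = h_E(R) - h_E(P)` -/
theorem mw_ample_B_pair (E : mw_Div N) (P R : mw_X N) :
    mw_B x (Finsupp.single P 1 - Finsupp.single R 1) E = mw_hDiv N x E R - mw_hDiv N x E P := by
  rw [mw_bil_B_sub_left, mw_ample_B_single, mw_ample_B_single]
  ring

/-- lower bound for the height of an effective divisor off its support -/
theorem mw_ample_hDiv_ge {C : ℝ} (hC : ∀ P Q : mw_X N, P ≠ Q → -C ≤ mw_hD x P Q)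
    (E : mw_Div N) (hE : 0 ≤ E) (P : mw_X N) (hP : P ∉ E.support) :
    -(C * ∑ z ∈ E.support, (E z : ℝ)) ≤ mw_hDiv N x E P := by
  unfold mw_hDiv Finsupp.sum
  rw [Finset.mul_sum, ← Finset.sum_neg_distrib]
  refine Finset.sum_le_sum fun z hz => ?_
  have hz0 : (0 : ℝ) ≤ (E z : ℝ) := by
    have := hE z
    rw [Finsupp.zero_apply] at this
    exact_mod_cast this
  have hPz : P ≠ z := fun h => hP (h ▸ hz)
  have := hC P z hPz
  nlinarith

theorem mw_ample_norm_single_le (P : mw_X N) :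
    mw_norm (Finsupp.single P (1 : ℤ) : mw_Div N) ≤ 1 := by
  rw [mw_bil_norm_eq _ {P} Finsupp.support_single_subset, Finset.sum_singleton,
    Finsupp.single_eq_same]
  rfl

theorem mw_ample_norm_pair_le (P R : mw_X N) :
    mw_norm (Finsupp.single P (1 : ℤ) - Finsupp.single R (1 : ℤ) : mw_Div N) ≤ 2 := by
  have h1 := mw_bil_norm_sub_le (Finsupp.single P (1 : ℤ) : mw_Div N) (Finsupp.single R (1 : ℤ))
  have h2 := mw_ample_norm_single_le N P
  have h3 := mw_ample_norm_single_le N R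
  omega

/-! ### the leaf -/

/-- **[AMPLE]** the height of a fixed divisor of positive degree is bounded below. -/
theorem mw_ample (hLEI : mw_SeamLEI N) (hHDLB : mw_SeamHDLB N) (hBASE : mw_SeamBASE N) :
    mw_SeamAMPLE N := by
  intro r x hx D hD
  obtain ⟨c, hc⟩ := hBASE
  obtain ⟨C₁, hC₁⟩ := hHDLB x hx
  -- the multiple
  set m : ℕ := max 1 c.toNat with hm
  have hm1 : 1 ≤ m := le_max_left _ _
  have hmc : c ≤ (m : ℤ) := by
    have : c.toNat ≤ m := le_max_right _ _
    have h2 : c ≤ (c.toNat : ℤ) := Int.self_le_toNat c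
    exact h2.trans (by exact_mod_cast this)
  have hdeg : c ≤ Divisor.degree (m • D) := by
    rw [map_nsmul, nsmul_eq_mul]
    have : (m : ℤ) * 1 ≤ (m : ℤ) * Divisor.degree D :=
      mul_le_mul_of_nonneg_left hD (Int.natCast_nonneg m)
    omega
  obtain ⟨𝔅, h𝔅0, h𝔅f, h𝔅d⟩ := hc (m • D) hdeg 1
  choose f hf0 hf using h𝔅f
  -- the principal divisors
  set G : Fin 2 → mw_Div N := fun j => 𝔅 j - m • D with hG
  have hGdiv : ∀ j, mw_IsDivOf (G j) (f j) := fun j =>
    ⟨hf0 j, fun z => by rw [hG]; simp only [Finsupp.sub_apply]; rw [hf j z]; ring⟩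
  -- auxiliary points
  have hinf : Infinite (mw_X N) := ffg_infinite_place (rt_isSepGen_jBar N)
  obtain ⟨R₁, hR₁⟩ := Infinite.exists_notMem_finset ((G 0).support ∪ (G 1).support)
  obtain ⟨R₂, hR₂⟩ := Infinite.exists_notMem_finset (insert R₁ ((G 0).support ∪ (G 1).support))
  have hR₂' : R₂ ∉ (G 0).support ∪ (G 1).support := fun h => hR₂ (Finset.mem_insert_of_mem h)
  have hR12 : R₂ ≠ R₁ := fun h => hR₂ (h ▸ Finset.mem_insert_self _ _)
  have hRG : ∀ (R : mw_X N), R ∉ (G 0).support ∪ (G 1).support → ∀ j, R ∉ (G j).support := by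
    intro R hR j hj
    apply hR
    fin_cases j
    · exact Finset.mem_union_left _ hj
    · exact Finset.mem_union_right _ hj
  -- the constants
  set n : ℕ := max 2 (max (mw_norm (G 0)) (mw_norm (G 1))) with hn
  have hn2 : 2 ≤ n := le_max_left _ _
  have hnG : ∀ j, mw_norm (G j) ≤ n := by
    intro j
    fin_cases j
    · exact (le_max_left _ _).trans (le_max_right _ _)
    · exact (le_max_right _ _).trans (le_max_right _ _)
  obtain ⟨C₂, hC₂⟩ := hLEI x hx n
  set C₁' : ℝ := max C₁ 0 with hC₁'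
  have hC₁'0 : 0 ≤ C₁' := le_max_right _ _
  have hC₁'' : ∀ P Q : mw_X N, P ≠ Q → -C₁' ≤ mw_hD x P Q := fun P Q hPQ =>
    (neg_le_neg (le_max_left _ _)).trans (hC₁ P Q hPQ)
  set s : Fin 2 → ℝ := fun j => ∑ z ∈ (𝔅 j).support, ((𝔅 j) z : ℝ) with hs
  have hs0 : ∀ j, 0 ≤ s j := fun j => Finset.sum_nonneg fun z _ => by
    have := h𝔅0 j z
    rw [Finsupp.zero_apply] at this
    exact_mod_cast this
  set Kmax : ℝ := ∑ j : Fin 2, (|mw_hDiv N x (G j) R₁| + |mw_hDiv N x (G j) R₂|) with hK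
  have hK1 : ∀ j, |mw_hDiv N x (G j) R₁| ≤ Kmax := fun j =>
    (le_add_of_nonneg_right (abs_nonneg _)).trans
      (Finset.single_le_sum (f := fun j => |mw_hDiv N x (G j) R₁| + |mw_hDiv N x (G j) R₂|)
        (fun i _ => add_nonneg (abs_nonneg _) (abs_nonneg _)) (Finset.mem_univ j))
  have hK2 : ∀ j, |mw_hDiv N x (G j) R₂| ≤ Kmax := fun j =>
    (le_add_of_nonneg_left (abs_nonneg _)).trans
      (Finset.single_le_sum (f := fun j => |mw_hDiv N x (G j) R₁| + |mw_hDiv N x (G j) R₂|)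
        (fun i _ => add_nonneg (abs_nonneg _) (abs_nonneg _)) (Finset.mem_univ j))
  set T : ℝ := C₁' * (s 0 + s 1) + Kmax + C₂ with hT
  have hmpos : (0 : ℝ) < (m : ℝ) := by exact_mod_cast hm1
  refine ⟨T / m, fun P hP => ?_⟩
  -- choose `j` with `P ∉ supp 𝔅_j`
  obtain ⟨j, hj⟩ : ∃ j : Fin 2, P ∉ (𝔅 j).support := by
    by_cases h0 : P ∈ (𝔅 0).support
    · exact ⟨1, fun h1 => (Finset.disjoint_left.mp (h𝔅d 0 1 (by decide)) h0) h1⟩
    · exact ⟨0, h0⟩
  have hPG : P ∉ (G j).support := by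
    rw [Finsupp.notMem_support_iff] at hj hP ⊢
    rw [hG]
    simp only [Finsupp.sub_apply, Finsupp.smul_apply]
    rw [hj, hP, smul_zero, sub_zero]
  -- the bound for `h_{G_j}(P)`
  have hGP : mw_hDiv N x (G j) P ≤ Kmax + C₂ := by
    have key : ∀ R : mw_X N, R ≠ P → R ∉ (G j).support → |mw_hDiv N x (G j) R| ≤ Kmax →
        mw_hDiv N x (G j) P ≤ Kmax + C₂ := by
      intro R hRP hRG' hRK
      have hdisj : Disjoint (Finsupp.single P (1 : ℤ) - Finsupp.single R (1 : ℤ) :
          mw_Div N).support (G j).support := by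
        rw [Finset.disjoint_left]
        intro z hz hzG
        have hz' := Finsupp.support_sub hz
        rcases Finset.mem_union.mp hz' with h | h
        · have := Finsupp.support_single_subset h
          rw [Finset.mem_singleton] at this
          exact hPG (this ▸ hzG)
        · have := Finsupp.support_single_subset h
          rw [Finset.mem_singleton] at this
          exact hRG' (this ▸ hzG)
      have hd0 : Divisor.degree (Finsupp.single P (1 : ℤ) - Finsupp.single R (1 : ℤ) :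
          mw_Div N) = 0 := by
        rw [map_sub, rt_degree_single (rt_isSepGen_jBar N),
          rt_degree_single (rt_isSepGen_jBar N), sub_self]
      have hB := hC₂ _ (G j) (f j) (hGdiv j) hd0
        ((mw_ample_norm_pair_le N P R).trans hn2) (hnG j) hdisj
      rw [mw_ample_B_pair] at hB
      have h1 := abs_le.mp hB
      have h2 := abs_le.mp hRK
      linarith [h1.1, h2.2]
    by_cases hP1 : R₁ = P
    · have hP2 : R₂ ≠ P := fun h => hR12 (h.trans hP1.symm)
      exact key R₂ hP2 (hRG R₂ hR₂' j) (hK2 j)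
    · exact key R₁ hP1 (hRG R₁ hR₁ j) (hK1 j)
  -- the bound for `h_{𝔅_j}(P)`
  have h𝔅P := mw_ample_hDiv_ge N x hC₁'' (𝔅 j) (h𝔅0 j) P hj
  have hsj : s j ≤ s 0 + s 1 := by
    fin_cases j
    · exact le_add_of_nonneg_right (hs0 1)
    · exact le_add_of_nonneg_left (hs0 0)
  -- assemble
  have hsplit : (m : ℝ) * mw_hDiv N x D P = mw_hDiv N x (𝔅 j) P - mw_hDiv N x (G j) P := by
    rw [hG]
    simp only
    rw [mw_ample_hDiv_sub, mw_ample_hDiv_nsmul]
    ring
  rw [← neg_div, div_le_iff₀ hmpos, mul_comm, hsplit]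
  have h3 : C₁' * s j ≤ C₁' * (s 0 + s 1) := mul_le_mul_of_nonneg_left hsj hC₁'0
  have h4 : -(C₁' * s j) ≤ mw_hDiv N x (𝔅 j) P := h𝔅P
  linarith [hGP, h3, h4]

end Fermat.Agent.MW
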