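/-
Project MW (S17): THE GLOBALISATION KIT (helper24; written for [BL↓], reusable by [GKL], [VDMC], …).

For a number field `K` (Mathlib's `Height.AdmissibleAbsValues K`): the global sum
`mw_glob_sum F = ∑_{w | ∞} F w (with multiplicity) + ∑ᶠ_{w finite} F w` of a local function
`F : AbsoluteValue K ℝ → ℝ`; it is linear and monotone on the local functions with finite support
on the finite places (`mw_glob_Fin`), and

* `mw_glob_sum_lognorm`  : `∑_w log ‖v‖_w = Height.logHeight v` for `v ≠ 0`;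
* `mw_glob_sum_archc`    : `∑_w (c at the archimedean places, 0 elsewhere) = [K : ℚ] · c`;
* `mw_glob_sum_logabs`   : `∑_w log |a|_w = 0` for `a ≠ 0` (product formula);
* `mw_glob_sum_bnd`      : `∑_w bnd_w = [K : ℚ] (γ + ∑_p c_p log p)` for the admissible errors
                            `bnd_w` of `mw_IsBound`.
Prefix `mw_glob_`.
-/
import Fermat.Agent.MW.AbsHeight

set_option autoImplicit false
set_option linter.unusedSectionVars false

noncomputable section

namespace Fermat.Agent.MW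

open Height AdmissibleAbsValues NumberField
open scoped Classical

section Generic

variable {K : Type*} [Field K] [NumberField K]

/-- the global sum of a local function -/
def mw_glob_sum (F : AbsoluteValue K ℝ → ℝ) : ℝ :=
  ((archAbsVal (K := K)).map F).sum + ∑ᶠ w : ↥(nonarchAbsVal (K := K)), F w.val

/-- finite support on the finite places -/
def mw_glob_Fin (F : AbsoluteValue K ℝ → ℝ) : Prop :=
  Function.HasFiniteSupport fun w : ↥(nonarchAbsVal (K := K)) => F w.val

/-! ### finiteness -/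

theorem mw_glob_fin_zero : mw_glob_Fin (K := K) fun _ => 0 := by
  simp [mw_glob_Fin, Function.HasFiniteSupport]

theorem mw_glob_fin_add {F G : AbsoluteValue K ℝ → ℝ} (hF : mw_glob_Fin F) (hG : mw_glob_Fin G) :
    mw_glob_Fin fun w => F w + G w :=
  (Set.Finite.union hF hG).subset (Function.support_add _ _)

theorem mw_glob_fin_neg {F : AbsoluteValue K ℝ → ℝ} (hF : mw_glob_Fin F) :
    mw_glob_Fin fun w => -F w := by
  refine Set.Finite.subset hF fun w hw => ?_
  simp only [Function.mem_support, ne_eq, neg_eq_zero] at hw ⊢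
  exact hw

theorem mw_glob_fin_sub {F G : AbsoluteValue K ℝ → ℝ} (hF : mw_glob_Fin F) (hG : mw_glob_Fin G) :
    mw_glob_Fin fun w => F w - G w := by
  simpa [sub_eq_add_neg] using mw_glob_fin_add hF (mw_glob_fin_neg hG)

theorem mw_glob_fin_const_mul (c : ℝ) {F : AbsoluteValue K ℝ → ℝ} (hF : mw_glob_Fin F) :
    mw_glob_Fin fun w => c * F w := by
  refine Set.Finite.subset hF fun w hw => ?_
  simp only [Function.mem_support, ne_eq] at hw ⊢
  exact fun h => hw (by rw [h, mul_zero])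

theorem mw_glob_fin_sum {ι : Type*} (s : Finset ι) {F : ι → AbsoluteValue K ℝ → ℝ}
    (hF : ∀ i ∈ s, mw_glob_Fin (F i)) : mw_glob_Fin fun w => ∑ i ∈ s, F i w := by
  induction s using Finset.induction_on with
  | empty => simpa using mw_glob_fin_zero
  | insert a s ha ih =>
    simp only [Finset.sum_insert ha]
    exact mw_glob_fin_add (hF a (Finset.mem_insert_self a s))
      (ih fun i hi => hF i (Finset.mem_insert_of_mem hi))

/-! ### linearity and monotonicity -/

theorem mw_glob_sum_zero : mw_glob_sum (K := K) (fun _ => 0) = 0 := by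
  simp [mw_glob_sum]

theorem mw_glob_sum_add {F G : AbsoluteValue K ℝ → ℝ} (hF : mw_glob_Fin F) (hG : mw_glob_Fin G) :
    mw_glob_sum (fun w => F w + G w) = mw_glob_sum F + mw_glob_sum G := by
  rw [mw_glob_sum, mw_glob_sum, mw_glob_sum, Multiset.sum_map_add, finsum_add_distrib hF hG]
  ring

theorem mw_glob_sum_const_mul (c : ℝ) (F : AbsoluteValue K ℝ → ℝ) :
    mw_glob_sum (fun w => c * F w) = c * mw_glob_sum F := by
  rw [mw_glob_sum, mw_glob_sum, Multiset.sum_map_mul_left, ← mul_finsum, mul_add]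

theorem mw_glob_sum_neg (F : AbsoluteValue K ℝ → ℝ) :
    mw_glob_sum (fun w => -F w) = -mw_glob_sum F := by
  have := mw_glob_sum_const_mul (-1) F
  simpa using this

theorem mw_glob_sum_sub {F G : AbsoluteValue K ℝ → ℝ} (hF : mw_glob_Fin F) (hG : mw_glob_Fin G) :
    mw_glob_sum (fun w => F w - G w) = mw_glob_sum F - mw_glob_sum G := by
  have := mw_glob_sum_add hF (mw_glob_fin_neg hG)
  rw [mw_glob_sum_neg] at this
  simpa [sub_eq_add_neg] using this

theorem mw_glob_sum_finset {ι : Type*} (s : Finset ι) {F : ι → AbsoluteValue K ℝ → ℝ}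
    (hF : ∀ i ∈ s, mw_glob_Fin (F i)) :
    mw_glob_sum (fun w => ∑ i ∈ s, F i w) = ∑ i ∈ s, mw_glob_sum (F i) := by
  induction s using Finset.induction_on with
  | empty => simpa using mw_glob_sum_zero
  | insert a s ha ih =>
    simp only [Finset.sum_insert ha]
    rw [mw_glob_sum_add (hF a (Finset.mem_insert_self a s))
      (mw_glob_fin_sum s fun i hi => hF i (Finset.mem_insert_of_mem hi)),
      ih fun i hi => hF i (Finset.mem_insert_of_mem hi)]

theorem mw_glob_sum_le {F G : AbsoluteValue K ℝ → ℝ} (hF : mw_glob_Fin F) (hG : mw_glob_Fin G)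
    (harch : ∀ w ∈ archAbsVal (K := K), F w ≤ G w)
    (hnon : ∀ w ∈ nonarchAbsVal (K := K), F w ≤ G w) : mw_glob_sum F ≤ mw_glob_sum G := by
  rw [mw_glob_sum, mw_glob_sum]
  exact add_le_add (Multiset.sum_map_le_sum_map F G harch)
    (finsum_le_finsum' hF hG fun w => hnon w.1 w.2)

/-! ### the logarithm of the sup norm -/

/-- `w ↦ log ‖v‖_w` -/
def mw_glob_lognorm {ι : Type*} (v : ι → K) : AbsoluteValue K ℝ → ℝ :=
  fun w => Real.log (⨆ i, w (v i))

theorem mw_glob_iSup_pos {ι : Type*} [Finite ι] {v : ι → K} (hv : v ≠ 0)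
    (w : AbsoluteValue K ℝ) : 0 < ⨆ i, w (v i) := by
  obtain ⟨i, hi⟩ := Function.ne_iff.mp hv
  exact lt_of_lt_of_le (w.pos hi)
    (le_ciSup (Set.finite_range fun i => w (v i)).bddAbove i)

theorem mw_glob_iSup_eq_one {ι : Type*} [Finite ι] {v : ι → K} (hv : v ≠ 0)
    (w : AbsoluteValue K ℝ) (h : ∀ i, v i ≠ 0 → w (v i) = 1) : ⨆ i, w (v i) = 1 := by
  obtain ⟨i, hi⟩ := Function.ne_iff.mp hv
  have : Nonempty ι := ⟨i⟩
  refine le_antisymm (ciSup_le fun j => ?_) ?_
  · by_cases hj : v j = 0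
    · rw [hj, w.map_zero]; exact zero_le_one
    · exact (h j hj).le
  · rw [← h i hi]
    exact le_ciSup (Set.finite_range fun i => w (v i)).bddAbove i

theorem mw_glob_fin_lognorm {ι : Type*} [Finite ι] {v : ι → K} (hv : v ≠ 0) :
    mw_glob_Fin (mw_glob_lognorm v) := by
  have hfin : (⋃ i ∈ {i | v i ≠ 0},
      Function.mulSupport fun w : ↥(nonarchAbsVal (K := K)) => w.val (v i)).Finite :=
    Set.Finite.biUnion (Set.toFinite _) fun i hi => hasFiniteMulSupport hi
  refine hfin.subset fun w hw => ?_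
  by_contra hnot
  apply hw
  simp only [Set.mem_iUnion, Function.mem_mulSupport, not_exists, not_not] at hnot
  show Real.log (⨆ i, w.val (v i)) = 0
  rw [mw_glob_iSup_eq_one hv w.val fun i hi => hnot i hi, Real.log_one]

theorem mw_glob_sum_lognorm {ι : Type*} [Finite ι] {v : ι → K} (hv : v ≠ 0) :
    mw_glob_sum (mw_glob_lognorm v) = logHeight v := by
  rw [logHeight_eq_log_mulHeight, Height.mulHeight_eq hv, mw_glob_sum]
  have h1 : ∀ a ∈ (archAbsVal (K := K)).map (fun w => ⨆ i, w (v i)), a ≠ 0 := by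
    intro a ha
    obtain ⟨w, -, rfl⟩ := Multiset.mem_map.mp ha
    exact (mw_glob_iSup_pos hv w).ne'
  have h2 : ∀ w : ↥(nonarchAbsVal (K := K)), 0 < ⨆ i, w.val (v i) :=
    fun w => mw_glob_iSup_pos hv w.val
  have h3 : ((archAbsVal (K := K)).map (fun w => ⨆ i, w (v i))).prod ≠ 0 :=
    Multiset.prod_ne_zero fun h => h1 0 h rfl
  have h4 : (∏ᶠ w : ↥(nonarchAbsVal (K := K)), ⨆ i, w.val (v i)) ≠ 0 :=
    finprod_ne_zero fun w => (h2 w).ne'
  rw [Real.log_mul h3 h4, Real.log_multiset_prod h1, Multiset.map_map, Real.log_finprod h2]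
  rfl

/-! ### archimedean constants -/

theorem mw_glob_isNonarch {w : AbsoluteValue K ℝ} (hw : w ∈ nonarchAbsVal (K := K)) :
    IsNonarchimedean w := isNonarchimedean w hw

theorem mw_glob_arch_apply_natCast {w : AbsoluteValue K ℝ} (hw : w ∈ archAbsVal (K := K))
    (n : ℕ) : w (n : K) = n := by
  have hw' : IsInfinitePlace w := mem_multisetInfinitePlace.mp hw
  obtain ⟨φ, rfl⟩ := hw'
  simp

theorem mw_glob_not_isNonarch {w : AbsoluteValue K ℝ} (hw : w ∈ archAbsVal (K := K)) :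
    ¬ IsNonarchimedean w := by
  intro h
  have h2 := mw_glob_arch_apply_natCast hw 2
  have h1 : w ((2 : ℕ) : K) ≤ 1 := IsNonarchimedean.apply_natCast_le_one h
  rw [h2] at h1
  norm_num at h1

theorem mw_glob_card_arch : ((archAbsVal (K := K)).card : ℝ) = Module.finrank ℚ K := by
  have h := sum_archAbsVal_eq (K := K) (fun _ => (1 : ℕ))
  simp only [Multiset.map_const', Multiset.sum_replicate, smul_eq_mul, mul_one] at h
  rw [h, InfinitePlace.sum_mult_eq]

/-- the local function `c` at the archimedean places, `0` at the finite places -/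
def mw_glob_archc (c : ℝ) : AbsoluteValue K ℝ → ℝ := fun w => if IsNonarchimedean w then 0 else c

theorem mw_glob_archc_arch (c : ℝ) {w : AbsoluteValue K ℝ} (hw : w ∈ archAbsVal (K := K)) :
    mw_glob_archc c w = c := if_neg (mw_glob_not_isNonarch hw)

theorem mw_glob_archc_nonarch (c : ℝ) {w : AbsoluteValue K ℝ}
    (hw : w ∈ nonarchAbsVal (K := K)) : mw_glob_archc c w = 0 := if_pos (mw_glob_isNonarch hw)

theorem mw_glob_fin_archc (c : ℝ) : mw_glob_Fin (K := K) (mw_glob_archc c) := by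
  have : (fun w : ↥(nonarchAbsVal (K := K)) => mw_glob_archc c w.val) = fun _ => 0 :=
    funext fun w => mw_glob_archc_nonarch c w.2
  rw [mw_glob_Fin, this]
  simp [Function.HasFiniteSupport]

theorem mw_glob_sum_arch_const {F : AbsoluteValue K ℝ → ℝ} (c : ℝ)
    (h : ∀ w ∈ archAbsVal (K := K), F w = c) :
    ((archAbsVal (K := K)).map F).sum = (Module.finrank ℚ K : ℝ) * c := by
  rw [Multiset.map_congr rfl h, Multiset.map_const', Multiset.sum_replicate, nsmul_eq_mul,
    mw_glob_card_arch]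

theorem mw_glob_sum_archc (c : ℝ) :
    mw_glob_sum (K := K) (mw_glob_archc c) = (Module.finrank ℚ K : ℝ) * c := by
  rw [mw_glob_sum, mw_glob_sum_arch_const c fun w hw => mw_glob_archc_arch c hw]
  have : (fun w : ↥(nonarchAbsVal (K := K)) => mw_glob_archc c w.val) = fun _ => 0 :=
    funext fun w => mw_glob_archc_nonarch c w.2
  rw [this, finsum_zero, add_zero]

/-! ### the product formula -/

/-- `w ↦ log |a|_w` -/
def mw_glob_logabs (a : K) : AbsoluteValue K ℝ → ℝ := fun w => Real.log (w a)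

theorem mw_glob_fin_logabs {a : K} (ha : a ≠ 0) : mw_glob_Fin (mw_glob_logabs a) := by
  refine (hasFiniteMulSupport (K := K) ha).subset fun w hw => ?_
  simp only [Function.mem_support, Function.mem_mulSupport, mw_glob_logabs] at hw ⊢
  intro h1
  exact hw (by rw [h1, Real.log_one])

theorem mw_glob_sum_logabs {a : K} (ha : a ≠ 0) : mw_glob_sum (mw_glob_logabs a) = 0 := by
  have hpf := product_formula (K := K) ha
  have h1 : ∀ x ∈ (archAbsVal (K := K)).map (fun w => w a), x ≠ 0 := by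
    intro x hx
    obtain ⟨w, -, rfl⟩ := Multiset.mem_map.mp hx
    exact (w.pos ha).ne'
  have h2 : ∀ w : ↥(nonarchAbsVal (K := K)), 0 < w.val a := fun w => w.val.pos ha
  have h3 : ((archAbsVal (K := K)).map (fun w => w a)).prod ≠ 0 :=
    Multiset.prod_ne_zero fun h => h1 0 h rfl
  have h4 : (∏ᶠ w : ↥(nonarchAbsVal (K := K)), w.val a) ≠ 0 :=
    finprod_ne_zero fun w => (h2 w).ne'
  have := congrArg Real.log hpf
  rw [Real.log_one, Real.log_mul h3 h4, Real.log_multiset_prod h1, Multiset.map_map,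
    Real.log_finprod h2] at this
  exact this

/-! ### primes and finite places -/

/-- a nonarchimedean absolute value which is `< 1` at the prime `p` is `1` at every other prime -/
theorem mw_glob_prime_eq_one {w : AbsoluteValue K ℝ} (hw : IsNonarchimedean w) {p q : ℕ}
    (hp : p.Prime) (hq : q.Prime) (hpq : p ≠ q) (hlt : w (p : K) < 1) : w (q : K) = 1 := by
  refine le_antisymm (IsNonarchimedean.apply_natCast_le_one hw) ?_
  by_contra hlt'
  push Not at hlt'
  have hcop : Nat.Coprime p q := (Nat.coprime_primes hp hq).mpr hpq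
  have hbez : (p : ℤ) * Nat.gcdA p q + (q : ℤ) * Nat.gcdB p q = 1 := by
    have := Nat.gcd_eq_gcd_ab p q
    rw [hcop.gcd_eq_one] at this
    exact_mod_cast this.symm
  have hK : (p : K) * ((Nat.gcdA p q : ℤ) : K) + (q : K) * ((Nat.gcdB p q : ℤ) : K) = 1 := by
    have := congrArg (Int.cast (R := K)) hbez
    push_cast at this
    exact this
  have h1 : w ((p : K) * ((Nat.gcdA p q : ℤ) : K)) < 1 := by
    rw [w.map_mul]
    calc w (p : K) * w ((Nat.gcdA p q : ℤ) : K) ≤ w (p : K) * 1 :=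
          mul_le_mul_of_nonneg_left (IsNonarchimedean.apply_intCast_le_one hw) (w.nonneg _)
      _ < 1 := by rwa [mul_one]
  have h2 : w ((q : K) * ((Nat.gcdB p q : ℤ) : K)) < 1 := by
    rw [w.map_mul]
    calc w (q : K) * w ((Nat.gcdB p q : ℤ) : K) ≤ w (q : K) * 1 :=
          mul_le_mul_of_nonneg_left (IsNonarchimedean.apply_intCast_le_one hw) (w.nonneg _)
      _ < 1 := by rwa [mul_one]
  have h3 := hw ((p : K) * ((Nat.gcdA p q : ℤ) : K)) ((q : K) * ((Nat.gcdB p q : ℤ) : K))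
  rw [hK, w.map_one] at h3
  exact absurd h3 (not_le.mpr (max_lt h1 h2))

/-- if a nonarchimedean absolute value is `1` at all primes, it is `1` at all positive integers -/
theorem mw_glob_natCast_eq_one {w : AbsoluteValue K ℝ}
    (h : ∀ p : ℕ, p.Prime → w (p : K) = 1) {n : ℕ} (hn : n ≠ 0) : w (n : K) = 1 := by
  induction n using Nat.recOnMul with
  | zero => exact absurd rfl hn
  | one => simp
  | prime p hp => exact h p hp
  | mul a b ha hb =>
    have ha0 : a ≠ 0 := fun h0 => hn (by rw [h0, zero_mul])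
    have hb0 : b ≠ 0 := fun h0 => hn (by rw [h0, mul_zero])
    rw [Nat.cast_mul, w.map_mul, ha ha0, hb hb0, one_mul]

/-- every finite place lies over a prime -/
theorem mw_glob_exists_prime {w : AbsoluteValue K ℝ} (hw : w ∈ nonarchAbsVal (K := K)) :
    ∃ p : ℕ, p.Prime ∧ w (p : K) < 1 := by
  obtain ⟨v, rfl⟩ : IsFinitePlace w := hw
  by_contra hnot
  push Not at hnot
  have hna : IsNonarchimedean (place (FinitePlace.embedding v) : AbsoluteValue K ℝ) :=
    isNonarchimedean (K := K) _ (⟨v, rfl⟩ : IsFinitePlace _)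
  have hall : ∀ p : ℕ, p.Prime → (place (FinitePlace.embedding v) : AbsoluteValue K ℝ) (p : K) = 1 :=
    fun p hp => le_antisymm (IsNonarchimedean.apply_natCast_le_one hna) (hnot p hp)
  set n := Ideal.absNorm v.asIdeal with hn
  have hn0 : n ≠ 0 := (lt_trans zero_lt_one (NumberField.HeightOneSpectrum.one_lt_absNorm v)).ne'
  have h1 := mw_glob_natCast_eq_one hall hn0
  have hmem : ((n : ℕ) : 𝓞 K) ∈ v.asIdeal := Ideal.absNorm_mem v.asIdeal
  have h2 := (FinitePlace.norm_lt_one_iff_mem (K := K) v ((n : ℕ) : 𝓞 K)).mpr hmem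
  rw [map_natCast] at h2
  rw [place_apply] at h1
  rw [h1] at h2
  exact lt_irrefl 1 h2

/-! ### the admissible errors -/

/-- the admissible error at `w` for the constants `γ` (archimedean places) and `cp p` (`p ∈ S`) -/
def mw_glob_bnd (γ : ℝ) (cp : ℕ → ℝ) (S : Finset ℕ) : AbsoluteValue K ℝ → ℝ :=
  fun w => if IsNonarchimedean w then ∑ p ∈ S, cp p * (-Real.log (w (p : K))) else γ

theorem mw_glob_bnd_arch (γ : ℝ) (cp : ℕ → ℝ) (S : Finset ℕ) {w : AbsoluteValue K ℝ}
    (hw : w ∈ archAbsVal (K := K)) : mw_glob_bnd γ cp S w = γ :=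
  if_neg (mw_glob_not_isNonarch hw)

theorem mw_glob_bnd_nonarch (γ : ℝ) (cp : ℕ → ℝ) (S : Finset ℕ) {w : AbsoluteValue K ℝ}
    (hw : w ∈ nonarchAbsVal (K := K)) :
    mw_glob_bnd γ cp S w = ∑ p ∈ S, cp p * (-Real.log (w (p : K))) :=
  if_pos (mw_glob_isNonarch hw)

theorem mw_glob_fin_neglog_natCast (p : ℕ) :
    mw_glob_Fin (K := K) fun w => -Real.log (w (p : K)) := by
  by_cases hp : (p : K) = 0
  · have : (fun w : ↥(nonarchAbsVal (K := K)) => -Real.log (w.val (p : K))) = fun _ => 0 := by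
      funext w
      rw [hp, w.val.map_zero, Real.log_zero, neg_zero]
    rw [mw_glob_Fin, this]
    simp [Function.HasFiniteSupport]
  · exact mw_glob_fin_neg (mw_glob_fin_logabs hp)

theorem mw_glob_finsum_neglog_natCast (p : ℕ) :
    ∑ᶠ w : ↥(nonarchAbsVal (K := K)), -Real.log (w.val (p : K))
      = (Module.finrank ℚ K : ℝ) * Real.log p := by
  by_cases hp : (p : K) = 0
  · have hp0 : p = 0 := by exact_mod_cast hp
    have : (fun w : ↥(nonarchAbsVal (K := K)) => -Real.log (w.val (p : K))) = fun _ => 0 := by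
      funext w
      rw [hp, w.val.map_zero, Real.log_zero, neg_zero]
    rw [this, finsum_zero, hp0]
    simp
  · have h := mw_glob_sum_logabs hp
    rw [mw_glob_sum, mw_glob_sum_arch_const (Real.log p) fun w hw => by
      rw [mw_glob_logabs, mw_glob_arch_apply_natCast hw]] at h
    rw [finsum_neg_distrib]
    have h' : ∑ᶠ w : ↥(nonarchAbsVal (K := K)), Real.log (w.val (p : K))
        = ∑ᶠ w : ↥(nonarchAbsVal (K := K)), mw_glob_logabs (p : K) w.val := rfl
    rw [h']
    linarith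

theorem mw_glob_fin_bnd (γ : ℝ) (cp : ℕ → ℝ) (S : Finset ℕ) :
    mw_glob_Fin (K := K) (mw_glob_bnd γ cp S) := by
  have h : mw_glob_Fin (K := K) fun w => ∑ p ∈ S, cp p * (-Real.log (w (p : K))) :=
    mw_glob_fin_sum S fun p _ => mw_glob_fin_const_mul (cp p) (mw_glob_fin_neglog_natCast p)
  have e : (fun w : ↥(nonarchAbsVal (K := K)) => mw_glob_bnd γ cp S w.val)
      = fun w : ↥(nonarchAbsVal (K := K)) => ∑ p ∈ S, cp p * (-Real.log (w.val (p : K))) :=
    funext fun w => mw_glob_bnd_nonarch γ cp S w.2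
  rw [mw_glob_Fin, e]
  exact h

theorem mw_glob_sum_bnd (γ : ℝ) (cp : ℕ → ℝ) (S : Finset ℕ) :
    mw_glob_sum (K := K) (mw_glob_bnd γ cp S)
      = (Module.finrank ℚ K : ℝ) * (γ + ∑ p ∈ S, cp p * Real.log p) := by
  rw [mw_glob_sum, mw_glob_sum_arch_const γ fun w hw => mw_glob_bnd_arch γ cp S hw]
  have e : (fun w : ↥(nonarchAbsVal (K := K)) => mw_glob_bnd γ cp S w.val)
      = fun w : ↥(nonarchAbsVal (K := K)) => ∑ p ∈ S, cp p * (-Real.log (w.val (p : K))) :=
    funext fun w => mw_glob_bnd_nonarch γ cp S w.2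
  rw [e, finsum_sum_comm S _ fun p _ =>
    mw_glob_fin_const_mul (cp p) (mw_glob_fin_neglog_natCast (K := K) p)]
  have e2 : ∀ p ∈ S, ∑ᶠ w : ↥(nonarchAbsVal (K := K)), cp p * (-Real.log (w.val (p : K)))
      = cp p * ((Module.finrank ℚ K : ℝ) * Real.log p) := fun p _ => by
    rw [← mul_finsum, mw_glob_finsum_neglog_natCast]
  rw [Finset.sum_congr rfl e2, mul_add, Finset.mul_sum]
  congr 1
  exact Finset.sum_congr rfl fun p _ => by ring

end Generic

/-! ### bundled form: the space of local functions and the total sum as a linear map -/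

section Bundled

variable (K : Type*) [Field K] [NumberField K]

/-- the space of local functions with finite support on the finite places -/
def mw_glob_LF : Submodule ℝ (AbsoluteValue K ℝ → ℝ) where
  carrier := {F | mw_glob_Fin F}
  add_mem' hF hG := mw_glob_fin_add hF hG
  zero_mem' := mw_glob_fin_zero
  smul_mem' c _ hF := mw_glob_fin_const_mul c hF

/-- the total sum, as a linear map -/
def mw_glob_tot : ↥(mw_glob_LF K) →ₗ[ℝ] ℝ where
  toFun F := mw_glob_sum F.1
  map_add' F G := mw_glob_sum_add F.2 G.2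
  map_smul' c F := mw_glob_sum_const_mul c F.1

variable {K}

theorem mw_glob_tot_apply (F : ↥(mw_glob_LF K)) : mw_glob_tot K F = mw_glob_sum F.1 := rfl

/-- monotonicity of the total sum -/
theorem mw_glob_tot_le {F G : ↥(mw_glob_LF K)}
    (h : ∀ w, w ∈ archAbsVal (K := K) ∨ w ∈ nonarchAbsVal (K := K) → F.1 w ≤ G.1 w) :
    mw_glob_tot K F ≤ mw_glob_tot K G :=
  mw_glob_sum_le F.2 G.2 (fun w hw => h w (Or.inl hw)) (fun w hw => h w (Or.inr hw))

theorem mw_glob_tot_nonneg {F : ↥(mw_glob_LF K)}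
    (h : ∀ w, w ∈ archAbsVal (K := K) ∨ w ∈ nonarchAbsVal (K := K) → 0 ≤ F.1 w) :
    0 ≤ mw_glob_tot K F := by
  have := mw_glob_tot_le (F := 0) (G := F) h
  rwa [map_zero] at this

/-- `w ↦ log ‖v‖_w` as a bundled local function -/
def mw_glob_ln {ι : Type*} [Finite ι] (v : ι → K) (hv : v ≠ 0) : ↥(mw_glob_LF K) :=
  ⟨mw_glob_lognorm v, mw_glob_fin_lognorm hv⟩

@[simp] theorem mw_glob_tot_ln {ι : Type*} [Finite ι] (v : ι → K) (hv : v ≠ 0) :
    mw_glob_tot K (mw_glob_ln v hv) = logHeight v := mw_glob_sum_lognorm hv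

theorem mw_glob_ln_apply {ι : Type*} [Finite ι] (v : ι → K) (hv : v ≠ 0)
    (w : AbsoluteValue K ℝ) : (mw_glob_ln v hv).1 w = Real.log (⨆ i, w (v i)) := rfl

/-- the archimedean constant `c` as a bundled local function -/
def mw_glob_ac (c : ℝ) : ↥(mw_glob_LF K) := ⟨mw_glob_archc c, mw_glob_fin_archc c⟩

@[simp] theorem mw_glob_tot_ac (c : ℝ) :
    mw_glob_tot K (mw_glob_ac c) = (Module.finrank ℚ K : ℝ) * c := mw_glob_sum_archc c

theorem mw_glob_ac_arch (c : ℝ) {w : AbsoluteValue K ℝ} (hw : w ∈ archAbsVal (K := K)) :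
    (mw_glob_ac (K := K) c).1 w = c := mw_glob_archc_arch c hw

theorem mw_glob_ac_nonarch (c : ℝ) {w : AbsoluteValue K ℝ} (hw : w ∈ nonarchAbsVal (K := K)) :
    (mw_glob_ac (K := K) c).1 w = 0 := mw_glob_archc_nonarch c hw

/-- the admissible errors as a bundled local function -/
def mw_glob_bd (γ : ℝ) (cp : ℕ → ℝ) (S : Finset ℕ) : ↥(mw_glob_LF K) :=
  ⟨mw_glob_bnd γ cp S, mw_glob_fin_bnd γ cp S⟩

@[simp] theorem mw_glob_tot_bd (γ : ℝ) (cp : ℕ → ℝ) (S : Finset ℕ) :
    mw_glob_tot K (mw_glob_bd γ cp S)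
      = (Module.finrank ℚ K : ℝ) * (γ + ∑ p ∈ S, cp p * Real.log p) := mw_glob_sum_bnd γ cp S

theorem mw_glob_bd_apply (γ : ℝ) (cp : ℕ → ℝ) (S : Finset ℕ) (w : AbsoluteValue K ℝ) :
    (mw_glob_bd (K := K) γ cp S).1 w = mw_glob_bnd γ cp S w := rfl

end Bundled

/-! ### the admissible errors of `mw_IsBound` -/

section Bound

variable (K' : IntermediateField ℚ mw_K) [NumberField ↥K']

/-- `mw_glob_bnd γ cp S w` IS the admissible error at `w`, for `S ⊇` the primes in the support of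
`cp`. -/
theorem mw_glob_isBound (γ : ℝ) (cp : ℕ → ℝ) (S : Finset ℕ)
    (hS : ∀ p : ℕ, p.Prime → cp p ≠ 0 → p ∈ S) (hSp : ∀ p ∈ S, p.Prime)
    {w : AbsoluteValue ↥K' ℝ}
    (hw : w ∈ archAbsVal (K := ↥K') ∨ w ∈ nonarchAbsVal (K := ↥K')) :
    mw_IsBound K' w γ cp (mw_glob_bnd γ cp S w) := by
  rcases hw with hw | hw
  · exact Or.inl ⟨hw, mw_glob_bnd_arch γ cp S hw⟩
  · obtain ⟨p, hp, hlt⟩ := mw_glob_exists_prime hw
    refine Or.inr ⟨hw, p, hp, hlt, ?_⟩
    rw [mw_glob_bnd_nonarch γ cp S hw]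
    have hna := mw_glob_isNonarch hw
    have hzero : ∀ q ∈ S, q ≠ p → cp q * (-Real.log (w (q : ↥K'))) = 0 := fun q hq hqp => by
      rw [mw_glob_prime_eq_one hna hp (hSp q hq) (Ne.symm hqp) hlt, Real.log_one, neg_zero,
        mul_zero]
    by_cases hpS : p ∈ S
    · rw [Finset.sum_eq_single p (fun q hq hqp => hzero q hq hqp) (fun h => absurd hpS h)]
      ring
    · have hcp : cp p = 0 := by
        by_contra h
        exact hpS (hS p hp h)
      rw [Finset.sum_eq_zero fun q hq => hzero q hq (fun h => hpS (h ▸ hq)), hcp, zero_mul,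
        neg_zero]

/-! ### vectors of `Q̄` with coordinates in `K'` -/

/-- a vector of `Q̄` with coordinates in `K'`, as a vector of `K'` -/
def mw_glob_lift {ι : Type*} (v : ι → mw_K) (hv : ∀ i, v i ∈ K') : ι → ↥K' :=
  fun i => ⟨v i, hv i⟩

omit [NumberField ↥K'] in
theorem mw_glob_lift_ne_zero {ι : Type*} {v : ι → mw_K} (hv : ∀ i, v i ∈ K') (h0 : v ≠ 0) :
    mw_glob_lift K' v hv ≠ 0 := by
  obtain ⟨i, hi⟩ := Function.ne_iff.mp h0
  refine Function.ne_iff.mpr ⟨i, fun h => hi ?_⟩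
  exact congrArg Subtype.val h

omit [NumberField ↥K'] in
theorem mw_glob_wabs_eq (w : AbsoluteValue ↥K' ℝ) {z : mw_K} (hz : z ∈ K') :
    mw_wabs K' w z = w ⟨z, hz⟩ := by
  rw [mw_wabs, dif_pos hz]

omit [NumberField ↥K'] in
theorem mw_glob_wnorm_eq (w : AbsoluteValue ↥K' ℝ) {ι : Type} [Fintype ι] (v : ι → mw_K)
    (hv : ∀ i, v i ∈ K') : mw_wnorm K' w v = ⨆ i, w (mw_glob_lift K' v hv i) := by
  rw [mw_wnorm]
  congr 1
  funext i
  exact mw_glob_wabs_eq K' w (hv i)

/-- `w ↦ log ‖v‖_w` (in terms of `mw_wnorm`) as a bundled local function -/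
def mw_glob_lw {ι : Type} [Fintype ι] (v : ι → mw_K) (hv : ∀ i, v i ∈ K') (h0 : v ≠ 0) :
    ↥(mw_glob_LF ↥K') :=
  mw_glob_ln (mw_glob_lift K' v hv) (mw_glob_lift_ne_zero K' hv h0)

theorem mw_glob_lw_apply {ι : Type} [Fintype ι] (v : ι → mw_K) (hv : ∀ i, v i ∈ K') (h0 : v ≠ 0)
    (w : AbsoluteValue ↥K' ℝ) :
    (mw_glob_lw K' v hv h0).1 w = Real.log (mw_wnorm K' w v) := by
  rw [mw_glob_wnorm_eq K' w v hv]
  rfl

/-- `∑_w log ‖v‖_w = [K' : ℚ] · h(v)` -/
theorem mw_glob_tot_lw {ι : Type} [Fintype ι] (v : ι → mw_K) (hv : ∀ i, v i ∈ K') (h0 : v ≠ 0) :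
    mw_glob_tot ↥K' (mw_glob_lw K' v hv h0) = (Module.finrank ℚ ↥K' : ℝ) * mw_ht v := by
  rw [mw_glob_lw, mw_glob_tot_ln]
  have h := mw_ah_seamABS K' (mw_glob_lift K' v hv)
  have hd : (Module.finrank ℚ ↥K' : ℝ) ≠ 0 := by
    have : 0 < Module.finrank ℚ ↥K' := Module.finrank_pos
    positivity
  have e : (fun i => ((mw_glob_lift K' v hv i : ↥K') : mw_K)) = v := rfl
  rw [e, mw_htIn] at h
  rw [← h]
  field_simp

theorem mw_glob_finrank_pos : (0 : ℝ) < (Module.finrank ℚ ↥K' : ℝ) := by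
  have : 0 < Module.finrank ℚ ↥K' := Module.finrank_pos
  positivity

end Bound

/-! ### the number field generated by a number field and finitely many algebraic numbers -/

/-- `K₀(S)` for a finite set `S` of algebraic numbers -/
def mw_glob_ext (K₀ : IntermediateField ℚ mw_K) (S : Set mw_K) : IntermediateField ℚ mw_K :=
  K₀ ⊔ IntermediateField.adjoin ℚ S

theorem mw_glob_le_ext (K₀ : IntermediateField ℚ mw_K) (S : Set mw_K) :
    K₀ ≤ mw_glob_ext K₀ S := le_sup_left

theorem mw_glob_mem_ext (K₀ : IntermediateField ℚ mw_K) {S : Set mw_K} {z : mw_K} (hz : z ∈ S) :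
    z ∈ mw_glob_ext K₀ S :=
  (le_sup_right : IntermediateField.adjoin ℚ S ≤ mw_glob_ext K₀ S)
    (IntermediateField.subset_adjoin ℚ S hz)

theorem mw_glob_ext_finiteDimensional (K₀ : IntermediateField ℚ mw_K)
    [FiniteDimensional ℚ ↥K₀] {S : Set mw_K} (hS : S.Finite) :
    FiniteDimensional ℚ ↥(mw_glob_ext K₀ S) := by
  have : FiniteDimensional ℚ ↥(IntermediateField.adjoin ℚ S) := by
    have := hS.to_subtype
    exact IntermediateField.finiteDimensional_adjoin (S := S)
      (fun x _ => ((AlgebraicClosure.isAlgebraic ℚ).isAlgebraic x).isIntegral)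
  exact IntermediateField.finiteDimensional_sup K₀ _

theorem mw_glob_ext_numberField (K₀ : IntermediateField ℚ mw_K)
    [FiniteDimensional ℚ ↥K₀] {S : Set mw_K} (hS : S.Finite) :
    NumberField ↥(mw_glob_ext K₀ S) :=
  haveI := mw_glob_ext_finiteDimensional K₀ hS
  { }

end Fermat.Agent.MW
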