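/-
Project MW (S17), global leaf [BL↓] (helper24): the height of a subsystem `ψ` of the complete system
`y = L(a∞)` is at least `h_y - h_𝔅 - C`, `𝔅` the base divisor of `ψ`:
`theorem mw_bllow (N) (hKL : mw_SeamKLmu N) : mw_SeamBLlow N`.

Route (#1957): two fixed sections of `ψ` with disjoint moving zeros (`BLlow/Sections.lean`); the lower
half of `[KLμ]` (`μ = 0`) for both at every place `w` of a number field `K'` containing all the
coordinates (`BLlow/OneSection.lean`); the triangle inequality [TRI] for the chordal distance shows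
that at every `w` one of the two sections has all its moving zeros far from `P` (`BLlow/Place.lean`,
`BLlow/TwoSections.lean`); sum over the places with the globalisation kit (`MW/Global/Glob.lean`,
`BLlow/Generic.lean`).  The finitely many points on the moving zeros of the two sections are absorbed
in the constant.  Prefix `mw_bll_`.
-/
import Fermat.Agent.MW.Global.BLlow.Generic

set_option autoImplicit false
set_option linter.unusedSectionVars false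

noncomputable section

namespace Fermat.Agent.MW

open AlgebraicCurve ModularCurve Height AdmissibleAbsValues
open scoped Classical

/-- **[BL↓]** -/
theorem mw_bllow (N : ℕ) [NeZero N] (hKL : mw_SeamKLmu N) : mw_SeamBLlow N := by
  intro r x hx Pinf hPinf
  obtain ⟨a₀, ha₀⟩ := hKL x hx Pinf hPinf
  obtain ⟨k, hk⟩ := mw_bll_ord_piv_y hx
  refine ⟨max a₀ k, fun a ha s y hyc m ψ hψ hψL 𝔅 h𝔅 => ?_⟩
  have ha₀' : a₀ ≤ a := le_trans (le_max_left _ _) ha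
  have hk' : k ≤ a := le_trans (le_max_right _ _) ha
  obtain ⟨γ, cp, K₀, hK₀fd, -, -, hcpfin, hloc⟩ := ha₀ a ha₀' y hyc
  have hpiv := hk Pinf a hk' s y hyc
  have hy := hyc.1
  obtain ⟨M, hM⟩ := mw_bll_exists_matrix hyc hψL
  obtain ⟨c₁, c₂, hc₁, hc₂, hj₁, hj₂, hdisj⟩ := mw_bll_exists_sections hψ hM
  have hS₁ : ∀ z, z ∈ (mw_inc_finite_zeroMult hψ hc₁).toFinset ↔ mw_zeroMult ψ c₁ z ≠ 0 :=
    fun z => (Set.Finite.mem_toFinset _).trans Iff.rfl
  have hS₂ : ∀ z, z ∈ (mw_inc_finite_zeroMult hψ hc₂).toFinset ↔ mw_zeroMult ψ c₂ z ≠ 0 :=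
    fun z => (Set.Finite.mem_toFinset _).trans Iff.rfl
  generalize (mw_inc_finite_zeroMult hψ hc₁).toFinset = S₁ at hS₁
  generalize (mw_inc_finite_zeroMult hψ hc₂).toFinset = S₂ at hS₂
  have hSp : ∀ p : ℕ, p.Prime → cp p ≠ 0 → p ∈ hcpfin.toFinset.filter Nat.Prime :=
    fun p hp h => Finset.mem_filter.mpr ⟨(Set.Finite.mem_toFinset _).mpr h, hp⟩
  have hSp' : ∀ p ∈ hcpfin.toFinset.filter Nat.Prime, p.Prime :=
    fun p hp => (Finset.mem_filter.mp hp).2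
  generalize hcpfin.toFinset.filter Nat.Prime = Sp at hSp hSp'
  have hD₁ : ∑ z ∈ S₁, (mw_zeroMult ψ c₁ z).toNat
      ≤ max (∑ z ∈ S₁, (mw_zeroMult ψ c₁ z).toNat) (∑ z ∈ S₂, (mw_zeroMult ψ c₂ z).toNat) :=
    le_max_left _ _
  have hD₂ : ∑ z ∈ S₂, (mw_zeroMult ψ c₂ z).toNat
      ≤ max (∑ z ∈ S₁, (mw_zeroMult ψ c₁ z).toNat) (∑ z ∈ S₂, (mw_zeroMult ψ c₂ z).toNat) :=
    le_max_right _ _
  generalize max (∑ z ∈ S₁, (mw_zeroMult ψ c₁ z).toNat) (∑ z ∈ S₂, (mw_zeroMult ψ c₂ z).toNat)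
    = D at hD₁ hD₂
  refine ⟨|mw_bll_Cgen x γ cp Sp c₁ c₂ S₁ S₂ D|
    + ∑ Q ∈ S₁ ∪ S₂, |mw_ht (mw_vec y Q) - mw_hDiv N x 𝔅 Q - mw_ht (mw_vec ψ Q)|,
    fun P hP => ?_⟩
  have hsum0 : 0 ≤ ∑ Q ∈ S₁ ∪ S₂, |mw_ht (mw_vec y Q) - mw_hDiv N x 𝔅 Q - mw_ht (mw_vec ψ Q)| :=
    Finset.sum_nonneg fun Q _ => abs_nonneg _
  by_cases hex : P ∈ S₁ ∪ S₂
  · -- the exceptional points
    have h1 : |mw_ht (mw_vec y P) - mw_hDiv N x 𝔅 P - mw_ht (mw_vec ψ P)|
        ≤ ∑ Q ∈ S₁ ∪ S₂, |mw_ht (mw_vec y Q) - mw_hDiv N x 𝔅 Q - mw_ht (mw_vec ψ Q)| :=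
      Finset.single_le_sum
        (f := fun Q => |mw_ht (mw_vec y Q) - mw_hDiv N x 𝔅 Q - mw_ht (mw_vec ψ Q)|)
        (fun Q _ => abs_nonneg _) hex
    have h2 := le_abs_self (mw_ht (mw_vec y P) - mw_hDiv N x 𝔅 P - mw_ht (mw_vec ψ P))
    have h3 := abs_nonneg (mw_bll_Cgen x γ cp Sp c₁ c₂ S₁ S₂ D)
    linarith
  · -- the generic points
    have hP₁ : P ∉ S₁ := fun h => hex (Finset.mem_union_left _ h)
    have hP₂ : P ∉ S₂ := fun h => hex (Finset.mem_union_right _ h)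
    -- the number field `K'`
    have hTfin : (Set.range (mw_vec x P) ∪ Set.range (mw_vec y P) ∪ Set.range c₁ ∪ Set.range c₂
        ∪ Set.range (mw_bll_tr M c₁) ∪ Set.range (mw_bll_tr M c₂)
        ∪ Set.range (mw_bll_u M (mw_vec y P))
        ∪ ⋃ z ∈ (↑(𝔅.support ∪ S₁ ∪ S₂) : Set (mw_X N)), Set.range (mw_vec x z)).Finite :=
      (((((((Set.finite_range _).union (Set.finite_range _)).union (Set.finite_range _)).union
        (Set.finite_range _)).union (Set.finite_range _)).union (Set.finite_range _)).union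
        (Set.finite_range _)).union
        (Set.Finite.biUnion (Finset.finite_toSet _) fun z _ => Set.finite_range _)
    generalize hT : (Set.range (mw_vec x P) ∪ Set.range (mw_vec y P) ∪ Set.range c₁ ∪ Set.range c₂
        ∪ Set.range (mw_bll_tr M c₁) ∪ Set.range (mw_bll_tr M c₂)
        ∪ Set.range (mw_bll_u M (mw_vec y P))
        ∪ ⋃ z ∈ (↑(𝔅.support ∪ S₁ ∪ S₂) : Set (mw_X N)), Set.range (mw_vec x z)) = T at hTfin
    have hxP : ∀ b, mw_vec x P b ∈ mw_glob_ext K₀ T := fun b => mw_glob_mem_ext K₀ (by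
      rw [← hT]
      exact Or.inl (Or.inl (Or.inl (Or.inl (Or.inl (Or.inl (Or.inl ⟨b, rfl⟩)))))))
    have hyP : ∀ b, mw_vec y P b ∈ mw_glob_ext K₀ T := fun b => mw_glob_mem_ext K₀ (by
      rw [← hT]
      exact Or.inl (Or.inl (Or.inl (Or.inl (Or.inl (Or.inl (Or.inr ⟨b, rfl⟩)))))))
    have hc₁K : ∀ b, c₁ b ∈ mw_glob_ext K₀ T := fun b => mw_glob_mem_ext K₀ (by
      rw [← hT]
      exact Or.inl (Or.inl (Or.inl (Or.inl (Or.inl (Or.inr ⟨b, rfl⟩))))))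
    have hc₂K : ∀ b, c₂ b ∈ mw_glob_ext K₀ T := fun b => mw_glob_mem_ext K₀ (by
      rw [← hT]
      exact Or.inl (Or.inl (Or.inl (Or.inl (Or.inr ⟨b, rfl⟩)))))
    have hcc₁ : ∀ b, mw_bll_tr M c₁ b ∈ mw_glob_ext K₀ T := fun b => mw_glob_mem_ext K₀ (by
      rw [← hT]
      exact Or.inl (Or.inl (Or.inl (Or.inr ⟨b, rfl⟩))))
    have hcc₂ : ∀ b, mw_bll_tr M c₂ b ∈ mw_glob_ext K₀ T := fun b => mw_glob_mem_ext K₀ (by
      rw [← hT]
      exact Or.inl (Or.inl (Or.inr ⟨b, rfl⟩)))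
    have hu : ∀ b, mw_bll_u M (mw_vec y P) b ∈ mw_glob_ext K₀ T := fun b =>
      mw_glob_mem_ext K₀ (by
        rw [← hT]
        exact Or.inl (Or.inr ⟨b, rfl⟩))
    have hxz : ∀ z, z ∈ 𝔅.support ∨ z ∈ S₁ ∨ z ∈ S₂ → ∀ b, mw_vec x z b ∈ mw_glob_ext K₀ T := by
      intro z hz b
      refine mw_glob_mem_ext K₀ ?_
      rw [← hT]
      refine Or.inr (Set.mem_biUnion (x := z) ?_ ⟨b, rfl⟩)
      rw [Finset.mem_coe, Finset.mem_union, Finset.mem_union]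
      tauto
    have hfd : FiniteDimensional ℚ ↥K₀ := hK₀fd
    have hnf : NumberField ↥(mw_glob_ext K₀ T) := mw_glob_ext_numberField K₀ hTfin
    have hgen := mw_bll_generic hx hy hψ hM hpiv h𝔅 hc₁ hc₂ hj₁ hj₂ hdisj S₁ S₂ hS₁ hS₂ D
      hD₁ hD₂ hP hP₁ hP₂ γ cp Sp hSp hSp' (mw_glob_ext K₀ T)
      (fun w bnd hb => hloc (mw_glob_ext K₀ T) w bnd (mw_glob_le_ext K₀ T) hb)
      hc₁K hc₂K hcc₁ hcc₂ hxP hyP hu hxz
    have h3 := le_abs_self (mw_bll_Cgen x γ cp Sp c₁ c₂ S₁ S₂ D)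
    linarith

end Fermat.Agent.MW
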