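/-
Project MW (S17), GLOBAL leaf [RRK] (helper25): Riemann–Roch with duality for `X₀(N)` over `Q̄`,
the canonical divisor being `div(dt)` for EVERY non-constant `t` (one genus `g`).

Instance of the generic theorem `rrk_riemannRoch` (MW/RRK/RR.lean; Dedekind–Weber route on top of
S20/Reduced, S20/Dual, S24/Hurwitz, JT3/Riemann) for `F = mw_F N`, with the separating generator
`j` (`br_jBar N`).
-/
import Mathlib
import Fermat.Agent.MW.Global.Seams
import Fermat.Agent.MW.RRK.RR
import Fermat.Agent.JT3.Riemann.FBar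

set_option autoImplicit false

noncomputable section

namespace Fermat.Agent.MW

open AlgebraicCurve ModularCurve IntermediateField
open Fermat.Agent.S24 Fermat.Agent.JT3
open scoped Classical

variable (N : ℕ) [NeZero N]

/-- `mw_dOrd` is the generic `rrk_dOrd` -/
theorem mw_rrk_dOrd_eq (t : mw_F N) (z : mw_X N) : mw_dOrd N t z = rrk_dOrd t z := rfl

/-- **[RRK]** Riemann–Roch with duality, canonical divisor `div(dt)` -/
theorem mw_rrk : mw_SeamRRK N := by
  have : FiniteDimensional Kbar⟮br_jBar N⟯ (Fbar N) := (rt_isSepGen_jBar N).2.1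
  obtain ⟨g, hg⟩ := rrk_riemannRoch (K := mw_K) (F := mw_F N) (br_jBar N)
    (br_jBar_transcendental N)
  refine ⟨g, fun t ht => ?_⟩
  obtain ⟨𝔇, h𝔇, hRR⟩ := hg t ht
  exact ⟨𝔇, fun z => (h𝔇 z).trans (mw_rrk_dOrd_eq N t z).symm, fun D => hRR D⟩

end Fermat.Agent.MW
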