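/-
Project MW (S17), GLOBAL leaves [TWO] + [BASE] + [CPL] (helper25): the geometric data of `[POS1]`
and `[DIAG]`.

* `mw_data_cpl N  : mw_SeamCPL N`   complete systems exist (a basis of `L(a∞)`);
* `mw_data_base N : mw_SeamBASE N`  a divisor of large degree is linearly equivalent to `n + 1`
                                    effective divisors with pairwise disjoint supports;
* `mw_data_two_strong N Pinf`       for every large `n` two functions `t₁ t₂ ∈ L(n∞)` of EXACT pole
                                    order `n` at `∞` without common ramification point outside `∞`;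
* `mw_data_two N  : mw_SeamTWO N`   two non-constant functions whose differentials have no common
                                    zero or pole outside `∞`.
Generic parts in the `rt_` context (`mw_data_avoid`, `mw_data_step`, `mw_data_base_gen`,
`mw_data_two_gen`).  Prefix `mw_data_`.
-/
import Mathlib
import Fermat.Agent.MW.Global.Seams3
import Fermat.Agent.MW.Global.RRK
import Fermat.Agent.FF.Generic

set_option autoImplicit false
set_option linter.unusedSectionVars false

noncomputable section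

namespace Fermat.Agent.MW

open AlgebraicCurve ModularCurve IntermediateField
open Fermat.Agent.S24 Fermat.Agent.S20 Fermat.Agent.JT3 Fermat.Agent.FF
open scoped Classical

section generic

universe u v
variable {K : Type u} {F : Type v} [Field K] [Field F] [Algebra K F]

/-- a vector of `L` outside finitely many subspaces not containing `L` -/
theorem mw_data_avoid {ι : Type*} [Finite ι] [Infinite K] (L : Submodule K F)
    (W : ι → Submodule K F) (hW : ∀ i, ¬ L ≤ W i) : ∃ f ∈ L, ∀ i, f ∉ W i := by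
  have hp : ∀ i, (W i).comap L.subtype ≠ ⊤ := by
    intro i h
    apply hW i
    intro f hf
    have : (⟨f, hf⟩ : ↥L) ∈ (W i).comap L.subtype := by
      rw [h]
      trivial
    exact this
  obtain ⟨⟨f, hfL⟩, hf⟩ := Submodule.exists_forall_notMem_of_forall_ne_top _ hp
  exact ⟨f, hfL, fun i hi => hf i hi⟩

variable [IsAlgClosed K] {x : F} (hx : rt_IsSepGen K x)

include hx

/-- removing a point from a divisor of large degree lowers `L` -/
theorem mw_data_not_le (g : ℕ) (c : ℤ)
    (hR : ∀ D : Divisor K F, c ≤ Divisor.degree D →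
      (Module.finrank K ↥(riemannRochSpace D) : ℤ) = Divisor.degree D + 1 - g)
    (D : Divisor K F) (hD : c + 1 ≤ Divisor.degree D) (s : Place K F) :
    ¬ riemannRochSpace D ≤ riemannRochSpace (D - Finsupp.single s 1) := by
  intro hle
  have hfin := rt_L_finite hx (D - Finsupp.single s 1)
  have h1 := Submodule.finrank_mono hle
  have h2 := hR D (by omega)
  have hdeg : Divisor.degree (D - Finsupp.single s 1) = Divisor.degree D - 1 := by
    rw [map_sub, rt_degree_single hx]
  have h3 := hR (D - Finsupp.single s 1) (by rw [hdeg]; omega)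
  rw [hdeg] at h3
  have h4 : (Module.finrank K ↥(riemannRochSpace D) : ℤ) ≤
      (Module.finrank K ↥(riemannRochSpace (D - Finsupp.single s 1)) : ℤ) := by
    exact_mod_cast h1
  omega

/-- `L(D) ≠ 0` for `D` of large degree -/
theorem mw_data_not_le_bot (g : ℕ) (c : ℤ)
    (hR : ∀ D : Divisor K F, c ≤ Divisor.degree D →
      (Module.finrank K ↥(riemannRochSpace D) : ℤ) = Divisor.degree D + 1 - g)
    (D : Divisor K F) (hD : c + 1 ≤ Divisor.degree D) :
    ¬ riemannRochSpace D ≤ (⊥ : Submodule K F) := by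
  intro hle
  have hinf : Infinite (Place K F) := ffg_infinite_place hx
  obtain ⟨s⟩ := hinf.nonempty
  apply mw_data_not_le hx g c hR D hD s
  exact hle.trans bot_le

/-- an element of `L(D)` outside `L(D - s)` has exact order `-D(s)` at `s` -/
theorem mw_data_ord_eq {D : Divisor K F} {s : Place K F} {f : F} (hf0 : f ≠ 0)
    (hf : f ∈ riemannRochSpace D) (hfs : f ∉ riemannRochSpace (D - Finsupp.single s 1)) :
    s.ord f = -D s := by
  have h1 := (rt_mem_L_iff hf0).mp hf
  rw [rt_mem_L_iff hf0] at hfs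
  push Not at hfs
  obtain ⟨v, hv⟩ := hfs
  by_cases hvs : v = s
  · subst hvs
    rw [Finsupp.sub_apply, Finsupp.single_eq_same] at hv
    have := h1 v
    omega
  · rw [Finsupp.sub_apply, Finsupp.single_eq_of_ne hvs, sub_zero] at hv
    have := h1 v
    omega

/-- **the moving step**: `D` of large degree is equivalent to an effective divisor avoiding `S` -/
theorem mw_data_step (g : ℕ) (c : ℤ)
    (hR : ∀ D : Divisor K F, c ≤ Divisor.degree D →
      (Module.finrank K ↥(riemannRochSpace D) : ℤ) = Divisor.degree D + 1 - g)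
    (D : Divisor K F) (hD : c + 1 ≤ Divisor.degree D) (S : Finset (Place K F)) :
    ∃ f : F, f ≠ 0 ∧ 0 ≤ D + rt_div hx f ∧ ∀ s ∈ S, (D + rt_div hx f) s = 0 := by
  have : Infinite K := IsAlgClosed.instInfinite
  let W : Option ↥S → Submodule K F := fun o =>
    match o with
    | none => ⊥
    | some s => riemannRochSpace (D - Finsupp.single s.1 1)
  have hW : ∀ o, ¬ riemannRochSpace D ≤ W o := by
    intro o
    cases o with
    | none => exact mw_data_not_le_bot hx g c hR D hD
    | some s => exact mw_data_not_le hx g c hR D hD s.1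
  obtain ⟨f, hfL, hf⟩ := mw_data_avoid (riemannRochSpace D) W hW
  have hf0 : f ≠ 0 := fun h0 => hf none (by rw [h0]; exact Submodule.zero_mem _)
  refine ⟨f, hf0, ?_, fun s hs => ?_⟩
  · rw [Finsupp.le_def]
    intro v
    have := (rt_mem_L_iff hf0).mp hfL v
    rw [Finsupp.zero_apply, Finsupp.add_apply, rt_div_apply]
    omega
  · rw [Finsupp.add_apply, rt_div_apply, mw_data_ord_eq hx hf0 hfL (hf (some ⟨s, hs⟩))]
    ring

/-- **[BASE], generic form** -/
theorem mw_data_base_gen (g : ℕ) (c : ℤ)
    (hR : ∀ D : Divisor K F, c ≤ Divisor.degree D →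
      (Module.finrank K ↥(riemannRochSpace D) : ℤ) = Divisor.degree D + 1 - g)
    (D : Divisor K F) (hD : c + 1 ≤ Divisor.degree D) (n : ℕ) :
    ∃ 𝔅 : Fin (n + 1) → Divisor K F, (∀ j, 0 ≤ 𝔅 j) ∧
      (∀ j, ∃ f : F, f ≠ 0 ∧ ∀ z : Place K F, 𝔅 j z = D z + z.ord f) ∧
      ∀ i j, i ≠ j → Disjoint (𝔅 i).support (𝔅 j).support := by
  induction n with
  | zero =>
    obtain ⟨f, hf0, hnn, -⟩ := mw_data_step hx g c hR D hD ∅
    refine ⟨fun _ => D + rt_div hx f, fun _ => hnn, fun _ => ⟨f, hf0, fun z => ?_⟩, ?_⟩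
    · rw [Finsupp.add_apply, rt_div_apply]
    · intro i j hij
      exact absurd (Fin.ext (by have := i.2; have := j.2; omega)) hij
  | succ n ih =>
    obtain ⟨𝔅, h1, h2, h3⟩ := ih
    obtain ⟨f, hf0, hnn, hS⟩ :=
      mw_data_step hx g c hR D hD (Finset.univ.biUnion fun j => (𝔅 j).support)
    have hnew : ∀ j, Disjoint (D + rt_div hx f).support (𝔅 j).support := by
      intro j
      rw [Finset.disjoint_left]
      intro v hv hv'
      rw [Finsupp.mem_support_iff] at hv
      exact hv (hS v (Finset.mem_biUnion.mpr ⟨j, Finset.mem_univ j, hv'⟩))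
    refine ⟨Fin.snoc 𝔅 (D + rt_div hx f), ?_, ?_, ?_⟩
    · intro j
      refine Fin.lastCases ?_ (fun i => ?_) j
      · rw [Fin.snoc_last]
        exact hnn
      · rw [Fin.snoc_castSucc]
        exact h1 i
    · intro j
      refine Fin.lastCases ?_ (fun i => ?_) j
      · rw [Fin.snoc_last]
        exact ⟨f, hf0, fun z => by rw [Finsupp.add_apply, rt_div_apply]⟩
      · rw [Fin.snoc_castSucc]
        exact h2 i
    · intro i j
      refine Fin.lastCases ?_ (fun i' => ?_) i
      · refine Fin.lastCases ?_ (fun j' => ?_) j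
        · intro h
          exact absurd rfl h
        · intro _
          rw [Fin.snoc_last, Fin.snoc_castSucc]
          exact hnew j'
      · refine Fin.lastCases ?_ (fun j' => ?_) j
        · intro _
          rw [Fin.snoc_last, Fin.snoc_castSucc]
          exact (hnew i').symm
        · intro h
          rw [Fin.snoc_castSucc, Fin.snoc_castSucc]
          exact h3 i' j' fun h' => h (by rw [h'])

/-- an element of `L(n∞)` outside `L((n-1)∞)` has exact pole order `n` at `∞` -/
theorem mw_data_exact_pole (Pinf : Place K F) (n : ℕ) {f : F}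
    (hf : f ∈ riemannRochSpace (Finsupp.single Pinf (n : ℤ)))
    (hf' : f ∉ riemannRochSpace (Finsupp.single Pinf (n : ℤ) - Finsupp.single Pinf 1)) :
    f ≠ 0 ∧ Pinf.ord f = -(n : ℤ) := by
  have hf0 : f ≠ 0 := fun h0 => hf' (by rw [h0]; exact Submodule.zero_mem _)
  refine ⟨hf0, ?_⟩
  rw [mw_data_ord_eq hx hf0 hf hf', Finsupp.single_eq_same]

end generic

section charZero

universe u v
variable {K : Type u} {F : Type v} [Field K] [Field F] [Algebra K F]
variable [IsAlgClosed K] [CharZero K] {x : F} (hx : rt_IsSepGen K x)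

include hx

/-- the places outside `∞` where `t ∈ L(n∞)` is ramified are finitely many -/
theorem mw_data_finite_ram (Pinf : Place K F) (n : ℕ) {t : F}
    (ht : t ∈ riemannRochSpace (Finsupp.single Pinf (n : ℤ))) (htr : Transcendental K t) :
    {z : Place K F | z ≠ Pinf ∧ z.ord (t - algebraMap K F (rrk_val z t)) ≠ 1}.Finite := by
  have hfd : FiniteDimensional K⟮x⟯ F := hx.2.1
  have : FiniteDimensional K⟮t⟯ F := hw_finiteDimensional_adjoin x htr
  refine (rrk_finite_ram htr).subset ?_
  rintro z ⟨hz, hz1⟩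
  have ht0 : t ≠ 0 := dw_x_ne_zero htr
  have h0 : 0 ≤ z.ord t := by
    have := (rt_mem_L_iff ht0).mp ht z
    rwa [Finsupp.single_eq_of_ne hz, neg_zero] at this
  show rrk_dOrd t z ≠ 0
  rw [rrk_dOrd, if_pos h0]
  omega

/-- **[TWO], generic strong form** -/
theorem mw_data_two_gen (g : ℕ) (c : ℤ)
    (hR : ∀ D : Divisor K F, c ≤ Divisor.degree D →
      (Module.finrank K ↥(riemannRochSpace D) : ℤ) = Divisor.degree D + 1 - g)
    (Pinf : Place K F) (n : ℕ) (hn : c + 2 ≤ (n : ℤ)) (hn1 : 1 ≤ n) :
    ∃ t₁ t₂ : F, t₁ ∈ riemannRochSpace (Finsupp.single Pinf (n : ℤ)) ∧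
      t₂ ∈ riemannRochSpace (Finsupp.single Pinf (n : ℤ)) ∧
      Pinf.ord t₁ = -(n : ℤ) ∧ Pinf.ord t₂ = -(n : ℤ) ∧
      ∀ z : Place K F, z ≠ Pinf →
        z.ord (t₁ - algebraMap K F (rrk_val z t₁)) = 1 ∨
        z.ord (t₂ - algebraMap K F (rrk_val z t₂)) = 1 := by
  have : Infinite K := IsAlgClosed.instInfinite
  have hfd : FiniteDimensional K⟮x⟯ F := hx.2.1
  set A : Divisor K F := Finsupp.single Pinf (n : ℤ) with hA
  have hdegA : Divisor.degree A = n := rt_degree_single hx Pinf n
  have hA0 : 0 ≤ A := by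
    rw [Finsupp.le_def]
    intro v
    rw [Finsupp.zero_apply, hA, Finsupp.single_apply]
    split_ifs
    · exact Int.natCast_nonneg n
    · exact le_rfl
  have hnotle := mw_data_not_le hx g c hR A (by rw [hdegA]; omega) Pinf
  -- a non-constant element of exact pole order is transcendental
  have htrans : ∀ t : F, Pinf.ord t = -(n : ℤ) → Transcendental K t := by
    intro t ht
    rcases hw_const_or_transcendental (K := K) t with ⟨a, rfl⟩ | h
    · rw [hw_ord_algebraMap] at ht
      omega
    · exact h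
  -- the first function
  obtain ⟨t₁, ht₁L, ht₁⟩ := mw_data_avoid (riemannRochSpace A)
    (fun _ : Unit => riemannRochSpace (A - Finsupp.single Pinf 1)) (fun _ => hnotle)
  obtain ⟨ht₁0, ht₁ord⟩ := mw_data_exact_pole hx Pinf n ht₁L (ht₁ ())
  have ht₁tr := htrans t₁ ht₁ord
  have hfin := mw_data_finite_ram hx Pinf n ht₁L ht₁tr
  -- the subspaces to avoid
  let W : Option ↥hfin.toFinset → Submodule K F := fun o =>
    match o with
    | none => riemannRochSpace (A - Finsupp.single Pinf 1)
    | some z => Submodule.span K {(1 : F)} ⊔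
        riemannRochSpace (A - Finsupp.single z.1 2)
  have hW : ∀ o, ¬ riemannRochSpace A ≤ W o := by
    intro o
    cases o with
    | none => exact hnotle
    | some z =>
      intro hle
      have hfin2 := rt_L_finite hx (A - Finsupp.single z.1 2)
      have h1 := Submodule.finrank_mono hle
      have h2 := Submodule.finrank_add_le_finrank_add_finrank (Submodule.span K {(1 : F)})
        (riemannRochSpace (A - Finsupp.single z.1 2))
      have h3 : Module.finrank K ↥(Submodule.span K {(1 : F)}) ≤ 1 :=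
        (finrank_span_le_card ({(1 : F)} : Set F)).trans (by simp)
      have h4 := hR A (by rw [hdegA]; omega)
      have hdeg2 : Divisor.degree (A - Finsupp.single z.1 2) = (n : ℤ) - 2 := by
        rw [map_sub, hdegA, rt_degree_single hx]
      have h5 := hR (A - Finsupp.single z.1 2) (by rw [hdeg2]; omega)
      rw [hdegA] at h4
      rw [hdeg2] at h5
      have h6 : (Module.finrank K ↥(riemannRochSpace A) : ℤ) ≤
          (Module.finrank K ↥(Submodule.span K {(1 : F)}) : ℤ) +
            (Module.finrank K ↥(riemannRochSpace (A - Finsupp.single z.1 2)) : ℤ) := by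
        exact_mod_cast h1.trans h2
      have h7 : (Module.finrank K ↥(Submodule.span K {(1 : F)}) : ℤ) ≤ 1 := by exact_mod_cast h3
      omega
  obtain ⟨t₂, ht₂L, ht₂⟩ := mw_data_avoid (riemannRochSpace A) W hW
  obtain ⟨ht₂0, ht₂ord⟩ := mw_data_exact_pole hx Pinf n ht₂L (ht₂ none)
  have ht₂tr := htrans t₂ ht₂ord
  have : FiniteDimensional K⟮t₂⟯ F := hw_finiteDimensional_adjoin x ht₂tr
  refine ⟨t₁, t₂, ht₁L, ht₂L, ht₁ord, ht₂ord, fun z hz => ?_⟩
  by_cases hz1 : z.ord (t₁ - algebraMap K F (rrk_val z t₁)) = 1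
  · exact Or.inl hz1
  right
  have hzmem : z ∈ hfin.toFinset := hfin.mem_toFinset.mpr ⟨hz, hz1⟩
  have hnot := ht₂ (some ⟨z, hzmem⟩)
  have h0 : 0 ≤ z.ord t₂ := by
    have := (rt_mem_L_iff ht₂0).mp ht₂L z
    rwa [hA, Finsupp.single_eq_of_ne hz, neg_zero] at this
  have hpos := rrk_val_spec ht₂tr z h0
  by_contra hne
  have h2 : 2 ≤ z.ord (t₂ - algebraMap K F (rrk_val z t₂)) := by omega
  apply hnot
  set a := rrk_val z t₂ with ha
  have hsub0 : t₂ - algebraMap K F a ≠ 0 := rrk_sub_ne_zero ht₂tr a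
  have hconst : algebraMap K F a ∈ riemannRochSpace A := rt_algebraMap_mem_L hA0 a
  have hsubL : t₂ - algebraMap K F a ∈ riemannRochSpace A := Submodule.sub_mem _ ht₂L hconst
  have hsubL2 : t₂ - algebraMap K F a ∈ riemannRochSpace (A - Finsupp.single z 2) := by
    rw [rt_mem_L_iff hsub0]
    intro v
    by_cases hvz : v = z
    · subst hvz
      rw [Finsupp.sub_apply, Finsupp.single_eq_same, hA, Finsupp.single_eq_of_ne hz]
      omega
    · rw [Finsupp.sub_apply, Finsupp.single_eq_of_ne hvz, sub_zero]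
      exact (rt_mem_L_iff hsub0).mp hsubL v
  have hdecomp : t₂ = a • (1 : F) + (t₂ - algebraMap K F a) := by
    rw [← Algebra.algebraMap_eq_smul_one]
    ring
  show t₂ ∈ Submodule.span K {(1 : F)} ⊔ riemannRochSpace (A - Finsupp.single z 2)
  rw [hdecomp]
  exact Submodule.add_mem_sup (Submodule.mem_span_singleton.mpr ⟨a, rfl⟩) hsubL2

end charZero

variable (N : ℕ) [NeZero N]

/-- **[CPL]** complete systems exist -/
theorem mw_data_cpl : mw_SeamCPL N := by
  intro Pinf _ a
  have hx := rt_isSepGen_jBar N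
  set L := riemannRochSpace (Finsupp.single Pinf (a : ℤ) : mw_Div N) with hL
  have hfin : Module.Finite mw_K ↥L := rt_L_finite hx _
  have hA0 : (0 : mw_Div N) ≤ Finsupp.single Pinf (a : ℤ) := by
    rw [Finsupp.le_def]
    intro v
    rw [Finsupp.zero_apply, Finsupp.single_apply]
    split_ifs
    · exact Int.natCast_nonneg a
    · exact le_rfl
  have hpos : 1 ≤ Module.finrank mw_K ↥L := rt_one_le_l hx hA0
  obtain ⟨s, hs⟩ : ∃ s, Module.finrank mw_K ↥L = s + 1 := ⟨Module.finrank mw_K ↥L - 1, by omega⟩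
  let b : Module.Basis (Fin (s + 1)) mw_K ↥L := Module.finBasisOfFinrankEq mw_K ↥L hs
  refine ⟨s, fun i => (b i : mw_F N), ?_, ?_⟩
  · exact b.linearIndependent.map' L.subtype (Submodule.ker_subtype L)
  · have : Set.range (fun i => (b i : mw_F N)) = L.subtype '' Set.range b := by
      rw [← Set.range_comp]
      rfl
    rw [this, Submodule.span_image, b.span_eq, Submodule.map_subtype_top]

/-- **[BASE]** -/
theorem mw_data_base : mw_SeamBASE N := by
  have hx := rt_isSepGen_jBar N
  obtain ⟨g, c, hR⟩ := rt_riemann_fbar N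
  refine ⟨c + 1, fun D hD n => ?_⟩
  exact mw_data_base_gen hx g c (fun D hD => (hR D).2 hD) D hD n

/-- **[TWO], strong form**: for every large `n` two functions of `L(n∞)` of exact pole order `n` at
`∞` without common ramification point outside `∞`. -/
theorem mw_data_two_strong (Pinf : mw_X N) :
    ∃ n₀ : ℕ, ∀ n : ℕ, n₀ ≤ n → ∃ t₁ t₂ : mw_F N,
      t₁ ∈ riemannRochSpace (Finsupp.single Pinf (n : ℤ)) ∧
      t₂ ∈ riemannRochSpace (Finsupp.single Pinf (n : ℤ)) ∧
      Pinf.ord t₁ = -(n : ℤ) ∧ Pinf.ord t₂ = -(n : ℤ) ∧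
      ∀ z : mw_X N, z ≠ Pinf →
        z.ord (t₁ - algebraMap mw_K (mw_F N) (mw_val z t₁)) = 1 ∨
        z.ord (t₂ - algebraMap mw_K (mw_F N) (mw_val z t₂)) = 1 := by
  have hx := rt_isSepGen_jBar N
  obtain ⟨g, c, hR⟩ := rt_riemann_fbar N
  refine ⟨(max (c + 2) 1).toNat, fun n hn => ?_⟩
  have h1 : max (c + 2) 1 ≤ (n : ℤ) := by
    have := Int.toNat_le.mp hn
    exact this
  have hn2 : c + 2 ≤ (n : ℤ) := (le_max_left _ _).trans h1
  have hn1 : 1 ≤ n := by
    have : (1 : ℤ) ≤ (n : ℤ) := (le_max_right _ _).trans h1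
    exact_mod_cast this
  exact mw_data_two_gen hx g c (fun D hD => (hR D).2 hD) Pinf n hn2 hn1

/-- **[TWO]** -/
theorem mw_data_two : mw_SeamTWO N := by
  intro Pinf _
  obtain ⟨n₀, h⟩ := mw_data_two_strong N Pinf
  obtain ⟨t₁, t₂, ht₁L, ht₂L, ht₁, ht₂, hz⟩ := h (n₀ + 1) (Nat.le_succ _)
  have hconst : ∀ t : mw_F N, Pinf.ord t = -((n₀ + 1 : ℕ) : ℤ) →
      ∀ c : mw_K, t ≠ algebraMap mw_K (mw_F N) c := by
    intro t ht c hc
    rw [hc, hw_ord_algebraMap] at ht
    push_cast at ht
    omega
  have hreg : ∀ t : mw_F N, t ∈ riemannRochSpace (Finsupp.single Pinf ((n₀ + 1 : ℕ) : ℤ)) →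
      Pinf.ord t = -((n₀ + 1 : ℕ) : ℤ) → ∀ z : mw_X N, z ≠ Pinf → 0 ≤ z.ord t := by
    intro t htL ht z hz
    have ht0 : t ≠ 0 := by
      intro h0
      rw [h0] at ht
      have : Pinf.ord (0 : mw_F N) = 0 := by
        have := hw_ord_algebraMap (K := mw_K) Pinf (0 : mw_K)
        rwa [map_zero] at this
      rw [this] at ht
      push_cast at ht
      omega
    have := (rt_mem_L_iff ht0).mp htL z
    rwa [Finsupp.single_eq_of_ne hz, neg_zero] at this
  refine ⟨t₁, t₂, hconst t₁ ht₁, hconst t₂ ht₂, fun z hzP => ?_⟩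
  rcases hz z hzP with h1 | h1
  · left
    rw [mw_dOrd, if_pos (hreg t₁ ht₁L ht₁ z hzP), h1]
    norm_num
  · right
    rw [mw_dOrd, if_pos (hreg t₂ ht₂L ht₂ z hzP), h1]
    norm_num

end Fermat.Agent.MW
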