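/-
Project MW (S17), GLOBAL leaf **[DIAG]** (helper1): THE DIAGONAL VALUES OF THE PAIRING
(arithmetic adjunction): `β([P-∞],[P-∞]) = h_𝔊(P) + 2 h_Δ(P,∞) + O(1)` for ALL `P ≠ ∞`.

`theorem mw_diag (N) (hGKL : mw_SeamGKL N) (hHY : mw_SeamHY N) : mw_SeamDIAG N`.

Route (architect helper7, #1957): `m` large, `y` a basis of `L((m+1)∞)`, `y'` a basis of `L(m∞)`
([CPL]); `t₁, t₂ ∈ L((m+1)∞)` of exact pole order `m + 1` without common ramification point off `∞`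
(strong [TWO], helper25's `mw_data_two_strong`); three pairwise disjoint effective divisors
`𝔅 j = m∞ + div f_j` ([BASE]), two of which avoid `∞`.  For `P ≠ ∞` take `t = t_i` unramified at `P`
and `F = 𝔅 j` with `P ∉ supp F`: `mw_diag_one` (`MW/Global/DIAG/One.lean`), i.e. `[P - ∞] = [F - Σ' z]`,
`Σ' z = div(t - t(P)) + (m+1)∞ - P`; the pairing axiom for `β` at norm `2(m+1)`; `[GKL]` for `y` at `P`
(`μ = 1`) and at `∞` (`μ = 0`) with the section `t - t(P)`, `[GKL]` for `y'` at `P` (`μ = 0`) with the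
section `f_j`; `[HY]` for `y` and `y'`.  The height of the section `t - t(P)` cancels.
Prefix `mw_diag_`.
-/
import Fermat.Agent.MW.Global.DIAG.One
import Fermat.Agent.MW.Global.Data

set_option autoImplicit false
set_option linter.unusedSectionVars false
set_option maxHeartbeats 1000000

noncomputable section

namespace Fermat.Agent.MW

open AlgebraicCurve ModularCurve Fermat.Agent.JT3 Fermat.Agent.S24
open scoped Classical

variable {N : ℕ} [NeZero N]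

/-- one configuration `(t, F)`, with the section of `F` chosen -/
theorem mw_diag_one' {r : ℕ} (x : Fin (r + 1) → mw_F N) (Pinf : mw_X N)
    (β : JZero N → JZero N → ℝ) (m : ℕ) {s s' : ℕ} (y : Fin (s + 1) → mw_F N)
    (y' : Fin (s' + 1) → mw_F N) (hy : mw_IsComplete N Pinf (m + 1) y)
    (hy' : mw_IsComplete N Pinf m y') (Cβ CG CG' CY CY' : ℝ)
    (hCβ : ∀ D E : mw_Div0 N, mw_norm D.1 ≤ 2 * (m + 1) → mw_norm E.1 ≤ 2 * (m + 1) →
      Disjoint D.1.support E.1.support → |β (mw_cl D) (mw_cl E) - mw_B x D.1 E.1| ≤ Cβ)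
    (hCG : ∀ (cc : Fin (s + 1) → mw_K) (P : mw_X N) (π : mw_F N) (μ : ℕ), cc ≠ 0 →
      mw_zeroMult y cc P = (μ : ℤ) → (1 ≤ μ → P.ord π = 1) →
      |(∑ᶠ z : mw_X N, if z = P then (0 : ℝ) else (mw_zeroMult y cc z : ℝ) * mw_hD x P z)
        - (mw_ht (mw_vec y P) + mw_ht cc + (μ : ℝ) * mw_hGauss N x P π)| ≤ CG)
    (hCG' : ∀ (cc : Fin (s' + 1) → mw_K) (P : mw_X N) (π : mw_F N) (μ : ℕ), cc ≠ 0 →
      mw_zeroMult y' cc P = (μ : ℤ) → (1 ≤ μ → P.ord π = 1) →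
      |(∑ᶠ z : mw_X N, if z = P then (0 : ℝ) else (mw_zeroMult y' cc z : ℝ) * mw_hD x P z)
        - (mw_ht (mw_vec y' P) + mw_ht cc + (μ : ℝ) * mw_hGauss N x P π)| ≤ CG')
    (hCY : ∀ P : mw_X N, P ≠ Pinf →
      |mw_ht (mw_vec y P) - ((m + 1 : ℕ) : ℝ) * mw_hD x P Pinf| ≤ CY)
    (hCY' : ∀ P : mw_X N, P ≠ Pinf → |mw_ht (mw_vec y' P) - (m : ℝ) * mw_hD x P Pinf| ≤ CY')
    (t : mw_F N) (ht : t ∈ riemannRochSpace (Finsupp.single Pinf ((m + 1 : ℕ) : ℤ)))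
    (htord : Pinf.ord t = -((m + 1 : ℕ) : ℤ))
    (F : mw_Div N) (hF0 : 0 ≤ F)
    (hF : ∃ f : mw_F N, f ≠ 0 ∧
      ∀ z : mw_X N, F z = (Finsupp.single Pinf (m : ℤ) : mw_Div N) z + z.ord f)
    (hFinf : F Pinf = 0) :
    ∃ C : ℝ, ∀ (P : mw_X N) (π : mw_F N), P ≠ Pinf → P.ord π = 1 →
      P.ord (t - algebraMap mw_K (mw_F N) (mw_val P t)) = 1 → F P = 0 →
      |β (mw_aj N Pinf P) (mw_aj N Pinf P) - (mw_hGauss N x P π + 2 * mw_hD x P Pinf)| ≤ C := by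
  obtain ⟨f, hf, hFf⟩ := hF
  have hford : Pinf.ord f = -(m : ℤ) := by
    have := hFf Pinf
    rw [hFinf, Finsupp.single_eq_same] at this
    omega
  have hfmem : f ∈ riemannRochSpace (Finsupp.single Pinf (m : ℤ)) := by
    refine (mw_diag_mem_L_iff Pinf m hf).2 ⟨hford.ge, fun z hz => ?_⟩
    have h1 := hFf z
    rw [Finsupp.single_eq_of_ne hz, zero_add] at h1
    have h2 := hF0 z
    rw [Finsupp.zero_apply] at h2
    omega
  obtain ⟨cc', hcc'⟩ := mw_diag_exists_cc hy' hfmem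
  exact ⟨_, fun P π hP hπ hunr hFP =>
    mw_diag_one x Pinf β m y y' hy hy' Cβ CG CG' CY CY' hCβ hCG hCG' hCY hCY' t ht htord F f hf hF0
      hFf hFinf cc' hcc' P π hP hπ hunr hFP⟩

/-- among three pairwise disjoint divisors two avoid a given point -/
theorem mw_diag_pick (𝔅 : Fin 3 → mw_Div N)
    (hd : ∀ i j, i ≠ j → Disjoint (𝔅 i).support (𝔅 j).support) (Q : mw_X N) :
    ∃ j₁ j₂ : Fin 3, j₁ ≠ j₂ ∧ 𝔅 j₁ Q = 0 ∧ 𝔅 j₂ Q = 0 := by
  have key : ∀ i j : Fin 3, i ≠ j → 𝔅 i Q ≠ 0 → 𝔅 j Q = 0 := by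
    intro i j hij hi
    by_contra hj
    exact Finset.disjoint_left.1 (hd i j hij) (Finsupp.mem_support_iff.2 hi)
      (Finsupp.mem_support_iff.2 hj)
  by_cases h0 : 𝔅 0 Q = 0
  · by_cases h1 : 𝔅 1 Q = 0
    · exact ⟨0, 1, by decide, h0, h1⟩
    · exact ⟨0, 2, by decide, h0, key 1 2 (by decide) h1⟩
  · exact ⟨1, 2, by decide, key 0 1 (by decide) h0, key 0 2 (by decide) h0⟩

/-- **[DIAG]** the diagonal values of the pairing. -/
theorem mw_diag (N : ℕ) [NeZero N] (hGKL : mw_SeamGKL N) (hHY : mw_SeamHY N) :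
    mw_SeamDIAG N := by
  intro r x hx Pinf hPinf β hβ _
  have hxj := rt_isSepGen_jBar N
  obtain ⟨aG, hG⟩ := hGKL x hx Pinf hPinf
  obtain ⟨aY, hY⟩ := hHY x hx Pinf hPinf
  obtain ⟨n₀, hT⟩ := mw_data_two_strong N Pinf
  obtain ⟨cB, hB⟩ := mw_data_base N
  -- the size `m`
  set m : ℕ := aG + aY + n₀ + cB.toNat with hm
  have hmG : aG ≤ m := by omega
  have hmY : aY ≤ m := by omega
  have hmT : n₀ ≤ m + 1 := by omega
  have hmB : cB ≤ (m : ℤ) := by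
    have := Int.self_le_toNat cB
    omega
  obtain ⟨s, y, hy⟩ := mw_data_cpl N Pinf hPinf (m + 1)
  obtain ⟨s', y', hy'⟩ := mw_data_cpl N Pinf hPinf m
  obtain ⟨CG, hCG⟩ := hG (m + 1) (by omega) y hy
  obtain ⟨CG', hCG'⟩ := hG m hmG y' hy'
  obtain ⟨CY, hCY⟩ := hY (m + 1) (by omega) y hy
  obtain ⟨CY', hCY'⟩ := hY m hmY y' hy'
  obtain ⟨Cβ, hCβ⟩ := hβ (2 * (m + 1))
  obtain ⟨t₁, t₂, ht₁, ht₂, ho₁, ho₂, hun⟩ := hT (m + 1) hmT
  obtain ⟨𝔅, h𝔅0, h𝔅f, h𝔅d⟩ := hB (Finsupp.single Pinf (m : ℤ)) (by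
    rw [rt_degree_single hxj]
    exact hmB) 2
  obtain ⟨j₁, j₂, hj, hj₁, hj₂⟩ := mw_diag_pick 𝔅 h𝔅d Pinf
  -- the four configurations
  have cfg : ∀ (t : mw_F N) (j : Fin 3),
      t ∈ riemannRochSpace (Finsupp.single Pinf ((m + 1 : ℕ) : ℤ)) →
      Pinf.ord t = -((m + 1 : ℕ) : ℤ) → 𝔅 j Pinf = 0 →
      ∃ C : ℝ, ∀ (P : mw_X N) (π : mw_F N), P ≠ Pinf → P.ord π = 1 →
        P.ord (t - algebraMap mw_K (mw_F N) (mw_val P t)) = 1 → 𝔅 j P = 0 →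
        |β (mw_aj N Pinf P) (mw_aj N Pinf P) - (mw_hGauss N x P π + 2 * mw_hD x P Pinf)| ≤ C :=
    fun t j ht hto hjinf =>
      mw_diag_one' x Pinf β m y y' hy hy' Cβ CG CG' CY CY' (fun D E => hCβ D E)
        (fun cc P π μ => hCG cc P π μ) (fun cc P π μ => hCG' cc P π μ) hCY hCY' t ht hto (𝔅 j)
        (h𝔅0 j) (h𝔅f j) hjinf
  obtain ⟨C11, h11⟩ := cfg t₁ j₁ ht₁ ho₁ hj₁
  obtain ⟨C12, h12⟩ := cfg t₁ j₂ ht₁ ho₁ hj₂
  obtain ⟨C21, h21⟩ := cfg t₂ j₁ ht₂ ho₂ hj₁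
  obtain ⟨C22, h22⟩ := cfg t₂ j₂ ht₂ ho₂ hj₂
  refine ⟨|C11| + |C12| + |C21| + |C22|, fun P π hP hπ => ?_⟩
  have a11 := abs_nonneg C11
  have a12 := abs_nonneg C12
  have a21 := abs_nonneg C21
  have a22 := abs_nonneg C22
  have b11 := le_abs_self C11
  have b12 := le_abs_self C12
  have b21 := le_abs_self C21
  have b22 := le_abs_self C22
  -- `P` lies on at most one of the two divisors
  have hPj : 𝔅 j₁ P = 0 ∨ 𝔅 j₂ P = 0 := by
    by_contra hcon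
    push Not at hcon
    exact Finset.disjoint_left.1 (h𝔅d j₁ j₂ hj) (Finsupp.mem_support_iff.2 hcon.1)
      (Finsupp.mem_support_iff.2 hcon.2)
  rcases hun P hP with hu | hu <;> rcases hPj with hF | hF
  · exact (h11 P π hP hπ hu hF).trans (by linarith)
  · exact (h12 P π hP hπ hu hF).trans (by linarith)
  · exact (h21 P π hP hπ hu hF).trans (by linarith)
  · exact (h22 P π hP hπ hu hF).trans (by linarith)

end Fermat.Agent.MW

end
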