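/-
Project MW (S17), GLOBAL leaf **[EXP]** (helper9).  Prefix `mw_exp_`.

`theorem mw_exp (N) (hN : N.Prime) (hN5 : 5 ≤ N) (hDIAG : mw_SeamDIAG N) (hEVOFF : mw_SeamEVOFF N) :
  mw_SeamEXP N` : the expansion (lower bound) of `β(a,a)` along the minimal representative `E` of `a`.

* abstract part (Mathlib only): a quasi-biadditive `β` is additive on weighted finite sums up to
  `O(total weight)`: `mw_exp_nsmul_left`, `mw_exp_sum_left`, `mw_exp_wsum_left`, `mw_exp_double`;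
* classes: `E - (deg E)·∞ = ∑_P E(P)·(P - ∞)` (`mw_exp_decomp`), hence
  `[E - (deg E)·∞] = ∑_P E(P)·[P - ∞]` in `Pic⁰` (`mw_exp_class`);
* the assembly: `[DIAG]` on the diagonal terms, `[EVOFF]` off the diagonal, and
  `∑_{P,Q} E(P)E(Q)(h₁(P) + h₁(Q)) = 2·deg E·naive(E)`.
-/
import Mathlib
import Fermat.Agent.MW.Global.Seams3
import Fermat.Agent.JT3.Riemann.FBar

set_option autoImplicit false
set_option linter.unusedSectionVars false
set_option linter.unusedVariables false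

noncomputable section

namespace Fermat.Agent.MW

open AlgebraicCurve ModularCurve Fermat.Agent.JT3
open scoped Classical

/-! ### quasi-biadditive functions on weighted sums (abstract) -/

section abstract

variable {A : Type*} [AddCommGroup A] {β : A → A → ℝ} {C : ℝ}

theorem mw_exp_zero_left (hL : ∀ a b c : A, |β (a + b) c - β a c - β b c| ≤ C) (c : A) :
    |β 0 c| ≤ C := by
  have h := hL 0 0 c
  rw [add_zero] at h
  have h2 : β 0 c - β 0 c - β 0 c = -(β 0 c) := by ring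
  rwa [h2, abs_neg] at h

theorem mw_exp_nsmul_left (hL : ∀ a b c : A, |β (a + b) c - β a c - β b c| ≤ C) (u c : A)
    (n : ℕ) : |β (n • u) c - (n : ℝ) * β u c| ≤ ((n : ℝ) + 1) * C := by
  induction n with
  | zero =>
    have := mw_exp_zero_left hL c
    simpa using this
  | succ n ih =>
    have h1 := abs_le.mp (hL (n • u) u c)
    have h2 := abs_le.mp ih
    rw [succ_nsmul, abs_le]
    push_cast
    constructor <;> linarith [h1.1, h1.2, h2.1, h2.2]

theorem mw_exp_sum_left (hL : ∀ a b c : A, |β (a + b) c - β a c - β b c| ≤ C) {ι : Type*}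
    (s : Finset ι) (v : ι → A) (c : A) :
    |β (∑ i ∈ s, v i) c - ∑ i ∈ s, β (v i) c| ≤ ((s.card : ℝ) + 1) * C := by
  induction s using Finset.induction_on with
  | empty =>
    have := mw_exp_zero_left hL c
    simpa using this
  | insert i s hi ih =>
    rw [Finset.sum_insert hi, Finset.sum_insert hi, Finset.card_insert_of_notMem hi]
    have h1 := abs_le.mp (hL (v i) (∑ j ∈ s, v j) c)
    have h2 := abs_le.mp ih
    rw [abs_le]
    push_cast
    constructor <;> linarith [h1.1, h1.2, h2.1, h2.2]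

theorem mw_exp_wsum_left (hL : ∀ a b c : A, |β (a + b) c - β a c - β b c| ≤ C) {ι : Type*}
    (s : Finset ι) (n : ι → ℕ) (u : ι → A) (c : A) :
    |β (∑ i ∈ s, n i • u i) c - ∑ i ∈ s, (n i : ℝ) * β (u i) c| ≤
      (((∑ i ∈ s, n i : ℕ) : ℝ) + 2 * (s.card : ℝ) + 1) * C := by
  have h1 := mw_exp_sum_left hL s (fun i => n i • u i) c
  have h2 : |∑ i ∈ s, β (n i • u i) c - ∑ i ∈ s, (n i : ℝ) * β (u i) c| ≤
      ∑ i ∈ s, ((n i : ℝ) + 1) * C := by
    rw [← Finset.sum_sub_distrib]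
    exact (Finset.abs_sum_le_sum_abs _ _).trans
      (Finset.sum_le_sum fun i _ => mw_exp_nsmul_left hL (u i) c (n i))
  have h3 : ∑ i ∈ s, ((n i : ℝ) + 1) * C = (((∑ i ∈ s, n i : ℕ) : ℝ) + (s.card : ℝ)) * C := by
    rw [← Finset.sum_mul, Finset.sum_add_distrib, Finset.sum_const, nsmul_eq_mul, mul_one,
      Nat.cast_sum]
  have h4 := abs_sub_le (β (∑ i ∈ s, n i • u i) c) (∑ i ∈ s, β (n i • u i) c)
    (∑ i ∈ s, (n i : ℝ) * β (u i) c)
  rw [h3] at h2
  linarith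

theorem mw_exp_wsum_right (hR : ∀ a b c : A, |β c (a + b) - β c a - β c b| ≤ C) {ι : Type*}
    (s : Finset ι) (n : ι → ℕ) (u : ι → A) (c : A) :
    |β c (∑ i ∈ s, n i • u i) - ∑ i ∈ s, (n i : ℝ) * β c (u i)| ≤
      (((∑ i ∈ s, n i : ℕ) : ℝ) + 2 * (s.card : ℝ) + 1) * C :=
  mw_exp_wsum_left (β := fun a b => β b a) hR s n u c

/-- a quasi-biadditive function on a weighted sum, both variables. -/
theorem mw_exp_double (hL : ∀ a b c : A, |β (a + b) c - β a c - β b c| ≤ C)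
    (hR : ∀ a b c : A, |β c (a + b) - β c a - β c b| ≤ C) {ι : Type*}
    (s : Finset ι) (n : ι → ℕ) (u : ι → A) :
    |β (∑ i ∈ s, n i • u i) (∑ i ∈ s, n i • u i) -
        ∑ i ∈ s, ∑ j ∈ s, (n i : ℝ) * (n j : ℝ) * β (u i) (u j)| ≤
      (((∑ i ∈ s, n i : ℕ) : ℝ) + 1) *
        ((((∑ i ∈ s, n i : ℕ) : ℝ) + 2 * (s.card : ℝ) + 1) * C) := by
  set a := ∑ i ∈ s, n i • u i with ha
  set M : ℝ := (((∑ i ∈ s, n i : ℕ) : ℝ) + 2 * (s.card : ℝ) + 1) * C with hM
  have h1 : |β a a - ∑ i ∈ s, (n i : ℝ) * β (u i) a| ≤ M := mw_exp_wsum_left hL s n u a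
  have h2 : |∑ i ∈ s, (n i : ℝ) * β (u i) a -
      ∑ i ∈ s, ∑ j ∈ s, (n i : ℝ) * (n j : ℝ) * β (u i) (u j)| ≤
      ∑ i ∈ s, (n i : ℝ) * M := by
    rw [← Finset.sum_sub_distrib]
    refine (Finset.abs_sum_le_sum_abs _ _).trans (Finset.sum_le_sum fun i _ => ?_)
    have h3 : (n i : ℝ) * β (u i) a - ∑ j ∈ s, (n i : ℝ) * (n j : ℝ) * β (u i) (u j) =
        (n i : ℝ) * (β (u i) a - ∑ j ∈ s, (n j : ℝ) * β (u i) (u j)) := by
      rw [mul_sub, Finset.mul_sum]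
      congr 1
      exact Finset.sum_congr rfl fun j _ => by ring
    rw [h3, abs_mul, abs_of_nonneg (Nat.cast_nonneg (n i))]
    exact mul_le_mul_of_nonneg_left (mw_exp_wsum_right hR s n u (u i)) (Nat.cast_nonneg _)
  have h4 : ∑ i ∈ s, (n i : ℝ) * M = ((∑ i ∈ s, n i : ℕ) : ℝ) * M := by
    rw [← Finset.sum_mul, Nat.cast_sum]
  have h5 := abs_sub_le (β a a) (∑ i ∈ s, (n i : ℝ) * β (u i) a)
    (∑ i ∈ s, ∑ j ∈ s, (n i : ℝ) * (n j : ℝ) * β (u i) (u j))
  rw [h4] at h2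
  linarith

end abstract

/-! ### the class of `E - (deg E)·∞` -/

section classes

universe u v
variable {K : Type u} {F : Type v} [Field K] [Field F] [Algebra K F] [IsAlgClosed K] {x : F}
  (hx : rt_IsSepGen K x)

include hx

theorem mw_exp_pt_mem (Pinf P : Place K F) :
    Finsupp.single P (1 : ℤ) - Finsupp.single Pinf (1 : ℤ) ∈
      Divisor.degZero (K := K) (F := F) := by
  rw [Divisor.mem_degZero, map_sub, rt_degree_single hx, rt_degree_single hx, sub_self]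

theorem mw_exp_decomp (Pinf : Place K F) (E : Divisor K F) (hE : 0 ≤ E) :
    E - Finsupp.single Pinf (Divisor.degree E) =
      ∑ P ∈ E.support, (E P).toNat •
        (Finsupp.single P (1 : ℤ) - Finsupp.single Pinf (1 : ℤ) : Divisor K F) := by
  have h1 : ∀ P ∈ E.support, (E P).toNat •
      (Finsupp.single P (1 : ℤ) - Finsupp.single Pinf (1 : ℤ) : Divisor K F) =
      Finsupp.single P (E P) - Finsupp.single Pinf (E P) := by
    intro P _
    have h0 : (0 : ℤ) ≤ E P := Finsupp.le_def.mp hE P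
    rw [← natCast_zsmul, Int.toNat_of_nonneg h0, smul_sub, Finsupp.smul_single,
      Finsupp.smul_single, smul_eq_mul, mul_one]
  rw [Finset.sum_congr rfl h1, Finset.sum_sub_distrib, ← Finsupp.single_finsetSum,
    ← rt_degree_eq_sum hx E E.support (Finset.Subset.refl _)]
  congr 1
  exact (Finsupp.sum_single E).symm

theorem mw_exp_class (Pinf : Place K F) (E : Divisor K F) (hE : 0 ≤ E)
    (h : E - Finsupp.single Pinf (Divisor.degree E) ∈ Divisor.degZero (K := K) (F := F)) :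
    Pic0.mk ⟨E - Finsupp.single Pinf (Divisor.degree E), h⟩ =
      ∑ P ∈ E.support, (E P).toNat •
        Pic0.mk ⟨Finsupp.single P (1 : ℤ) - Finsupp.single Pinf (1 : ℤ),
          mw_exp_pt_mem hx Pinf P⟩ := by
  have h1 : (⟨E - Finsupp.single Pinf (Divisor.degree E), h⟩ :
      ↥(Divisor.degZero (K := K) (F := F))) =
      ∑ P ∈ E.support, (E P).toNat •
        (⟨Finsupp.single P (1 : ℤ) - Finsupp.single Pinf (1 : ℤ), mw_exp_pt_mem hx Pinf P⟩ :
          ↥(Divisor.degZero (K := K) (F := F))) := by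
    apply Subtype.ext
    rw [AddSubgroup.val_finsetSum]
    simp only [AddSubgroup.coe_nsmul]
    exact mw_exp_decomp hx Pinf E hE
  rw [h1]
  show (QuotientAddGroup.mk' _) _ = _
  rw [map_sum]
  refine Finset.sum_congr rfl fun P _ => ?_
  rw [map_nsmul]
  rfl

end classes

/-! ### the seam -/

section seam

variable (N : ℕ) [NeZero N]

theorem mw_exp_aj (Pinf P : mw_X N) :
    mw_aj N Pinf P = Pic0.mk ⟨Finsupp.single P (1 : ℤ) - Finsupp.single Pinf (1 : ℤ),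
      mw_exp_pt_mem (rt_isSepGen_jBar N) Pinf P⟩ := by
  rw [mw_aj, dif_pos (mw_exp_pt_mem (rt_isSepGen_jBar N) Pinf P)]

/-- the class of a minimal representative is the weighted sum of the Abel–Jacobi classes. -/
theorem mw_exp_minRep {Pinf : mw_X N} {a : JZero N} {E : mw_Div N}
    (hE : mw_IsMinRep N Pinf a E) :
    a = ∑ P ∈ E.support, (E P).toNat • mw_aj N Pinf P := by
  obtain ⟨hE0, _, _, h, rfl⟩ := hE
  refine (mw_exp_class (rt_isSepGen_jBar N) Pinf E hE0 h).trans ?_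
  exact Finset.sum_congr rfl fun P _ => by rw [mw_exp_aj]

/-- the algebraic identity behind the expansion. -/
theorem mw_exp_identity {ι : Type*} (s : Finset ι) (e h₁ hG : ι → ℝ) (hΔ : ι → ι → ℝ) :
    ∑ P ∈ s, ∑ Q ∈ s, e P * e Q *
        (if P = Q then hG P + 2 * h₁ P else h₁ P + h₁ Q - hΔ P Q) =
      2 * (∑ P ∈ s, e P) * (∑ P ∈ s, e P * h₁ P) + (∑ P ∈ s, e P ^ 2 * hG P)
        - ∑ P ∈ s, ∑ Q ∈ s, (if P = Q then (0 : ℝ) else e P * e Q * hΔ P Q) := by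
  have h1 : ∀ P ∈ s, ∀ Q ∈ s, e P * e Q *
      (if P = Q then hG P + 2 * h₁ P else h₁ P + h₁ Q - hΔ P Q) =
      (e P * h₁ P) * e Q + e P * (e Q * h₁ Q) + (if P = Q then e P ^ 2 * hG P else 0)
        - (if P = Q then (0 : ℝ) else e P * e Q * hΔ P Q) := by
    intro P _ Q _
    by_cases hPQ : P = Q
    · subst hPQ
      rw [if_pos rfl, if_pos rfl, if_pos rfl]
      ring
    · rw [if_neg hPQ, if_neg hPQ, if_neg hPQ]
      ring
  rw [Finset.sum_congr rfl fun P hP => Finset.sum_congr rfl fun Q hQ => h1 P hP Q hQ]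
  simp only [Finset.sum_sub_distrib, Finset.sum_add_distrib, ← Finset.mul_sum, ← Finset.sum_mul,
    Finset.sum_ite_eq]
  have h2 : ∑ P ∈ s, (if P ∈ s then e P ^ 2 * hG P else 0) = ∑ P ∈ s, e P ^ 2 * hG P :=
    Finset.sum_congr rfl fun P hP => by rw [if_pos hP]
  rw [h2]
  ring

theorem mw_exp (hN : N.Prime) (hN5 : 5 ≤ N) (hDIAG : mw_SeamDIAG N) (hEVOFF : mw_SeamEVOFF N) :
    mw_SeamEXP N := by
  intro r x hx Pinf hPinf β hβ hQ n₀
  obtain ⟨CD, hCD⟩ := hDIAG x hx Pinf hPinf β hβ hQ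
  obtain ⟨CO, hCO⟩ := hEVOFF hN hN5 x hx Pinf hPinf β hβ hQ
  obtain ⟨Cq, hCq⟩ := hQ
  have hL : ∀ a b c : JZero N, |β (a + b) c - β a c - β b c| ≤ Cq := fun a b c => (hCq a b c).1
  have hR : ∀ a b c : JZero N, |β c (a + b) - β c a - β c b| ≤ Cq := fun a b c => (hCq a b c).2
  have hCq0 : 0 ≤ Cq := le_trans (abs_nonneg _) (hL 0 0 0)
  set C' : ℝ := max (max CD CO) 0 with hC'
  have hC'0 : 0 ≤ C' := le_max_right _ _
  have hCD' : CD ≤ C' := le_trans (le_max_left _ _) (le_max_left _ _)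
  have hCO' : CO ≤ C' := le_trans (le_max_right _ _) (le_max_left _ _)
  refine ⟨((n₀ : ℝ) + 1) * ((3 * (n₀ : ℝ) + 1) * Cq) + (n₀ : ℝ) ^ 2 * C', ?_⟩
  intro a E π hE hdeg hπ
  have hE0 : 0 ≤ E := hE.1
  have hEinf : E Pinf = 0 := hE.2.1
  have hsx := rt_isSepGen_jBar N
  set s := E.support with hs
  set n : mw_X N → ℕ := fun P => (E P).toNat with hn
  set e : mw_X N → ℝ := fun P => ((E P : ℤ) : ℝ) with he
  have hne : ∀ P, (n P : ℝ) = e P := by
    intro P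
    have h0 : (0 : ℤ) ≤ E P := Finsupp.le_def.mp hE0 P
    rw [hn, he]
    simp only
    rw [← Int.cast_natCast, Int.toNat_of_nonneg h0]
  have he0 : ∀ P, 0 ≤ e P := fun P => by rw [← hne]; exact Nat.cast_nonneg _
  -- the degree
  have hdegE : Divisor.degree E = ∑ P ∈ s, E P :=
    rt_degree_eq_sum hsx E E.support (Finset.Subset.refl _)
  have hdegR : (Divisor.degree E : ℝ) = ∑ P ∈ s, e P := by
    rw [hdegE, Int.cast_sum]
  have hsumn : ((∑ P ∈ s, n P : ℕ) : ℝ) = ∑ P ∈ s, e P := by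
    rw [Nat.cast_sum]
    exact Finset.sum_congr rfl fun P _ => hne P
  have hd_le : ∑ P ∈ s, e P ≤ (n₀ : ℝ) := by
    rw [← hdegR]
    exact_mod_cast hdeg
  have hd0 : 0 ≤ ∑ P ∈ s, e P := Finset.sum_nonneg fun P _ => he0 P
  have he1 : ∀ P ∈ s, 1 ≤ e P := by
    intro P hP
    have h0 : (0 : ℤ) ≤ E P := Finsupp.le_def.mp hE0 P
    have h1 : E P ≠ 0 := Finsupp.mem_support_iff.mp hP
    have h2 : (1 : ℤ) ≤ E P := by omega
    show (1 : ℝ) ≤ ((E P : ℤ) : ℝ)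
    exact_mod_cast h2
  have hcard : (s.card : ℝ) ≤ ∑ P ∈ s, e P := by
    rw [Finset.card_eq_sum_ones, Nat.cast_sum]
    refine Finset.sum_le_sum fun P hP => ?_
    rw [Nat.cast_one]
    exact he1 P hP
  have hPinf_not : ∀ P ∈ s, P ≠ Pinf := by
    rintro P hP rfl
    exact (Finsupp.mem_support_iff.mp hP) hEinf
  -- step 1: quasi-biadditivity
  have ha : a = ∑ P ∈ s, n P • mw_aj N Pinf P := mw_exp_minRep N hE
  have h1 := mw_exp_double hL hR s n (fun P => mw_aj N Pinf P)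
  rw [← ha, hsumn] at h1
  have h1' : ∑ P ∈ s, ∑ Q ∈ s, (n P : ℝ) * (n Q : ℝ) * β (mw_aj N Pinf P) (mw_aj N Pinf Q) =
      ∑ P ∈ s, ∑ Q ∈ s, e P * e Q * β (mw_aj N Pinf P) (mw_aj N Pinf Q) :=
    Finset.sum_congr rfl fun P _ => Finset.sum_congr rfl fun Q _ => by rw [hne, hne]
  rw [h1'] at h1
  have hb1 : ((∑ P ∈ s, e P) + 1) * (((∑ P ∈ s, e P) + 2 * (s.card : ℝ) + 1) * Cq) ≤
      ((n₀ : ℝ) + 1) * ((3 * (n₀ : ℝ) + 1) * Cq) := by
    have hA : (∑ P ∈ s, e P) + 2 * (s.card : ℝ) + 1 ≤ 3 * (n₀ : ℝ) + 1 := by linarith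
    have hA0 : 0 ≤ (∑ P ∈ s, e P) + 2 * (s.card : ℝ) + 1 := by positivity
    have hB : ((∑ P ∈ s, e P) + 2 * (s.card : ℝ) + 1) * Cq ≤ (3 * (n₀ : ℝ) + 1) * Cq :=
      mul_le_mul_of_nonneg_right hA hCq0
    have hB0 : 0 ≤ ((∑ P ∈ s, e P) + 2 * (s.card : ℝ) + 1) * Cq := mul_nonneg hA0 hCq0
    exact mul_le_mul (by linarith) hB hB0 (by positivity)
  -- step 2: the values of `β` on the Abel–Jacobi classes
  set T : mw_X N → mw_X N → ℝ := fun P Q =>
    if P = Q then mw_hGauss N x P (π P) + 2 * mw_hD x P Pinf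
    else mw_hD x P Pinf + mw_hD x Q Pinf - mw_hD x P Q with hT
  have hTd : ∀ P, T P P = mw_hGauss N x P (π P) + 2 * mw_hD x P Pinf := fun P => if_pos rfl
  have hTo : ∀ P Q, P ≠ Q → T P Q = mw_hD x P Pinf + mw_hD x Q Pinf - mw_hD x P Q :=
    fun P Q h => if_neg h
  have h2 : ∀ P ∈ s, ∀ Q ∈ s, T P Q - C' ≤ β (mw_aj N Pinf P) (mw_aj N Pinf Q) := by
    intro P hP Q hQ
    by_cases hPQ : P = Q
    · subst hPQ
      have := abs_le.mp (hCD P (π P) (hPinf_not P hP) (hπ P hP))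
      rw [hTd]
      linarith [this.1]
    · have := abs_le.mp (hCO P Q (hPinf_not P hP) (hPinf_not Q hQ) hPQ)
      rw [hT]
      simp only [if_neg hPQ]
      linarith [this.1]
  have h3 : ∑ P ∈ s, ∑ Q ∈ s, e P * e Q * T P Q - (∑ P ∈ s, e P) ^ 2 * C' ≤
      ∑ P ∈ s, ∑ Q ∈ s, e P * e Q * β (mw_aj N Pinf P) (mw_aj N Pinf Q) := by
    have h4 : (∑ P ∈ s, e P) ^ 2 * C' = ∑ P ∈ s, ∑ Q ∈ s, e P * e Q * C' := by
      rw [sq, Finset.sum_mul_sum, Finset.sum_mul]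
      exact Finset.sum_congr rfl fun P _ => by rw [Finset.sum_mul]
    rw [h4, ← Finset.sum_sub_distrib]
    refine Finset.sum_le_sum fun P hP => ?_
    rw [← Finset.sum_sub_distrib]
    refine Finset.sum_le_sum fun Q hQ => ?_
    rw [← mul_sub]
    exact mul_le_mul_of_nonneg_left (h2 P hP Q hQ) (mul_nonneg (he0 P) (he0 Q))
  have h5 : (∑ P ∈ s, e P) ^ 2 * C' ≤ (n₀ : ℝ) ^ 2 * C' :=
    mul_le_mul_of_nonneg_right (pow_le_pow_left₀ hd0 hd_le 2) hC'0
  -- step 3: the identity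
  have h6 := mw_exp_identity s e (fun P => mw_hD x P Pinf) (fun P => mw_hGauss N x P (π P))
    (fun P Q => mw_hD x P Q)
  have h7 : mw_naive N x Pinf E = ∑ P ∈ s, e P * mw_hD x P Pinf := rfl
  have h8 : (E.sum fun P n => (n : ℝ) ^ 2 * mw_hGauss N x P (π P)) =
      ∑ P ∈ s, e P ^ 2 * mw_hGauss N x P (π P) := rfl
  have h9 : (E.sum fun P n => E.sum fun Q m =>
      if P = Q then (0 : ℝ) else (n : ℝ) * (m : ℝ) * mw_hD x P Q) =
      ∑ P ∈ s, ∑ Q ∈ s, (if P = Q then (0 : ℝ) else e P * e Q * mw_hD x P Q) := rfl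
  rw [h7, h8, h9, hdegR]
  have h10 := abs_le.mp h1
  have h11 : ∑ P ∈ s, ∑ Q ∈ s, e P * e Q * T P Q =
      2 * (∑ P ∈ s, e P) * (∑ P ∈ s, e P * mw_hD x P Pinf)
        + (∑ P ∈ s, e P ^ 2 * mw_hGauss N x P (π P))
        - ∑ P ∈ s, ∑ Q ∈ s, (if P = Q then (0 : ℝ) else e P * e Q * mw_hD x P Q) := h6
  linarith [h10.1]

end seam

end Fermat.Agent.MW
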