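/-
Project MW (S17), global leaves **[GKL]**, **[HDLB]**, **[HY]** (architect helper7; helper18).

* `mw_gkl  : mw_SeamKLmu N → mw_SeamABS → mw_SeamEMB N → mw_SeamGKL N` — the global form of the master
  local theorem: sum `[KLμ]` over all places of the number field generated by all coordinates,
  product formula for the leading coefficient, `[ABS]`;
* `mw_hdlb : mw_SeamABS → mw_SeamHDLB N` — `h_Δ ≥ -log 2`;
* `mw_hy   : mw_SeamGKL N → mw_SeamHY N` — `[GKL]` for the section `1 ∈ L(a∞)`.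
Prefix `mw_gkl_`.
-/
import Fermat.Agent.MW.Global.Seams
import Fermat.Agent.MW.Core.Seams2
import Fermat.Agent.MW.Core.Val
import Fermat.Agent.MW.Global.GKL.Wedge
import Fermat.Agent.JT3.Riemann.FBar

set_option autoImplicit false
set_option linter.unusedSectionVars false

noncomputable section

namespace Fermat.Agent.MW

open AlgebraicCurve ModularCurve Fermat.Agent.S24 Fermat.Agent.JT3
open scoped Classical

variable {N : ℕ} [NeZero N]

/-! ### finiteness of the zero divisor of a section -/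

theorem mw_gkl_finite_zeros {s : ℕ} (y : Fin (s + 1) → mw_F N) (cc : Fin (s + 1) → mw_K) :
    {z : mw_X N | mw_zeroMult y cc z ≠ 0}.Finite := by
  have hx := rt_isSepGen_jBar N
  have hfin : ({z : mw_X N | z.ord (mw_sec y cc) ≠ 0} ∪
      ⋃ b : Fin (s + 1), {z : mw_X N | z.ord (y b) ≠ 0}).Finite :=
    (rt_finite_support hx _).union (Set.finite_iUnion fun b => rt_finite_support hx (y b))
  refine hfin.subset fun z hz => ?_
  by_contra hcon
  apply hz
  simp only [Set.mem_union, Set.mem_ofPred_eq, Set.mem_iUnion, not_or, not_exists, not_not]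
    at hcon
  obtain ⟨h1, h2⟩ := hcon
  rw [mw_zeroMult]
  by_cases hs : mw_sec y cc = 0
  · rw [hs, zero_div, Place.ord_zero]
  by_cases hp : y (mw_piv y z) = 0
  · rw [hp, div_zero, Place.ord_zero]
  rw [div_eq_mul_inv, z.ord_mul hs (inv_ne_zero hp), z.ord_inv, h1, h2]
  ring

theorem mw_gkl_finsum_eq (P : mw_X N) (T : Finset (mw_X N)) (Zf : mw_X N → ℤ)
    (hT : ∀ z, z ≠ P → Zf z ≠ 0 → z ∈ T) (hPT : P ∉ T) (g : mw_X N → ℝ) :
    (∑ᶠ z : mw_X N, if z = P then (0 : ℝ) else (Zf z : ℝ) * g z) = ∑ z ∈ T, (Zf z : ℝ) * g z := by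
  rw [finsum_eq_sum_of_support_subset (s := T)]
  · refine Finset.sum_congr rfl fun z hz => ?_
    rw [if_neg]
    rintro rfl
    exact hPT hz
  · intro z hz
    rw [Function.mem_support] at hz
    by_cases hzP : z = P
    · rw [if_pos hzP] at hz
      exact absurd rfl hz
    · rw [if_neg hzP] at hz
      refine hT z hzP ?_
      intro h0
      apply hz
      rw [h0, Int.cast_zero, zero_mul]

/-- the leading coefficient is not zero -/
theorem mw_gkl_lc_ne_zero {s : ℕ} {y : Fin (s + 1) → mw_F N} (hyli : LinearIndependent mw_K y)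
    {cc : Fin (s + 1) → mw_K} (hcc : cc ≠ 0) (P : mw_X N) (π : mw_F N) (μ : ℕ)
    (hμ : mw_zeroMult y cc P = (μ : ℤ)) (hπ : 1 ≤ μ → P.ord π = 1) :
    mw_lcAt N y cc P π μ ≠ 0 := by
  have hy0 : ∃ b, y b ≠ 0 := ⟨0, hyli.ne_zero 0⟩
  have hsec := mw_v_sec_ne_zero hyli hcc
  have hp := (mw_v_piv_spec y hy0 P).1
  have hf : mw_sec y cc / y (mw_piv y P) ≠ 0 := div_ne_zero hsec hp
  rw [mw_lcAt]
  by_cases hμ1 : 1 ≤ μ
  · have hπ1 := hπ hμ1
    have hπ0 : π ≠ 0 := by
      rintro rfl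
      rw [Place.ord_zero] at hπ1
      exact zero_ne_one hπ1
    have hpow : π ^ μ ≠ 0 := pow_ne_zero _ hπ0
    apply mw_v_ne_zero_of_ord_eq_zero P (div_ne_zero hf hpow)
    rw [div_eq_mul_inv, P.ord_mul hf (inv_ne_zero hpow), P.ord_inv, rt_ord_pow, hπ1]
    rw [mw_zeroMult] at hμ
    rw [hμ]
    ring
  · have hμ0 : μ = 0 := by omega
    subst hμ0
    rw [pow_zero, div_one]
    apply mw_v_ne_zero_of_ord_eq_zero P hf
    rw [mw_zeroMult] at hμ
    rw [hμ, Nat.cast_zero]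

/-! ### [GKL] -/

/-- **[GKL]** -/
theorem mw_gkl (N : ℕ) [NeZero N] (hKL : mw_SeamKLmu N) (hABS : mw_SeamABS)
    (hEMB : mw_SeamEMB N) : mw_SeamGKL N := by
  intro r x hx Pinf hInf
  obtain ⟨a₀, hA⟩ := hKL x hx Pinf hInf
  refine ⟨a₀, fun a ha s y hy => ?_⟩
  obtain ⟨γ, cp, K₀, hK₀, hγ, hcp, hfin, hloc⟩ := hA a ha y hy
  obtain ⟨hsep, htan⟩ := hEMB x hx
  have hxli : LinearIndependent mw_K x := hx.2.1
  have hyli : LinearIndependent mw_K y := hy.1
  have hx0 : ∃ b, x b ≠ 0 := ⟨0, hxli.ne_zero 0⟩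
  have hy0 : ∃ b, y b ≠ 0 := ⟨0, hyli.ne_zero 0⟩
  refine ⟨γ + ∑ p ∈ hfin.toFinset, cp p * Real.log p, ?_⟩
  intro cc P π μ hcc hμ hπ
  -- the finite set of the other zeros
  set T : Finset (mw_X N) := (mw_gkl_finite_zeros y cc).toFinset.erase P with hT
  have hTmem : ∀ z, z ≠ P → mw_zeroMult y cc z ≠ 0 → z ∈ T := by
    intro z hzP hz
    rw [hT, Finset.mem_erase]
    exact ⟨hzP, (Set.Finite.mem_toFinset _).mpr hz⟩
  have hPT : P ∉ T := by
    rw [hT]
    exact Finset.notMem_erase P _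
  have hTne : ∀ z ∈ T, P ≠ z := by
    intro z hz h
    exact hPT (h ▸ hz)
  -- the number field
  let vall : (Fin (s + 1) ⊕ Fin (s + 1) ⊕ Unit ⊕ Fin (r + 1) ⊕ Fin (r + 1)
      ⊕ (↥T × Fin (r + 1))) → mw_K :=
    Sum.elim cc (Sum.elim (mw_vec y P) (Sum.elim (fun _ => mw_lcAt N y cc P π μ)
      (Sum.elim (mw_vec x P) (Sum.elim (mw_tanAt N x P π) (fun p => mw_vec x p.1.1 p.2)))))
  let K' : IntermediateField ℚ mw_K := K₀ ⊔ mw_field vall
  have hK'fd : FiniteDimensional ℚ ↥K' := IntermediateField.finiteDimensional_sup K₀ (mw_field vall)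
  have hK'nf : NumberField ↥K' := { to_charZero := inferInstance, to_finiteDimensional := hK'fd }
  have hK₀K' : K₀ ≤ K' := le_sup_left
  have hvall : ∀ i, vall i ∈ K' := fun i =>
    (le_sup_right : mw_field vall ≤ K') (IntermediateField.subset_adjoin ℚ _ ⟨i, rfl⟩)
  have hcc' : ∀ b, cc b ∈ K' := fun b => hvall (Sum.inl b)
  have hyP' : ∀ b, mw_vec y P b ∈ K' := fun b => hvall (Sum.inr (Sum.inl b))
  have hlc' : mw_lcAt N y cc P π μ ∈ K' := hvall (Sum.inr (Sum.inr (Sum.inl ())))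
  have hxP' : ∀ b, mw_vec x P b ∈ K' := fun b => hvall (Sum.inr (Sum.inr (Sum.inr (Sum.inl b))))
  have hτ' : ∀ b, mw_tanAt N x P π b ∈ K' := fun b =>
    hvall (Sum.inr (Sum.inr (Sum.inr (Sum.inr (Sum.inl b)))))
  have hxz' : ∀ z ∈ T, ∀ b, mw_vec x z b ∈ K' := fun z hz b =>
    hvall (Sum.inr (Sum.inr (Sum.inr (Sum.inr (Sum.inr (⟨z, hz⟩, b))))))
  -- the global summation
  have hglob := mw_gkl_global K' hABS hcp hfin cc (mw_vec y P) (mw_lcAt N y cc P π μ)
    (mw_vec x P) (mw_tanAt N x P π) μ T (fun z => (mw_zeroMult y cc z : ℝ))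
    (fun z => mw_vec x z) hcc' hyP' hlc' hxP' hxz' (fun _ => hτ') hcc
    (mw_v_vec_ne_zero y hy0 P) (mw_gkl_lc_ne_zero hyli hcc P π μ hμ hπ)
    (mw_v_vec_ne_zero x hx0 P) (fun z _ => mw_v_vec_ne_zero x hx0 z)
    (fun z hz => hsep P z (hTne z hz)) (fun hμ1 => htan P π (hπ hμ1)) (by
      intro w bnd hbnd
      have h1 := hloc K' w bnd hK₀K' hbnd cc P π μ hcc hμ hπ hcc' hxP' hyP' (by
        intro z hz b
        by_cases hzP : z = P
        · rw [hzP]; exact hxP' b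
        · exact hxz' z (hTmem z hzP hz) b) (fun _ => hτ') hlc'
      rw [mw_gkl_finsum_eq P T (fun z => mw_zeroMult y cc z) hTmem hPT
        (fun z => Real.log (mw_delta K' w (mw_vec x P) (mw_vec x z)))] at h1
      exact h1)
  rw [mw_gkl_finsum_eq P T (fun z => mw_zeroMult y cc z) hTmem hPT (fun z => mw_hD x P z)]
  exact hglob

/-! ### [HDLB] -/

/-- **[HDLB]** the diagonal height is bounded below (by `-log 2`, for any system `x`). -/
theorem mw_hdlb (N : ℕ) [NeZero N] (hABS : mw_SeamABS) : mw_SeamHDLB N := by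
  intro r x _
  refine ⟨Real.log 2, fun P Q _ => ?_⟩
  have := mw_gkl_ht_wedge_le hABS (mw_vec x P) (mw_vec x Q)
  rw [mw_hD]
  linarith

end Fermat.Agent.MW
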