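/-
Project MW (S17), global height side, leaf **[HG]** (helper17).  Prefix `mw_hg_`.

`theorem mw_hg (N) (hBL : mw_SeamBLlow N) (hLEI : mw_SeamLEI N) (hHY : mw_SeamHY N)
   (hBASE : mw_SeamBASE N) : mw_SeamHG N` — the Gauss height dominates the height of the canonical
divisor `𝔇 = div(dt)`:  `h_𝔇(P) - C ≤ h_𝔊(P) = h(τ(P) ∧ x(P)) - 2 h_x(P)`.
`mw_hg_closed` discharges `hBASE` with helper25's `mw_data_base`.

Proof.  `D = d/dt` (`hw_deriv`), Gauss system `W_{ab} = x_a Dx_b - x_b Dx_a`.  At every place `z`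
(`HG/Gauss.lean`): `W / h_z` is regular with value `τ(z) ∧ x(z) ≠ 0` (immersion, `HG/Embed.lean`),
`ord_z h_z = -2(k∞)(z) - 𝔇(z)`.  [BASE] gives `f₀, f₁ ∈ L(n∞ - 𝔇⁺)` with disjoint residual
divisors `𝔅_j`; `ψ_j` = a basis of the span of `f_j · W ⊆ L(a∞)`; its base divisor is
`𝔅_j + 𝔇⁻ + (a - n - 2k)∞`, so by [BL↓], [HY], [LEI] (`HG/Lower.lean`)
`h(τ∧x(P)) ≥ h_{ψ_j}(P) - C ≥ 2k h_Δ(P,∞) + h_𝔇(P) - C'` for `P ∉ supp 𝔅_j`;
finally `h_x ≤ k h_Δ(·,∞) + C` with the sharp `k` (`HG/HXSharp.lean`).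
-/
import Fermat.Agent.MW.Global.HG.Lower
import Fermat.Agent.MW.Global.Data

set_option autoImplicit false
set_option linter.style.haveILetI false
set_option linter.unusedSectionVars false

noncomputable section

namespace Fermat.Agent.MW

open AlgebraicCurve ModularCurve Fermat.Agent.S24 Fermat.Agent.JT3 Fermat.Agent.FF
open scoped Classical IntermediateField

variable (N : ℕ) [NeZero N]

/-- **[HG]** the Gauss height dominates the height of the canonical divisor `div(dt)`. -/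
theorem mw_hg (hBL : mw_SeamBLlow N) (hLEI : mw_SeamLEI N) (hHY : mw_SeamHY N)
    (hBASE : mw_SeamBASE N) : mw_SeamHG N := by
  intro r x hx Pinf hPinf t 𝔇 h𝔇
  obtain ⟨k, g, href⟩ := mw_hg_ref_of_isRef hx hPinf
  have hinf : Infinite (mw_X N) := ffg_infinite_place (rt_isSepGen_jBar N)
  -- `t` is not constant
  have ht : Transcendental mw_K t := by
    rcases hw_const_or_transcendental (K := mw_K) t with ⟨c, rfl⟩ | h
    · exfalso
      have h1 : ∀ z : mw_X N, z ∈ 𝔇.support := fun z => by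
        rw [Finsupp.mem_support_iff, h𝔇 z, mw_dOrd, hw_ord_algebraMap, if_pos le_rfl, mw_v_const,
          sub_self, Place.ord_zero]
        norm_num
      have h2 : (Set.univ : Set (mw_X N)) ⊆ ↑𝔇.support := fun z _ => h1 z
      exact Set.infinite_univ (𝔇.support.finite_toSet.subset h2)
    · exact h
  haveI : FiniteDimensional (mw_K)⟮t⟯ (mw_F N) := hw_finiteDimensional_adjoin (br_jBar N) ht
  obtain ⟨C₁, hC₁⟩ := mw_hg_hx_le hHY hx hPinf href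
  -- the positive part of `𝔇`
  obtain ⟨𝔇p, h𝔇p⟩ : ∃ 𝔇p : mw_Div N, ∀ z, 𝔇p z = max (𝔇 z) 0 :=
    ⟨𝔇.mapRange (fun n => max n 0) (by simp), fun z => Finsupp.mapRange_apply⟩
  obtain ⟨c, hc⟩ := hBASE
  obtain ⟨n, hn⟩ : ∃ n : ℕ, c + Divisor.degree 𝔇p ≤ n :=
    ⟨(c + Divisor.degree 𝔇p).toNat, Int.self_le_toNat _⟩
  have hdeg : c ≤ Divisor.degree (Finsupp.single Pinf (n : ℤ) - 𝔇p : mw_Div N) := by
    rw [map_sub, mw_hg_degree_single]
    omega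
  obtain ⟨𝔅, h𝔅0, h𝔅f, h𝔅d⟩ := hc _ hdeg 1
  choose f hf0 hf using h𝔅f
  obtain ⟨C0, hC0⟩ := mw_hg_gauss_lower_one hBL hLEI hHY hx hPinf href ht 𝔇 h𝔇 𝔇p h𝔇p n
    (f 0) (hf0 0) (𝔅 0) (h𝔅0 0) (hf 0)
  obtain ⟨C1, hC1⟩ := mw_hg_gauss_lower_one hBL hLEI hHY hx hPinf href ht 𝔇 h𝔇 𝔇p h𝔇p n
    (f 1) (hf0 1) (𝔅 1) (h𝔅0 1) (hf 1)
  refine ⟨max C0 C1 + 2 * C₁, fun P π hP𝔇 hPinf' hπ => ?_⟩
  have hx1 := hC₁ P hPinf'
  unfold mw_hGauss
  by_cases hP0 : P ∈ (𝔅 0).support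
  · have hP1 : P ∉ (𝔅 1).support :=
      Finset.disjoint_left.mp (h𝔅d 0 1 (by decide)) hP0
    have h1 := hC1 P π hP𝔇 hPinf' hP1 hπ
    have h2 := le_max_right C0 C1
    linarith
  · have h1 := hC0 P π hP𝔇 hPinf' hP0 hπ
    have h2 := le_max_left C0 C1
    linarith

/-- **[HG]**, with `[BASE]` discharged -/
theorem mw_hg_closed (hBL : mw_SeamBLlow N) (hLEI : mw_SeamLEI N) (hHY : mw_SeamHY N) :
    mw_SeamHG N :=
  mw_hg N hBL hLEI hHY (mw_data_base N)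

end Fermat.Agent.MW

end
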