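/-
Project MW (S17): THE SUB-SEAMS OF `[NORTH]` (architect helper7).  `MW/Global/North.lean` proves
`NSTAB + NPTS + HX + HDLB ⟹ NORTH`.

* `mw_SeamHX`     [HX]    `h_x(P) ≤ k'·h_Δ(P,∞) + C`              (⟸ HY + monomials of degree `m` in `x`
                          lie in `L(mk∞)`);
* `mw_SeamNSTAB`  [NSTAB] the minimal representative of a RATIONAL class is Galois-stable
                          (⟸ uniqueness of the minimal representative; `σ∞ = ∞`);
* `mw_SeamNPTS`   [NPTS]  finitely many points of bounded height and bounded Galois orbit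
                          (⟸ NCBD + EMB + `x` rational);
* `mw_SeamNCBD`   [NCBD]  Northcott for algebraic numbers of bounded degree.
Prefix `mw_`.
-/
import Fermat.Agent.MW.Global.Seams

set_option autoImplicit false

noncomputable section

namespace Fermat.Agent.MW

open AlgebraicCurve ModularCurve
open scoped Classical

variable (N : ℕ) [NeZero N]

/-- **[HX]** the height of the reference embedding is dominated by the distance to `∞`. -/
def mw_SeamHX : Prop :=
  ∀ {r : ℕ} (x : Fin (r + 1) → mw_F N), mw_IsRef N x → ∀ Pinf : mw_X N, mw_IsInf N Pinf →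
    ∃ (k' : ℕ) (C : ℝ), ∀ P : mw_X N, P ≠ Pinf →
      mw_ht (mw_vec x P) ≤ (k' : ℝ) * mw_hD x P Pinf + C

/-- **[NSTAB]** the minimal representative of a rational class is Galois-stable. -/
def mw_SeamNSTAB : Prop :=
  ∀ Pinf : mw_X N, mw_IsInf N Pinf → ∀ a ∈ mw_Gamma N, ∀ E : mw_Div N, mw_IsMinRep N Pinf a E →
    ∀ (σ : mw_G) (P : mw_X N),
      E (arithmeticGalois (modularFunctionFieldFull N) σ • P) = E P

/-- **[NPTS]** finitely many points of bounded height whose Galois orbit has at most `D`
elements. -/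
def mw_SeamNPTS : Prop :=
  ∀ {r : ℕ} (x : Fin (r + 1) → mw_F N), mw_IsRef N x → ∀ (D : ℕ) (B : ℝ),
    {P : mw_X N | (∃ S : Finset (mw_X N), S.card ≤ D ∧
        ∀ σ : mw_G, arithmeticGalois (modularFunctionFieldFull N) σ • P ∈ S) ∧
      mw_ht (mw_vec x P) ≤ B}.Finite

/-- **[NCBD]** Northcott's theorem for algebraic numbers of bounded degree. -/
def mw_SeamNCBD : Prop :=
  ∀ (D : ℕ) (B : ℝ),
    {α : mw_K | (minpoly ℚ α).natDegree ≤ D ∧ mw_ht ![1, α] ≤ B}.Finite

end Fermat.Agent.MW
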