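/-
Project MW (S17), sub-leaf [HX] of [NORTH] / [HG] (helper25; seam `mw_SeamHX` of
`MW/Global/Seams4.lean`): the height of the reference embedding is dominated by the distance to
`∞`, `h_x(P) ≤ k' · h_Δ(P,∞) + C`.

`mw_hx : mw_SeamHY N → mw_SeamCPL N → mw_SeamABS → mw_SeamHX N`.

Route: `x` is a basis of `L(k∞)`, `y` a basis of `L(a∞)` with `a ≥ max a₀ k` (`a₀` of [HY]); then
`x = A y` for a FIXED matrix `A` over `Q̄`, and for `P ≠ ∞` both pivots are units at `P`, so
`x(P) = λ · A y(P)` with `λ ≠ 0`; `h(A v) ≤ log #ι + h(A) + h(v)` (Mathlib's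
`Height.logHeight_linearMap_apply_le` in a number field containing everything + [ABS]); finally
[HY]: `h_y(P) ≤ a · h_Δ(P,∞) + C`.  Prefix `mw_hx_`.
-/
import Mathlib
import Fermat.Agent.MW.Global.Seams4
import Fermat.Agent.MW.Global.Seams3
import Fermat.Agent.MW.Core.Val
import Fermat.Agent.MW.Inf
import Fermat.Agent.JT3.Riemann.FBar

set_option autoImplicit false
set_option linter.unusedSectionVars false

noncomputable section

namespace Fermat.Agent.MW

open AlgebraicCurve ModularCurve Fermat.Agent.JT3 Fermat.Agent.S24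
open scoped Classical

/-! ### heights: scalars and linear maps -/

/-- the absolute height of a tuple computed in `mw_field` of a bigger tuple -/
theorem mw_hx_ht_eq (hABS : mw_SeamABS) {ι κ : Type} [Finite ι] [Finite κ] (w : κ → mw_K)
    (v : ι → mw_K) (hv : ∀ i, v i ∈ mw_field w) :
    mw_ht v = mw_htIn (mw_field w) (fun i => (⟨v i, hv i⟩ : ↥(mw_field w))) :=
  (hABS (mw_field w) (fun i => (⟨v i, hv i⟩ : ↥(mw_field w)))).symm

/-- the height is projective -/
theorem mw_hx_ht_smul (hABS : mw_SeamABS) {ι : Type} [Finite ι] (v : ι → mw_K) {c : mw_K}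
    (hc : c ≠ 0) : mw_ht (fun i => c * v i) = mw_ht v := by
  set w : Option ι → mw_K := fun o => o.elim c v with hw
  have hcw : c ∈ mw_field w := IntermediateField.subset_adjoin ℚ _ ⟨none, rfl⟩
  have hvw : ∀ i, v i ∈ mw_field w := fun i => IntermediateField.subset_adjoin ℚ _ ⟨some i, rfl⟩
  have hcvw : ∀ i, c * v i ∈ mw_field w := fun i => (mw_field w).mul_mem hcw (hvw i)
  rw [mw_hx_ht_eq hABS w _ hcvw, mw_hx_ht_eq hABS w v hvw]
  unfold mw_htIn
  congr 1
  have hc' : (⟨c, hcw⟩ : ↥(mw_field w)) ≠ 0 := fun h => hc (congrArg Subtype.val h)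
  have := Height.logHeight_smul_eq_logHeight
    (fun i => (⟨v i, hvw i⟩ : ↥(mw_field w))) hc'
  rw [← this]
  rfl

/-- the height of the image under a fixed linear map -/
theorem mw_hx_ht_linear (hABS : mw_SeamABS) {ι ι' : Type} [Fintype ι] [Finite ι']
    (A : ι' × ι → mw_K) (v : ι → mw_K) :
    mw_ht (fun j => ∑ i, A (j, i) * v i) ≤ Real.log (Nat.card ι) + mw_ht A + mw_ht v := by
  set w : (ι' × ι) ⊕ ι → mw_K := Sum.elim A v with hw
  have hAw : ∀ p, A p ∈ mw_field w := fun p =>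
    IntermediateField.subset_adjoin ℚ _ ⟨Sum.inl p, rfl⟩
  have hvw : ∀ i, v i ∈ mw_field w := fun i =>
    IntermediateField.subset_adjoin ℚ _ ⟨Sum.inr i, rfl⟩
  have hAvw : ∀ j, ∑ i, A (j, i) * v i ∈ mw_field w := fun j =>
    (mw_field w).sum_mem fun i _ => (mw_field w).mul_mem (hAw (j, i)) (hvw i)
  rw [mw_hx_ht_eq hABS w _ hAvw, mw_hx_ht_eq hABS w A hAw, mw_hx_ht_eq hABS w v hvw]
  unfold mw_htIn
  set d : ℝ := (Module.finrank ℚ ↥(mw_field w) : ℝ) with hd
  have hdpos : 0 < d := by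
    rw [hd]
    exact_mod_cast Module.finrank_pos
  have key := Height.logHeight_linearMap_apply_le
    (fun p : ι' × ι => (⟨A p, hAw p⟩ : ↥(mw_field w)))
    (fun i => (⟨v i, hvw i⟩ : ↥(mw_field w)))
  have htw : (Height.totalWeight ↥(mw_field w) : ℝ) = d := by
    rw [NumberField.totalWeight_eq_finrank]
  have hfun : (fun j => (⟨∑ i, A (j, i) * v i, hAvw j⟩ : ↥(mw_field w))) =
      fun j => ∑ i, (⟨A (j, i), hAw (j, i)⟩ : ↥(mw_field w)) * ⟨v i, hvw i⟩ := by
    funext j
    apply Subtype.ext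
    simp
  rw [hfun]
  rw [htw] at key
  generalize Height.logHeight
    (fun j => ∑ i, (⟨A (j, i), hAw (j, i)⟩ : ↥(mw_field w)) * ⟨v i, hvw i⟩) = LAv at key ⊢
  generalize Height.logHeight (fun p : ι' × ι => (⟨A p, hAw p⟩ : ↥(mw_field w))) = LA at key ⊢
  generalize Height.logHeight (fun i => (⟨v i, hvw i⟩ : ↥(mw_field w))) = LV at key ⊢
  have h2 := div_le_div_of_nonneg_right key hdpos.le
  have h3 : (d * Real.log (Nat.card ι) + LA + LV) / d =
      Real.log (Nat.card ι) + LA / d + LV / d := by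
    field_simp
  rw [h3] at h2
  exact h2

variable {N : ℕ} [NeZero N]

/-! ### pivots of complete systems outside `∞` -/

/-- the members of a complete system lie in `L(m∞)` -/
theorem mw_hx_mem_L {Pinf : mw_X N} {m : ℕ} {s : ℕ} {y : Fin (s + 1) → mw_F N}
    (hy : mw_IsComplete N Pinf m y) (b : Fin (s + 1)) :
    y b ∈ riemannRochSpace (Finsupp.single Pinf (m : ℤ)) := by
  rw [← hy.2]
  exact Submodule.subset_span ⟨b, rfl⟩

/-- a function of `L(m∞)` is regular outside `∞` -/
theorem mw_hx_ord_nonneg {Pinf : mw_X N} {m : ℕ} {f : mw_F N} (hf0 : f ≠ 0)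
    (hf : f ∈ riemannRochSpace (Finsupp.single Pinf (m : ℤ))) {P : mw_X N} (hP : P ≠ Pinf) :
    0 ≤ P.ord f := by
  have := (rt_mem_L_iff hf0).mp hf P
  rwa [Finsupp.single_eq_of_ne hP, neg_zero] at this

/-- the pivot of a complete system is a unit outside `∞` -/
theorem mw_hx_ord_piv {Pinf : mw_X N} {m : ℕ} {s : ℕ} {y : Fin (s + 1) → mw_F N}
    (hy : mw_IsComplete N Pinf m y) {P : mw_X N} (hP : P ≠ Pinf) :
    P.ord (y (mw_piv y P)) = 0 := by
  have hex := mw_v_exists_ne_zero hy.1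
  obtain ⟨hne, -⟩ := mw_v_piv_spec y hex P
  refine le_antisymm ?_ (mw_hx_ord_nonneg hne (mw_hx_mem_L hy _) hP)
  -- `1 ∈ L(m∞)` is a section
  have h1 : (1 : mw_F N) ∈ riemannRochSpace (Finsupp.single Pinf (m : ℤ)) := by
    have hA0 : (0 : mw_Div N) ≤ Finsupp.single Pinf (m : ℤ) := by
      rw [Finsupp.le_def]
      intro v
      rw [Finsupp.zero_apply, Finsupp.single_apply]
      split_ifs
      · exact Int.natCast_nonneg m
      · exact le_rfl
    have := rt_algebraMap_mem_L (K := mw_K) (F := mw_F N) hA0 (1 : mw_K)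
    rwa [map_one] at this
  rw [← hy.2, Submodule.mem_span_range_iff_exists_fun] at h1
  obtain ⟨cc, hcc⟩ := h1
  have hsec : mw_sec y cc = 1 := by
    rw [mw_sec, ← hcc]
    exact Finset.sum_congr rfl fun b _ => (Algebra.smul_def _ _).symm
  have hmem := mw_v_sec_div_mem y hex P cc
  rw [hsec] at hmem
  have := (mw_v_mem_iff P (div_ne_zero one_ne_zero hne)).mp hmem
  rw [one_div, Place.ord_inv] at this
  omega

/-! ### [HX] -/

variable (N)

/-- **[HX]** -/
theorem mw_hx (hHY : mw_SeamHY N) (hCPL : mw_SeamCPL N) (hABS : mw_SeamABS) : mw_SeamHX N := by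
  intro r x hx Pinf hPinf
  obtain ⟨a₀, hHY'⟩ := hHY x hx Pinf hPinf
  -- `x` is a complete system at `∞`
  obtain ⟨-, hxli, Pinf', k, g, hPinf', -, -, hxspan⟩ := hx
  have hPP : Pinf' = Pinf := (mw_inf_unique N Pinf' hPinf').trans (mw_inf_unique N Pinf hPinf).symm
  rw [hPP] at hxspan
  have hxc : mw_IsComplete N Pinf k x := ⟨hxli, hxspan⟩
  -- the bigger complete system `y`
  set a := max a₀ k with ha
  obtain ⟨s, y, hy⟩ := hCPL Pinf hPinf a
  obtain ⟨CY, hCY⟩ := hHY' a (le_max_left _ _) y hy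
  -- the matrix
  have hxy : ∀ i, ∃ c : Fin (s + 1) → mw_K, ∑ b, c b • y b = x i := by
    intro i
    rw [← Submodule.mem_span_range_iff_exists_fun, hy.2]
    refine rt_L_mono ?_ (mw_hx_mem_L hxc i)
    rw [Finsupp.le_def]
    intro v
    rw [Finsupp.single_apply, Finsupp.single_apply]
    split_ifs
    · exact_mod_cast le_max_right a₀ k
    · exact le_rfl
  choose A hA using hxy
  set A' : Fin (r + 1) × Fin (s + 1) → mw_K := fun p => A p.1 p.2 with hA'
  refine ⟨a, Real.log (Nat.card (Fin (s + 1))) + mw_ht A' + CY, fun P hP => ?_⟩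
  have hexx := mw_v_exists_ne_zero hxli
  have hexy := mw_v_exists_ne_zero hy.1
  obtain ⟨hxp, hxmem⟩ := mw_v_piv_spec x hexx P
  obtain ⟨hyq, hymem⟩ := mw_v_piv_spec y hexy P
  set p := mw_piv x P with hp
  set q := mw_piv y P with hq
  have hordp : P.ord (x p) = 0 := mw_hx_ord_piv hxc hP
  have hordq : P.ord (y q) = 0 := mw_hx_ord_piv hy hP
  -- the unit `u = y_q / x_p`
  set u : mw_F N := y q / x p with hu
  have hu0 : u ≠ 0 := div_ne_zero hyq hxp
  have hordu : P.ord u = 0 := by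
    rw [hu, div_eq_mul_inv, Place.ord_mul P hyq (inv_ne_zero hxp), Place.ord_inv, hordp, hordq]
    ring
  have humem : u ∈ P.toValuationSubring := (mw_v_mem_iff P hu0).mpr hordu.ge
  have hlam : mw_val P u ≠ 0 := mw_v_ne_zero_of_ord_eq_zero P hu0 hordu
  -- `x(P) = λ · A y(P)`
  have hvec : mw_vec x P = fun i => mw_val P u * ∑ b, A' (i, b) * mw_vec y P b := by
    funext i
    have h1 : x i / x p = (∑ b, algebraMap mw_K (mw_F N) (A i b) * (y b / y q)) * u := by
      rw [← hA i, hu, Finset.sum_mul, Finset.sum_div]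
      refine Finset.sum_congr rfl fun b _ => ?_
      rw [Algebra.smul_def]
      field_simp
    have hsmem : ∀ b ∈ (Finset.univ : Finset (Fin (s + 1))),
        algebraMap mw_K (mw_F N) (A i b) * (y b / y q) ∈ P.toValuationSubring := fun b _ =>
      P.toValuationSubring.mul_mem _ _ (mw_v_const_mem P _) (hymem b)
    show mw_val P (x i / x p) = _
    rw [h1, mw_v_mul P (P.toValuationSubring.sum_mem hsmem) humem, mw_v_sum P _ _ hsmem, mul_comm]
    congr 1
    refine Finset.sum_congr rfl fun b _ => ?_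
    rw [mw_v_const_mul P _ (hymem b)]
    rfl
  rw [hvec, mw_hx_ht_smul hABS _ hlam]
  have h2 := mw_hx_ht_linear hABS A' (mw_vec y P)
  have h3 := (abs_le.mp (hCY P hP)).2
  linarith

end Fermat.Agent.MW
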