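/-
Project MW (S17), sub-leaf [HX] (helper25): the closed form `mw_hx_closed : mw_SeamHY N → mw_SeamHX N`
([CPL] and [ABS] plugged in).
-/
import Fermat.Agent.MW.Global.HX
import Fermat.Agent.MW.Global.Data
import Fermat.Agent.MW.AbsHeight

set_option autoImplicit false

namespace Fermat.Agent.MW

/-- **[HX]** from [HY] alone -/
theorem mw_hx_closed (N : ℕ) [NeZero N] (hHY : mw_SeamHY N) : mw_SeamHX N :=
  mw_hx N hHY (mw_data_cpl N) mw_ah_seamABS

end Fermat.Agent.MW
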