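/-
Project MW (S17), global leaf **[HY]** (architect helper7; helper18):
`mw_hy : mw_SeamGKL N → mw_SeamHY N` — `h_y(P) = a · h_Δ(P,∞) + O(1)` for the complete system
`y = L(a∞)`: `[GKL]` for the section `1 ∈ L(a∞)`, whose zero divisor is `a∞`.  Prefix `mw_hy_`.
-/
import Fermat.Agent.MW.Global.Seams
import Fermat.Agent.MW.Core.SYL

set_option autoImplicit false
set_option linter.unusedSectionVars false

noncomputable section

namespace Fermat.Agent.MW

open AlgebraicCurve ModularCurve Fermat.Agent.S24 Fermat.Agent.JT3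
open scoped Classical

/-- **[HY]** -/
theorem mw_hy (N : ℕ) [NeZero N] (hGKL : mw_SeamGKL N) : mw_SeamHY N := by
  intro r x hx Pinf hInf
  obtain ⟨a₀', hA⟩ := hGKL x hx Pinf hInf
  obtain ⟨-, hxli, Pinf', k, g, hInf', hkg, hR, hxspan⟩ := hx
  have hP : Pinf' = Pinf := by
    apply Place.ext
    ext f
    rw [hInf' f, hInf f]
  subst hP
  refine ⟨max a₀' k, fun a ha s y hy => ?_⟩
  obtain ⟨C, hC⟩ := hA a (le_trans (le_max_left _ _) ha) y hy
  obtain ⟨hyli, hyspan⟩ := hy
  have hka : k ≤ a := le_trans (le_max_right _ _) ha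
  -- the section `1`
  have hD0 : (0 : mw_Div N) ≤ Finsupp.single Pinf' (a : ℤ) := by
    rw [Finsupp.le_def]
    intro v
    rw [Finsupp.zero_apply, Finsupp.single_apply]
    split_ifs
    · exact Int.natCast_nonneg a
    · exact le_rfl
  have h1mem : (1 : mw_F N) ∈ riemannRochSpace (Finsupp.single Pinf' (a : ℤ)) := by
    have := rt_algebraMap_mem_L (K := mw_K) (F := mw_F N) hD0 (1 : mw_K)
    rwa [map_one] at this
  rw [← hyspan] at h1mem
  obtain ⟨cc, hcc⟩ := (Submodule.mem_span_range_iff_exists_fun mw_K).mp h1mem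
  have hsec : mw_sec y cc = 1 := by
    rw [← hcc, mw_sec]
    exact Finset.sum_congr rfl fun b _ => by rw [Algebra.smul_def]
  have hcc0 : cc ≠ 0 := by
    rintro rfl
    rw [mw_sec] at hsec
    simp at hsec
  obtain ⟨-, hy0, hypiv⟩ := mw_syl_system g k Pinf' hR a hka y hyspan
  have hZ : ∀ z : mw_X N, mw_zeroMult y cc z = (Finsupp.single Pinf' (a : ℤ) : mw_Div N) z := by
    intro z
    rw [mw_syl_zeroMult hy0 (hypiv z) cc (by rw [hsec]; exact one_ne_zero), hsec, Place.ord_one,
      zero_add]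
  refine ⟨C + |mw_ht cc|, fun P hP => ?_⟩
  have hZP : mw_zeroMult y cc P = ((0 : ℕ) : ℤ) := by
    rw [hZ, Finsupp.single_eq_of_ne hP, Nat.cast_zero]
  have h := hC cc P 1 0 hcc0 hZP (fun h => absurd h (by norm_num))
  have hsum : (∑ᶠ z : mw_X N, if z = P then (0 : ℝ) else (mw_zeroMult y cc z : ℝ) * mw_hD x P z)
      = (a : ℝ) * mw_hD x P Pinf' := by
    rw [finsum_eq_single _ Pinf']
    · rw [if_neg (Ne.symm hP), hZ, Finsupp.single_eq_same]
      norm_cast
    · intro z hz
      split_ifs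
      · rfl
      · rw [hZ, Finsupp.single_eq_of_ne hz, Int.cast_zero, zero_mul]
  rw [hsum, Nat.cast_zero, zero_mul, add_zero] at h
  have h2 := abs_le.mp h
  have h3 := le_abs_self (mw_ht cc)
  have h4 := neg_abs_le (mw_ht cc)
  rw [abs_le]
  constructor <;> linarith [h2.1, h2.2]

end Fermat.Agent.MW
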