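/-
Project MW (S17), global leaf [LEI] (helper26): the global pairing of a degree-zero divisor with a
principal divisor is bounded in terms of the `L¹`-norms only (⟸ [GKL] with `μ = 0`).
Deliverable: `mw_lei N : mw_SeamGKL N → mw_SeamLEI N`.  Prefix `mw_lei_`.

Proof: `E = div f`, `‖E‖ ≤ n`, `m = m(n)`; `G' ∈ L(m∞ - E⁻)` whose residual zeros avoid `supp D`,
`G := f G' ∈ L(m∞)`; the zero divisors (as sections of `m∞`) satisfy `Z_G - Z_{G'} = E`, so by [GKL]
(`μ = 0`) at every `P ∈ supp D`: `∑_z E(z) h_Δ(P,z) = h(c_G) - h(c_{G'}) + O(1)`, and the main term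
is killed by `deg D = 0`.
-/
import Fermat.Agent.MW.Global.Seams
import Fermat.Agent.MW.Core.EMB

set_option autoImplicit false
set_option linter.unusedSectionVars false
set_option linter.style.haveILetI false

noncomputable section

namespace Fermat.Agent.MW

open AlgebraicCurve ModularCurve Fermat.Agent.S24 Fermat.Agent.JT3
open scoped Classical

variable {N : ℕ} [NeZero N]

/-! ### frames -/

theorem mw_lei_exists_frame_aux {K V : Type*} [Field K] [AddCommGroup V] [Module K V]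
    (p : Submodule K V) [FiniteDimensional K p] (s : ℕ) (h : Module.finrank K p = s + 1) :
    ∃ y : Fin (s + 1) → V, LinearIndependent K y ∧ Submodule.span K (Set.range y) = p := by
  let b := Module.finBasisOfFinrankEq K p h
  refine ⟨fun i => (b i : V), ?_, ?_⟩
  · exact b.linearIndependent.map' p.subtype (Submodule.ker_subtype _)
  · have : Set.range (fun i => (b i : V)) = p.subtype '' Set.range b := by
      rw [← Set.range_comp]; rfl
    rw [this, Submodule.span_image, b.span_eq, Submodule.map_subtype_top]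

theorem mw_lei_exists_frame (D : mw_Div N) (s : ℕ)
    (h : Module.finrank mw_K ↥(riemannRochSpace D) = s + 1) :
    ∃ y : Fin (s + 1) → mw_F N, LinearIndependent mw_K y ∧
      Submodule.span mw_K (Set.range y) = riemannRochSpace D := by
  haveI := rt_L_finite (rt_isSepGen_jBar N) D
  exact mw_lei_exists_frame_aux _ s h

/-! ### the negative part of a divisor -/

/-- `E⁻ = max(-E, 0)` -/
def mw_lei_neg (E : mw_Div N) : mw_Div N := (-E) ⊔ 0

theorem mw_lei_neg_apply (E : mw_Div N) (z : mw_X N) : mw_lei_neg E z = max (-E z) 0 := by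
  rw [mw_lei_neg, Finsupp.sup_apply, Finsupp.neg_apply, Finsupp.zero_apply]

theorem mw_lei_degree_neg_le (E : mw_Div N) :
    Divisor.degree (mw_lei_neg E) ≤ (mw_norm E : ℤ) := by
  have hsub : (mw_lei_neg E).support ⊆ E.support := by
    intro z hz
    rw [Finsupp.mem_support_iff, mw_lei_neg_apply] at hz
    rw [Finsupp.mem_support_iff]
    intro h0
    rw [h0] at hz
    simp at hz
  rw [rt_degree_eq_sum (rt_isSepGen_jBar N) _ _ hsub, mw_norm, Nat.cast_sum]
  refine Finset.sum_le_sum fun z _ => ?_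
  rw [mw_lei_neg_apply]
  omega

/-! ### zero multiplicities of sections of a base-point-free complete system -/

theorem mw_lei_zeroMult {k g : ℕ}
    (hex : ∀ D : mw_Div N, (k : ℤ) - 2 ≤ Divisor.degree D →
      (Module.finrank mw_K ↥(riemannRochSpace D) : ℤ) = Divisor.degree D + 1 - g)
    (Pinf : mw_X N) (m : ℕ) (hm : k ≤ m + 1 - 1 ∧ k ≤ m) {s : ℕ} (y : Fin (s + 1) → mw_F N)
    (hyli : LinearIndependent mw_K y)
    (hys : Submodule.span mw_K (Set.range y) = riemannRochSpace (Finsupp.single Pinf (m : ℤ)))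
    {c : Fin (s + 1) → mw_K} (hc : mw_sec y c ≠ 0) (z : mw_X N) :
    mw_zeroMult y c z = z.ord (mw_sec y c) + (Finsupp.single Pinf (m : ℤ) : mw_Div N) z := by
  have hx0 := mw_v_exists_ne_zero hyli
  have hpiv := mw_emb_ord_piv hx0 hys z (mw_emb_exists_not_mem hex _ z (by
    rw [rt_degree_single (rt_isSepGen_jBar N)]
    have := hm.2
    omega))
  obtain ⟨hp0, -⟩ := mw_v_piv_spec y hx0 z
  rw [mw_zeroMult, div_eq_mul_inv, z.ord_mul hc (inv_ne_zero hp0), z.ord_inv, hpiv]
  ring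

theorem mw_lei_finite_zeroMult {s : ℕ} (y : Fin (s + 1) → mw_F N) (c : Fin (s + 1) → mw_K)
    (Pinf : mw_X N) (m : ℕ)
    (h : ∀ z, mw_zeroMult y c z
      = z.ord (mw_sec y c) + (Finsupp.single Pinf (m : ℤ) : mw_Div N) z) :
    {z : mw_X N | mw_zeroMult y c z ≠ 0}.Finite := by
  refine ((rt_finite_support (rt_isSepGen_jBar N) (mw_sec y c)).union
    (Set.finite_singleton Pinf)).subset fun z hz => ?_
  by_contra hnot
  apply hz
  have h1 : z.ord (mw_sec y c) = 0 := by
    by_contra h'; exact hnot (Or.inl h')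
  have h2 : z ≠ Pinf := fun h' => hnot (Or.inr h')
  rw [h z, h1, Finsupp.single_apply, if_neg (Ne.symm h2)]
  rfl

/-! ### avoiding finitely many proper subspaces -/

theorem mw_lei_avoid {K V : Type*} [Field K] [Infinite K] [AddCommGroup V] [Module K V]
    (p : Submodule K V) {ι : Type*} [Finite ι] (q : ι → Submodule K V)
    (h : ∀ i, ∃ f ∈ p, f ∉ q i) : ∃ f ∈ p, ∀ i, f ∉ q i := by
  have h' : ∀ i, (q i).comap p.subtype ≠ ⊤ := by
    intro i htop
    obtain ⟨f, hf, hfq⟩ := h i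
    have : (⟨f, hf⟩ : p) ∈ (q i).comap p.subtype := htop ▸ Submodule.mem_top
    exact hfq this
  obtain ⟨f, hf⟩ := Submodule.exists_forall_notMem_of_forall_ne_top
    (fun i => (q i).comap p.subtype) h'
  exact ⟨f, f.2, fun i hi => hf i hi⟩

/-! ### the theorem -/

/-- the inner sum of the pairing -/
def mw_lei_T {r : ℕ} (x : Fin (r + 1) → mw_F N) (E : mw_Div N) (P : mw_X N) : ℝ :=
  E.sum fun Q m => (m : ℝ) * mw_hD x P Q

theorem mw_lei_B_eq {r : ℕ} (x : Fin (r + 1) → mw_F N) (D E : mw_Div N) :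
    mw_B x D E = -∑ P ∈ D.support, (D P : ℝ) * mw_lei_T x E P := by
  rw [mw_B, Finsupp.sum]
  congr 1
  refine Finset.sum_congr rfl fun P _ => ?_
  rw [mw_lei_T, Finsupp.sum, Finsupp.sum, Finset.mul_sum]
  refine Finset.sum_congr rfl fun Q _ => ?_
  push_cast
  ring

/-- the key estimate at one point `P` of `supp D` -/
theorem mw_lei_point {r : ℕ} (x : Fin (r + 1) → mw_F N) {k g : ℕ}
    (hex : ∀ D : mw_Div N, (k : ℤ) - 2 ≤ Divisor.degree D →
      (Module.finrank mw_K ↥(riemannRochSpace D) : ℤ) = Divisor.degree D + 1 - g)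
    (Pinf : mw_X N) (m : ℕ) (hkm : k ≤ m) {s : ℕ} (y : Fin (s + 1) → mw_F N)
    (hyli : LinearIndependent mw_K y)
    (hys : Submodule.span mw_K (Set.range y) = riemannRochSpace (Finsupp.single Pinf (m : ℤ)))
    (C : ℝ)
    (hC : ∀ (cc : Fin (s + 1) → mw_K) (P : mw_X N) (π : mw_F N) (μ : ℕ), cc ≠ 0 →
      mw_zeroMult y cc P = (μ : ℤ) → (1 ≤ μ → P.ord π = 1) →
      |(∑ᶠ z : mw_X N, if z = P then (0 : ℝ) else (mw_zeroMult y cc z : ℝ) * mw_hD x P z)
        - (mw_ht (mw_vec y P) + mw_ht cc + (μ : ℝ) * mw_hGauss N x P π)| ≤ C)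
    (E : mw_Div N) (f : mw_F N) (hf0 : f ≠ 0) (hE : ∀ P : mw_X N, E P = P.ord f)
    (c c' : Fin (s + 1) → mw_K) (hc' : mw_sec y c' ≠ 0) (hcc : mw_sec y c = f * mw_sec y c')
    (P : mw_X N) (hEP : E P = 0)
    (hP : P.ord (mw_sec y c') + (Finsupp.single Pinf (m : ℤ) : mw_Div N) P = 0) :
    |mw_lei_T x E P - (mw_ht c - mw_ht c')| ≤ 2 * C := by
  have hx := rt_isSepGen_jBar N
  have hcsec : mw_sec y c ≠ 0 := by rw [hcc]; exact mul_ne_zero hf0 hc'
  have hc0 : c ≠ 0 := by
    rintro rfl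
    apply hcsec
    simp [mw_sec]
  have hc'0 : c' ≠ 0 := by
    rintro rfl
    apply hc'
    simp [mw_sec]
  have hZ : ∀ z, mw_zeroMult y c z
      = z.ord (mw_sec y c) + (Finsupp.single Pinf (m : ℤ) : mw_Div N) z :=
    fun z => mw_lei_zeroMult hex Pinf m ⟨by omega, hkm⟩ y hyli hys hcsec z
  have hZ' : ∀ z, mw_zeroMult y c' z
      = z.ord (mw_sec y c') + (Finsupp.single Pinf (m : ℤ) : mw_Div N) z :=
    fun z => mw_lei_zeroMult hex Pinf m ⟨by omega, hkm⟩ y hyli hys hc' z
  have hdiff : ∀ z, mw_zeroMult y c z - mw_zeroMult y c' z = E z := by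
    intro z
    rw [hZ z, hZ' z, hcc, z.ord_mul hf0 hc', hE z]
    ring
  have hZP' : mw_zeroMult y c' P = ((0 : ℕ) : ℤ) := by rw [hZ' P, hP]; rfl
  have hZP : mw_zeroMult y c P = ((0 : ℕ) : ℤ) := by
    have := hdiff P
    rw [hZP', hEP] at this
    push_cast at this ⊢
    omega
  have h1 := hC c P 0 0 hc0 hZP (by intro h; omega)
  have h2 := hC c' P 0 0 hc'0 hZP' (by intro h; omega)
  -- the difference of the two sums
  have hfin : ∀ cc : Fin (s + 1) → mw_K, (∀ z, mw_zeroMult y cc z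
      = z.ord (mw_sec y cc) + (Finsupp.single Pinf (m : ℤ) : mw_Div N) z) →
      (Function.support fun z : mw_X N =>
        if z = P then (0 : ℝ) else (mw_zeroMult y cc z : ℝ) * mw_hD x P z).Finite := by
    intro cc h
    refine (mw_lei_finite_zeroMult y cc Pinf m h).subset fun z hz => ?_
    rw [Function.mem_support] at hz
    intro h0
    apply hz
    rw [h0]
    simp
  have hsub : (∑ᶠ z : mw_X N, if z = P then (0 : ℝ) else (mw_zeroMult y c z : ℝ) * mw_hD x P z)
      - (∑ᶠ z : mw_X N, if z = P then (0 : ℝ) else (mw_zeroMult y c' z : ℝ) * mw_hD x P z)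
      = mw_lei_T x E P := by
    rw [← finsum_sub_distrib (hfin c hZ) (hfin c' hZ')]
    rw [mw_lei_T, Finsupp.sum]
    rw [finsum_eq_sum_of_support_subset (s := E.support)]
    · refine Finset.sum_congr rfl fun z _ => ?_
      have := hdiff z
      by_cases hzP : z = P
      · rw [if_pos hzP, if_pos hzP, hzP, hEP]
        simp
      · rw [if_neg hzP, if_neg hzP, ← sub_mul]
        congr 1
        exact_mod_cast this
    · intro z hz
      rw [Function.mem_support] at hz
      rw [Finset.mem_coe, Finsupp.mem_support_iff]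
      intro h0
      apply hz
      have := hdiff z
      rw [h0] at this
      by_cases hzP : z = P
      · rw [if_pos hzP, if_pos hzP, sub_zero]
      · rw [if_neg hzP, if_neg hzP, ← sub_mul]
        have e : ((mw_zeroMult y c z : ℝ) - (mw_zeroMult y c' z : ℝ)) = 0 := by
          exact_mod_cast this
        rw [e, zero_mul]
  rw [← hsub]
  have e : (∑ᶠ z : mw_X N, if z = P then (0 : ℝ) else (mw_zeroMult y c z : ℝ) * mw_hD x P z)
      - (∑ᶠ z : mw_X N, if z = P then (0 : ℝ) else (mw_zeroMult y c' z : ℝ) * mw_hD x P z)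
      - (mw_ht c - mw_ht c')
      = ((∑ᶠ z : mw_X N, if z = P then (0 : ℝ) else (mw_zeroMult y c z : ℝ) * mw_hD x P z)
          - (mw_ht (mw_vec y P) + mw_ht c + ((0 : ℕ) : ℝ) * mw_hGauss N x P 0))
        - ((∑ᶠ z : mw_X N, if z = P then (0 : ℝ) else (mw_zeroMult y c' z : ℝ) * mw_hD x P z)
          - (mw_ht (mw_vec y P) + mw_ht c' + ((0 : ℕ) : ℝ) * mw_hGauss N x P 0)) := by
    ring
  rw [e]
  calc _ ≤ _ + _ := abs_sub _ _
    _ ≤ C + C := add_le_add h1 h2
    _ = 2 * C := by ring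

theorem mw_lei (N : ℕ) [NeZero N] (hGKL : mw_SeamGKL N) : mw_SeamLEI N := by
  intro r x hxref n
  have hx := rt_isSepGen_jBar N
  obtain ⟨-, -, Pinf, k, g, hPinf, hkg, hex, -⟩ := id hxref
  obtain ⟨a₀, hG⟩ := hGKL x hxref Pinf hPinf
  -- the degree `m = m(n)` and a basis of `L(m∞)`
  set m : ℕ := a₀ + n + k with hm
  have hdegm : Divisor.degree (Finsupp.single Pinf (m : ℤ) : mw_Div N) = m :=
    rt_degree_single hx Pinf _
  have hfin := hex (Finsupp.single Pinf (m : ℤ)) (by rw [hdegm]; omega)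
  rw [hdegm] at hfin
  obtain ⟨s, hs⟩ : ∃ s : ℕ, Module.finrank mw_K
      ↥(riemannRochSpace (Finsupp.single Pinf (m : ℤ) : mw_Div N)) = s + 1 :=
    ⟨Module.finrank mw_K ↥(riemannRochSpace (Finsupp.single Pinf (m : ℤ) : mw_Div N)) - 1,
      by omega⟩
  obtain ⟨y, hyli, hys⟩ := mw_lei_exists_frame _ s hs
  obtain ⟨C, hC⟩ := hG m (by omega) y ⟨hyli, hys⟩
  refine ⟨(n : ℝ) * (2 * max C 0), ?_⟩
  intro D E f hEf hdegD hnD hnE hdisj
  obtain ⟨hf0, hE⟩ := hEf
  have hCnn : 0 ≤ (n : ℝ) * (2 * max C 0) := by positivity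
  by_cases hD0 : D = 0
  · rw [hD0, mw_lei_B_eq]
    simpa using hCnn
  -- the auxiliary divisor `A = m∞ - E⁻`
  set A : mw_Div N := Finsupp.single Pinf (m : ℤ) - mw_lei_neg E with hA
  have hnegnn : (0 : mw_Div N) ≤ mw_lei_neg E := le_sup_right
  have hAle : A ≤ Finsupp.single Pinf (m : ℤ) := sub_le_self _ hnegnn
  have hdegA : (k : ℤ) - 1 ≤ Divisor.degree A := by
    have h1 := mw_lei_degree_neg_le E
    rw [hA, map_sub, hdegm]
    have h2 : (mw_norm E : ℤ) ≤ n := by exact_mod_cast hnE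
    omega
  -- `G'`
  obtain ⟨G', hG'A, hG'not⟩ := mw_lei_avoid (riemannRochSpace A)
    (fun P : {P // P ∈ D.support} => riemannRochSpace (A - Finsupp.single P.1 1))
    (fun P => mw_emb_exists_not_mem hex A P.1 hdegA)
  have hsupp : D.support.Nonempty := Finsupp.support_nonempty_iff.mpr hD0
  obtain ⟨P₀, hP₀⟩ := hsupp
  have hG'0 : G' ≠ 0 := (mw_emb_ord_of_not_mem hG'A (hG'not ⟨P₀, hP₀⟩)).1
  have hG'm : G' ∈ riemannRochSpace (Finsupp.single Pinf (m : ℤ) : mw_Div N) :=
    rt_L_mono hAle hG'A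
  have hGm : f * G' ∈ riemannRochSpace (Finsupp.single Pinf (m : ℤ) : mw_Div N) := by
    rw [rt_mem_L_iff (mul_ne_zero hf0 hG'0)]
    intro v
    have h1 := (rt_mem_L_iff hG'0).mp hG'A v
    rw [hA, Finsupp.sub_apply, mw_lei_neg_apply] at h1
    rw [v.ord_mul hf0 hG'0, ← hE v]
    have : 0 ≤ E v + max (-E v) 0 := by
      rcases le_total 0 (-E v) with h | h
      · rw [max_eq_left h]; omega
      · rw [max_eq_right h]; omega
    omega
  obtain ⟨c', hc'⟩ := mw_emb_sec_of_mem hys hG'm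
  obtain ⟨c, hc⟩ := mw_emb_sec_of_mem hys hGm
  -- the estimate at every point of `supp D`
  have hpt : ∀ P ∈ D.support, |mw_lei_T x E P - (mw_ht c - mw_ht c')| ≤ 2 * max C 0 := by
    intro P hP
    have hEP : E P = 0 := by
      by_contra h
      exact Finset.disjoint_left.mp hdisj hP (Finsupp.mem_support_iff.mpr h)
    have hord := (mw_emb_ord_of_not_mem hG'A (hG'not ⟨P, hP⟩)).2
    have h1 := mw_lei_point x hex Pinf m (by omega) y hyli hys C hC E f hf0 hE c c'
      (by rw [hc']; exact hG'0) (by rw [hc, hc']) P hEP (by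
        rw [hc', hord, hA, Finsupp.sub_apply, mw_lei_neg_apply, hEP]
        simp)
    exact h1.trans (by have := le_max_left C 0; linarith)
  -- summation
  rw [mw_lei_B_eq, abs_neg]
  have hdeg : ∑ P ∈ D.support, (D P : ℝ) = 0 := by
    have := rt_degree_eq_sum hx D D.support (Finset.Subset.refl _)
    rw [hdegD] at this
    exact_mod_cast this.symm
  have hsplit : ∑ P ∈ D.support, (D P : ℝ) * mw_lei_T x E P
      = ∑ P ∈ D.support, (D P : ℝ) * (mw_lei_T x E P - (mw_ht c - mw_ht c')) := by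
    have : ∑ P ∈ D.support, (D P : ℝ) * (mw_lei_T x E P - (mw_ht c - mw_ht c'))
        = ∑ P ∈ D.support, (D P : ℝ) * mw_lei_T x E P
          - (∑ P ∈ D.support, (D P : ℝ)) * (mw_ht c - mw_ht c') := by
      rw [Finset.sum_mul, ← Finset.sum_sub_distrib]
      exact Finset.sum_congr rfl fun P _ => by ring
    rw [this, hdeg, zero_mul, sub_zero]
  rw [hsplit]
  calc |∑ P ∈ D.support, (D P : ℝ) * (mw_lei_T x E P - (mw_ht c - mw_ht c'))|
      ≤ ∑ P ∈ D.support, |(D P : ℝ) * (mw_lei_T x E P - (mw_ht c - mw_ht c'))| :=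
        Finset.abs_sum_le_sum_abs _ _
    _ ≤ ∑ P ∈ D.support, ((D P).natAbs : ℝ) * (2 * max C 0) := by
        refine Finset.sum_le_sum fun P hP => ?_
        rw [abs_mul]
        have e : |(D P : ℝ)| = ((D P).natAbs : ℝ) := by
          rw [← Int.cast_abs, Nat.cast_natAbs]
        rw [e]
        exact mul_le_mul_of_nonneg_left (hpt P hP) (Nat.cast_nonneg _)
    _ = (mw_norm D : ℝ) * (2 * max C 0) := by
        rw [← Finset.sum_mul, mw_norm, Nat.cast_sum]
    _ ≤ (n : ℝ) * (2 * max C 0) := by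
        refine mul_le_mul_of_nonneg_right ?_ (by positivity)
        exact_mod_cast hnD

end Fermat.Agent.MW
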