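/-
Project MW (S17), GLOBAL leaf [NAIVELB] (helper28).  Prefix `mw_naivelb_`.

`theorem mw_naivelb (N) (hHDLB : mw_SeamHDLB N) : mw_SeamNAIVELB N` — the naive height of minimal
reduced representatives is bounded below: `deg E ≤ g` (from `l(E) = 1` and Riemann's inequality),
`∞ ∉ supp E`, and every `h_Δ(P, ∞) ≥ -C₀` by [HDLB].
-/
import Mathlib
import Fermat.Agent.MW.Global.Seams
import Fermat.Agent.JT3.Riemann.FBar

set_option autoImplicit false

noncomputable section

namespace Fermat.Agent.MW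

open AlgebraicCurve ModularCurve Fermat.Agent.JT3 Fermat.Agent.S24

variable (N : ℕ) [NeZero N]

/-- a divisor with `l(E) = 1` has degree at most the Riemann genus. -/
theorem mw_naivelb_degree_le :
    ∃ g : ℕ, ∀ E : mw_Div N, Module.finrank mw_K ↥(riemannRochSpace E) = 1 →
      Divisor.degree E ≤ g := by
  obtain ⟨g, hg⟩ := rt_riemann_ineq_fbar N
  refine ⟨g, fun E hE => ?_⟩
  have h := hg E
  rw [hE] at h
  push_cast at h
  linarith

/-- **[NAIVELB]** -/
theorem mw_naivelb (hHDLB : mw_SeamHDLB N) : mw_SeamNAIVELB N := by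
  intro r x hx Pinf _
  obtain ⟨C₀, hC₀⟩ := hHDLB x hx
  obtain ⟨g, hg⟩ := mw_naivelb_degree_le N
  refine ⟨max C₀ 0 * g, ?_⟩
  rintro a E ⟨hE0, hEinf, hl, -⟩
  have hsep := rt_isSepGen_jBar N
  have hdeg : Divisor.degree E ≤ g := hg E hl
  have hdegsum : Divisor.degree E = ∑ P ∈ E.support, E P :=
    rt_degree_eq_sum hsep E E.support (Finset.Subset.refl _)
  have hC : (0 : ℝ) ≤ max C₀ 0 := le_max_right _ _
  -- termwise bound
  have hterm : ∀ P ∈ E.support, -(max C₀ 0) * (E P : ℝ) ≤ (E P : ℝ) * mw_hD x P Pinf := by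
    intro P hP
    have hPne : P ≠ Pinf := by
      rintro rfl
      exact (Finsupp.mem_support_iff.1 hP) hEinf
    have h1 : -(max C₀ 0) ≤ mw_hD x P Pinf :=
      le_trans (neg_le_neg (le_max_left _ _)) (hC₀ P Pinf hPne)
    have h2 : (0 : ℝ) ≤ (E P : ℝ) := by exact_mod_cast Finsupp.le_def.1 hE0 P
    nlinarith
  have hsum : -(max C₀ 0) * ((∑ P ∈ E.support, E P : ℤ) : ℝ) ≤ mw_naive N x Pinf E := by
    rw [mw_naive, Finsupp.sum, Int.cast_sum, Finset.mul_sum]
    exact Finset.sum_le_sum hterm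
  rw [← hdegsum] at hsum
  have h3 : ((Divisor.degree E : ℤ) : ℝ) ≤ (g : ℝ) := by exact_mod_cast hdeg
  nlinarith

end Fermat.Agent.MW
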