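/-
Project MW (S17), leaf **[NCBD]** (helper10): NORTHCOTT'S THEOREM FOR ALGEBRAIC NUMBERS OF BOUNDED
DEGREE, `mw_ncbd : mw_SeamNCBD`.

Route (no Galois invariance of heights, no normal closures): for `α ∈ Q̄` of degree `≤ D` and
absolute logarithmic height `≤ B`, put `K = ℚ(α)` and `H = exp (max B 0 · D)`; then
`H_K(α) ≤ H`, so (Mathlib: `NumberField.exists_nat_le_mulHeight₁`) there is `1 ≤ n ≤ H` with
`β = n α` an algebraic integer; every complex conjugate of `α` is `≤ H_K(α)` in absolute value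
(`mw_ncbd_norm_le`), so the conjugates of `β` are `≤ H²` and the coefficients of its minimal
polynomial over `ℤ` are bounded in terms of `D` and `H` only
(`NumberField.Embeddings.coeff_bdd_of_norm_le`); finitely many integer polynomials of degree `≤ D`
with bounded coefficients have finitely many roots in `Q̄` (`Polynomial.bUnion_roots_finite`), and
`α = β / n`.
Prefix `mw_ncbd_`.
-/
import Mathlib
import Fermat.Agent.MW.Global.Seams4

set_option autoImplicit false
set_option linter.unusedSectionVars false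
set_option linter.unusedVariables false

noncomputable section

namespace Fermat.Agent.MW

open NumberField Height Polynomial

/-! ### inside one number field -/

section nf

variable {K : Type*} [Field K] [NumberField K]

/-- every complex conjugate of `x` is bounded by the multiplicative height of `x`. -/
theorem mw_ncbd_norm_le (x : K) (φ : K →+* ℂ) : ‖φ x‖ ≤ mulHeight₁ x := by
  classical
  rw [NumberField.mulHeight₁_eq]
  have h1 : (1 : ℝ) ≤ ∏ᶠ v : FinitePlace K, max (v x) 1 :=
    one_le_finprod fun _ => le_max_right _ _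
  have h0 : (0 : ℝ) ≤ ∏ v : InfinitePlace K, max (v x) 1 ^ v.mult :=
    Finset.prod_nonneg fun v _ => pow_nonneg (le_trans zero_le_one (le_max_right _ _)) _
  have h2 : ‖φ x‖ ≤ ∏ v : InfinitePlace K, max (v x) 1 ^ v.mult := by
    have hv : ‖φ x‖ = (InfinitePlace.mk φ) x := (InfinitePlace.apply φ x).symm
    calc ‖φ x‖ = (InfinitePlace.mk φ) x := hv
      _ ≤ max ((InfinitePlace.mk φ) x) 1 := le_max_left _ _
      _ ≤ max ((InfinitePlace.mk φ) x) 1 ^ (InfinitePlace.mk φ).mult :=
          le_self_pow₀ (le_max_right _ _) (InfinitePlace.mk φ).mult_ne_zero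
      _ = ∏ v : InfinitePlace K, if v = InfinitePlace.mk φ then
            max ((InfinitePlace.mk φ) x) 1 ^ (InfinitePlace.mk φ).mult else 1 := by
          rw [Finset.prod_ite_eq' Finset.univ (InfinitePlace.mk φ)]
          simp
      _ ≤ ∏ v : InfinitePlace K, max (v x) 1 ^ v.mult := by
          refine Finset.prod_le_prod (fun v _ => ?_) (fun v _ => ?_)
          · split_ifs
            · exact pow_nonneg (le_trans zero_le_one (le_max_right _ _)) _
            · exact zero_le_one
          · split_ifs with h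
            · rw [h]
            · exact one_le_pow₀ (le_max_right _ _)
  calc ‖φ x‖ ≤ ∏ v : InfinitePlace K, max (v x) 1 ^ v.mult := h2
    _ = (∏ v : InfinitePlace K, max (v x) 1 ^ v.mult) * 1 := (mul_one _).symm
    _ ≤ _ := mul_le_mul_of_nonneg_left h1 h0

/-- the bound on the coefficients -/
def mw_ncbd_C (D : ℕ) (H : ℝ) : ℕ := Nat.ceil (max (H * H) 1 ^ D * 2 ^ D)

/-- **the local statement**: an element of height `≤ H` of a number field of degree `≤ D` is `y / n`
with `1 ≤ n ≤ H` and `y` an algebraic integer whose minimal polynomial over `ℤ` has degree `≤ D` and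
coefficients bounded by `mw_ncbd_C D H`. -/
theorem mw_ncbd_exists (x : K) {D : ℕ} (hD : Module.finrank ℚ K ≤ D) {H : ℝ}
    (hH : mulHeight₁ x ≤ H) :
    ∃ n : ℕ, n ≠ 0 ∧ (n : ℝ) ≤ H ∧ IsIntegral ℤ ((n : K) * x) ∧
      (minpoly ℤ ((n : K) * x)).natDegree ≤ D ∧
      ∀ i, (minpoly ℤ ((n : K) * x)).coeff i ∈
        Set.Icc (-(mw_ncbd_C D H : ℤ)) (mw_ncbd_C D H : ℤ) := by
  obtain ⟨n, hn0, hnH, hint⟩ := exists_nat_le_mulHeight₁ x
  have hnH' : (n : ℝ) ≤ H := hnH.trans hH
  have hH0 : 0 ≤ H := le_trans (Nat.cast_nonneg n) hnH'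
  refine ⟨n, hn0, hnH', hint, ?_, fun i => ?_⟩
  · have h_map := minpoly.isIntegrallyClosed_eq_field_fractions' ℚ hint
    rw [← (minpoly.monic hint).natDegree_map (algebraMap ℤ ℚ), ← h_map]
    exact (minpoly.natDegree_le _).trans hD
  · have hφ : ∀ φ : K →+* ℂ, ‖φ ((n : K) * x)‖ ≤ H * H := by
      intro φ
      rw [map_mul, norm_mul, map_natCast, Complex.norm_natCast]
      exact mul_le_mul hnH' ((mw_ncbd_norm_le x φ).trans hH) (norm_nonneg _) hH0
    have hb := NumberField.Embeddings.coeff_bdd_of_norm_le (A := ℂ) hφ i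
    have h_map := minpoly.isIntegrallyClosed_eq_field_fractions' ℚ hint
    rw [Set.mem_Icc, ← abs_le, ← @Int.cast_le ℝ]
    have hle : max (H * H) 1 ^ Module.finrank ℚ K *
        ((Module.finrank ℚ K).choose (Module.finrank ℚ K / 2) : ℝ) ≤
        max (H * H) 1 ^ D * 2 ^ D := by
      have h1 : (1 : ℝ) ≤ max (H * H) 1 := le_max_right _ _
      have h2 : max (H * H) 1 ^ Module.finrank ℚ K ≤ max (H * H) 1 ^ D :=
        pow_le_pow_right₀ h1 hD
      have h3 : ((Module.finrank ℚ K).choose (Module.finrank ℚ K / 2) : ℝ) ≤ 2 ^ D := by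
        have h4 : (Module.finrank ℚ K).choose (Module.finrank ℚ K / 2) ≤
            2 ^ Module.finrank ℚ K := Nat.choose_le_two_pow _ _
        have h5 : (2 : ℕ) ^ Module.finrank ℚ K ≤ 2 ^ D := Nat.pow_le_pow_right (by norm_num) hD
        exact_mod_cast h4.trans h5
      exact mul_le_mul h2 h3 (Nat.cast_nonneg _) (le_trans zero_le_one (one_le_pow₀ h1))
    refine (Eq.trans_le ?_ (hb.trans hle)).trans (Nat.le_ceil _)
    rw [h_map, coeff_map, eq_intCast, Int.norm_cast_rat, Int.norm_eq_abs, Int.cast_abs]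

end nf

/-! ### the field `ℚ(α)` and the height `mw_ht ![1, α]` -/

section field

variable (α : mw_K)

/-- `α` as an element of the number field `mw_field ![1, α]`. -/
def mw_ncbd_gen : ↥(mw_field ![1, α]) :=
  ⟨α, IntermediateField.subset_adjoin ℚ _ ⟨1, rfl⟩⟩

theorem mw_ncbd_field_eq : mw_field ![1, α] = IntermediateField.adjoin ℚ {α} := by
  unfold mw_field
  apply le_antisymm
  · rw [IntermediateField.adjoin_le_iff]
    rintro _ ⟨i, rfl⟩
    fin_cases i
    · exact (IntermediateField.adjoin ℚ {α}).one_mem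
    · exact IntermediateField.mem_adjoin_simple_self ℚ α
  · rw [IntermediateField.adjoin_le_iff]
    rintro _ rfl
    exact IntermediateField.subset_adjoin ℚ _ ⟨1, rfl⟩

theorem mw_ncbd_finrank :
    Module.finrank ℚ ↥(mw_field ![1, α]) = (minpoly ℚ α).natDegree := by
  rw [mw_ncbd_field_eq]
  exact IntermediateField.adjoin.finrank
    ((AlgebraicClosure.isAlgebraic ℚ).isAlgebraic α).isIntegral

/-- the absolute height of `(1 : α)` is the normalised height of `α` in `ℚ(α)`. -/
theorem mw_ncbd_ht_eq :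
    mw_ht ![1, α] =
      logHeight₁ (mw_ncbd_gen α) / (Module.finrank ℚ ↥(mw_field ![1, α]) : ℝ) := by
  unfold mw_ht mw_htIn
  congr 1
  rw [logHeight₁_eq_logHeight, ← logHeight_swap]
  congr 1
  funext i
  fin_cases i
  · exact Subtype.ext rfl
  · exact Subtype.ext rfl

end field

/-! ### the theorem -/

/-- **[NCBD]** Northcott's theorem for algebraic numbers of bounded degree. -/
theorem mw_ncbd : mw_SeamNCBD := by
  classical
  intro D B
  set H : ℝ := Real.exp (max B 0 * D) with hHdef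
  set C : ℕ := mw_ncbd_C D H with hC
  have hfin := Polynomial.bUnion_roots_finite (algebraMap ℤ mw_K) D
    (Set.finite_Icc (-(C : ℤ)) (C : ℤ))
  have hfin2 := (hfin.prod (Finset.Icc 1 (Nat.floor H)).finite_toSet).image
    (fun p : mw_K × ℕ => p.1 / (p.2 : mw_K))
  refine hfin2.subset ?_
  rintro α ⟨hdeg, hht⟩
  -- the number field `K = ℚ(α)`
  have hfr : Module.finrank ℚ ↥(mw_field ![1, α]) ≤ D := by
    rw [mw_ncbd_finrank]
    exact hdeg
  have hfr0 : 0 < Module.finrank ℚ ↥(mw_field ![1, α]) := Module.finrank_pos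
  -- the height bound
  have hlog : logHeight₁ (mw_ncbd_gen α) ≤ max B 0 * D := by
    rw [mw_ncbd_ht_eq, div_le_iff₀ (by exact_mod_cast hfr0)] at hht
    refine hht.trans ?_
    have h1 : B ≤ max B 0 := le_max_left _ _
    have h2 : (0 : ℝ) ≤ max B 0 := le_max_right _ _
    have h3 : ((Module.finrank ℚ ↥(mw_field ![1, α]) : ℕ) : ℝ) ≤ D := by exact_mod_cast hfr
    calc B * (Module.finrank ℚ ↥(mw_field ![1, α]) : ℝ)
        ≤ max B 0 * (Module.finrank ℚ ↥(mw_field ![1, α]) : ℝ) :=
          mul_le_mul_of_nonneg_right h1 (Nat.cast_nonneg _)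
      _ ≤ max B 0 * D := mul_le_mul_of_nonneg_left h3 h2
  have hmul : mulHeight₁ (mw_ncbd_gen α) ≤ H := by
    rw [hHdef, ← Real.exp_log (mulHeight₁_pos (mw_ncbd_gen α))]
    exact Real.exp_le_exp.2 hlog
  obtain ⟨n, hn0, hnH, hint, hnd, hco⟩ := mw_ncbd_exists (mw_ncbd_gen α) hfr hmul
  -- `β = n α`
  refine ⟨((((n : ↥(mw_field ![1, α])) * mw_ncbd_gen α : ↥(mw_field ![1, α])) : mw_K), n), ?_, ?_⟩
  · refine Set.mem_prod.2 ⟨?_, ?_⟩
    · simp only [Set.mem_iUnion]
      refine ⟨minpoly ℤ ((n : ↥(mw_field ![1, α])) * mw_ncbd_gen α), ⟨hnd, hco⟩, ?_⟩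
      rw [Finset.mem_coe, Multiset.mem_toFinset]
      refine (Polynomial.mem_roots
        (Polynomial.map_ne_zero_iff (algebraMap ℤ mw_K).injective_int |>.2
          (minpoly.ne_zero hint))).2 ?_
      rw [Polynomial.IsRoot.def, Polynomial.eval_map, ← Polynomial.aeval_def]
      have h1 := minpoly.aeval ℤ ((n : ↥(mw_field ![1, α])) * mw_ncbd_gen α)
      have h2 := congrArg (algebraMap ↥(mw_field ![1, α]) mw_K) h1
      rw [← Polynomial.aeval_algebraMap_apply, map_zero] at h2
      exact h2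
    · rw [Finset.coe_Icc, Set.mem_Icc]
      exact ⟨Nat.one_le_iff_ne_zero.2 hn0, Nat.le_floor hnH⟩
  · show ((((n : ↥(mw_field ![1, α])) * mw_ncbd_gen α : ↥(mw_field ![1, α])) : mw_K)) /
      ((n : ℕ) : mw_K) = α
    have hn0' : ((n : ℕ) : mw_K) ≠ 0 := Nat.cast_ne_zero.2 hn0
    rw [div_eq_iff hn0']
    show ((n : ↥(mw_field ![1, α])) : mw_K) * α = α * (n : mw_K)
    rw [mul_comm]
    congr 1

end Fermat.Agent.MW
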