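/-
Project MW (S17), sub-leaf [NPTS] of [NORTH] (helper13; seam `mw_SeamNPTS` of
`MW/Global/Seams4.lean`).  Prefix `mw_npts_`.

`theorem mw_npts (N) (hNCBD : mw_SeamNCBD) : mw_SeamNPTS N` — finitely many points `P` of bounded
height `h_x(P) ≤ B` whose Galois orbit has at most `D` elements:
* `x` is rational, so `σ (f(P)) = f(σP)` for the ratios `f = x_a / x_b`; hence every coordinate of
  `v = mw_vec x P` has at most `D` conjugates, i.e. degree `≤ D` over `ℚ`;
* `h(1 : v_a) ≤ h(v) ≤ B` (sub-tuple of `v`, whose pivot coordinate is `1`), so each coordinate lies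
  in the finite set of [NCBD];
* `x` separates points (`mw_emb_sep`).
-/
import Mathlib
import Fermat.Agent.MW.Global.Seams4
import Fermat.Agent.MW.Ref
import Fermat.Agent.MW.Core.Val
import Fermat.Agent.MW.Core.EMB
import Fermat.Agent.MW.AbsHeight

set_option autoImplicit false
set_option linter.unusedSectionVars false

noncomputable section

namespace Fermat.Agent.MW

open AlgebraicCurve ModularCurve Fermat.Agent.JT3 Fermat.Agent.S24

/-! ### heights of sub-tuples -/

theorem mw_npts_ht_comp_le {ι ι' : Type} [Finite ι] [Finite ι'] (f : ι → ι') (v : ι' → mw_K) :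
    mw_ht (v ∘ f) ≤ mw_ht v := by
  set K' := mw_field v with hK'
  set vK : ι' → ↥K' :=
    fun i => (⟨v i, IntermediateField.subset_adjoin ℚ _ ⟨i, rfl⟩⟩ : ↥(mw_field v)) with hvK
  have h1 : mw_ht v = mw_htIn K' vK := rfl
  have h2 : mw_ht (v ∘ f) = mw_htIn K' (vK ∘ f) := (mw_ah_seamABS K' (vK ∘ f)).symm
  rw [h1, h2]
  unfold mw_htIn
  exact div_le_div_of_nonneg_right (Height.logHeight_comp_le f vK) (Nat.cast_nonneg _)

variable {N : ℕ} [NeZero N]

/-! ### the Galois action on values -/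

theorem mw_npts_smul_rat (σ : mw_K ≃ₐ[ℚ] mw_K) {f : mw_F N} (hf : mw_IsRat N f) :
    mw_ref_gal N σ • f = f := by
  obtain ⟨y, -, hy⟩ := hf
  apply Subtype.ext
  rw [mw_ref_coe_smul, ← hy]
  exact coeffMap_coeffEmb σ y

theorem mw_npts_smul_mem_nonunits (τ : SemilinearAut mw_K (mw_F N)) (P : mw_X N) {g : mw_F N}
    (hg : g ∈ P.toValuationSubring.nonunits) : τ • g ∈ (τ • P).toValuationSubring.nonunits := by
  by_cases h0 : g = 0
  · rw [h0, smul_zero]
    exact ((τ • P).toValuationSubring.nonunits).zero_mem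
  · have h0' : τ • g ≠ 0 := fun h => h0 ((smul_eq_zero_iff_eq τ).mp h)
    rw [mw_v_mem_nonunits_iff (τ • P) h0', SemilinearAut.ord_smul]
    exact (mw_v_mem_nonunits_iff P h0).mp hg

/-- `σ (f(P)) = f(σ P)` for a Galois-fixed `f` regular at `P`. -/
theorem mw_npts_val_smul (σ : mw_K ≃ₐ[ℚ] mw_K) (P : mw_X N) {f : mw_F N}
    (hfix : mw_ref_gal N σ • f = f) (hf : f ∈ P.toValuationSubring) :
    mw_val (mw_ref_gal N σ • P) f = σ (mw_val P f) := by
  apply mw_v_eq
  have h := mw_npts_smul_mem_nonunits (mw_ref_gal N σ) P (mw_v_spec P hf)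
  rwa [smul_sub, hfix, mw_ref_smul_const] at h

/-! ### [NPTS] -/

variable (N)

theorem mw_npts (hNCBD : mw_SeamNCBD) : mw_SeamNPTS N := by
  intro r x hx D B
  classical
  have hli : LinearIndependent mw_K x := hx.2.1
  have hx0 := mw_v_exists_ne_zero hli
  have hT := hNCBD D B
  set T : Set mw_K := {α : mw_K | (minpoly ℚ α).natDegree ≤ D ∧ mw_ht ![1, α] ≤ B} with hTdef
  have hV : (Set.pi Set.univ fun _ : Fin (r + 1) => T).Finite := Set.Finite.pi fun _ => hT
  have hinj : Set.InjOn (fun P : mw_X N => mw_vec x P)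
      ((fun P : mw_X N => mw_vec x P) ⁻¹' (Set.pi Set.univ fun _ : Fin (r + 1) => T)) := by
    intro P _ Q _ hPQ
    by_contra hne
    apply mw_emb_sep x hx P Q hne
    funext p
    simp only at hPQ
    simp only [mw_wedge, hPQ, Pi.zero_apply]
    ring
  refine (Set.Finite.preimage hinj hV).subset ?_
  rintro P ⟨⟨S, hScard, hS⟩, hht⟩
  rw [Set.mem_preimage, Set.mem_pi]
  intro a _
  set b := mw_piv x P with hb
  obtain ⟨hb0, hbmem⟩ := mw_v_piv_spec x hx0 P
  set f : mw_F N := x a / x b with hf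
  have hfmem : f ∈ P.toValuationSubring := hbmem a
  have hfix : ∀ σ : mw_K ≃ₐ[ℚ] mw_K, mw_ref_gal N σ • f = f := by
    intro σ
    rw [hf, smul_div₀', mw_npts_smul_rat σ (hx.1 a), mw_npts_smul_rat σ (hx.1 b)]
  refine ⟨?_, ?_⟩
  · -- degree `≤ D`
    show (minpoly ℚ (mw_val P f)).natDegree ≤ D
    obtain ⟨t, htinj, ht⟩ := mw_ref_exists_conj (mw_val P f)
    set W : Finset mw_K := S.image fun Q => mw_val Q f with hW
    have htW : ∀ j, t j ∈ W := by
      intro j
      obtain ⟨σ, hσ⟩ := ht j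
      rw [hW, Finset.mem_image]
      refine ⟨mw_ref_gal N σ • P, hS σ, ?_⟩
      rw [mw_npts_val_smul σ P (hfix σ) hfmem, hσ]
    have h1 : Fintype.card (Fin (minpoly ℚ (mw_val P f)).natDegree) ≤ Fintype.card ↥W :=
      Fintype.card_le_of_injective (fun j => (⟨t j, htW j⟩ : ↥W)) fun i j hij =>
        htinj (congrArg Subtype.val hij)
    rw [Fintype.card_fin, Fintype.card_coe] at h1
    exact h1.trans (Finset.card_image_le.trans hScard)
  · -- height
    show mw_ht ![1, mw_vec x P a] ≤ B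
    have e : (![1, mw_vec x P a] : Fin 2 → mw_K) = mw_vec x P ∘ ![b, a] := by
      funext i
      fin_cases i
      · simp [hb, mw_v_vec_piv x hx0 P]
      · simp
    rw [e]
    exact (mw_npts_ht_comp_le _ _).trans hht

end Fermat.Agent.MW
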