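/-
Project MW (S17), sub-leaf [NSTAB] of [NORTH] (helper13; seam `mw_SeamNSTAB` of
`MW/Global/Seams4.lean`).  Prefix `mw_nstab_`.

`theorem mw_nstab (N) : mw_SeamNSTAB N` — the minimal reduced representative `E` of a RATIONAL class
`a` is Galois-stable: for `τ = σ⁻¹` acting coefficientwise, `τ • E` is effective, of the same degree,
`τ • E - d∞ = τ • (E - d∞)` represents `τ • a = a` (`τ∞ = ∞`), so `τ • E ~ E`; since `l(E) = 1`
and `1 ∈ L(E)`, `E` is the only effective divisor of its class, hence `τ • E = E`.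
-/
import Mathlib
import Fermat.Agent.MW.Global.Seams4
import Fermat.Agent.MW.Ref
import Fermat.Agent.JT3.Riemann.FBar

set_option autoImplicit false
set_option linter.unusedSectionVars false

noncomputable section

namespace Fermat.Agent.MW

open AlgebraicCurve ModularCurve Fermat.Agent.JT3 Fermat.Agent.S24

section Div

universe u v
variable {K : Type u} {F : Type v} [Field K] [Field F] [Algebra K F]

theorem mw_nstab_mk_eq_mk_iff {D E : Divisor.degZero (K := K) (F := F)} :
    Pic0.mk D = Pic0.mk E ↔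
      (D : Divisor K F) - (E : Divisor K F) ∈ Divisor.principal (K := K) (F := F) := by
  rw [Pic0.mk, Pic0.mk, QuotientAddGroup.eq, AddSubgroup.mem_addSubgroupOf]
  rw [← neg_mem_iff]
  have : -((↑(-D + E) : Divisor K F)) = (D : Divisor K F) - (E : Divisor K F) := by
    push_cast
    abel
  rw [this]

variable [IsAlgClosed K] {x : F} (hx : rt_IsSepGen K x)

include hx in
/-- `l(D) = 1`: `D` is the only effective divisor in its class. -/
theorem mw_nstab_eq_of_l_one {D D' : Divisor K F} (hD : 0 ≤ D)
    (hD' : 0 ≤ D') (hpr : D' - D ∈ Divisor.principal (K := K) (F := F))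
    (hl : Module.finrank K ↥(riemannRochSpace D) = 1) : D' = D := by
  obtain ⟨f, hf0, hf⟩ := hpr
  have hfL : f ∈ riemannRochSpace D := by
    rw [rt_mem_L_iff hf0]
    intro v
    have h1 := hf v
    rw [Finsupp.sub_apply] at h1
    have h2 := hD' v
    rw [Finsupp.zero_apply] at h2
    omega
  have h1L : (1 : F) ∈ riemannRochSpace D := by
    have := rt_algebraMap_mem_L (K := K) hD (1 : K)
    rwa [map_one] at this
  have hfinL := rt_L_finite hx D
  obtain ⟨c, hc⟩ := (finrank_eq_one_iff_of_nonzero' (⟨1, h1L⟩ : ↥(riemannRochSpace D))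
    (by intro h; exact one_ne_zero (congrArg Subtype.val h))).mp hl ⟨f, hfL⟩
  have hfc : f = algebraMap K F c := by
    have := congrArg Subtype.val hc
    simp only [SetLike.val_smul] at this
    rw [← this, Algebra.smul_def, mul_one]
  ext v
  have h1 := hf v
  rw [hfc, hw_ord_algebraMap, Finsupp.sub_apply] at h1
  omega

end Div

variable (N : ℕ) [NeZero N]

/-- **[NSTAB]** the minimal representative of a rational class is Galois-stable. -/
theorem mw_nstab : mw_SeamNSTAB N := by
  intro Pinf hPinf a ha E hmin σ P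
  obtain ⟨hE, hEinf, hlE, hmem, hcl⟩ := hmin
  have hsg := rt_isSepGen_jBar N
  set τ : SemilinearAut mw_K (mw_F N) := arithmeticGalois (modularFunctionFieldFull N) σ with hτ
  set d : ℤ := Divisor.degree E with hd
  -- `E' := τ⁻¹ • E`, `E'(P) = E(τ • P)`
  set E' : mw_Div N := τ⁻¹ • E with hE'
  have hE'app : ∀ Q : mw_X N, E' Q = E (τ • Q) := by
    intro Q
    rw [hE', SemilinearAut.divisor_smul_apply, inv_inv]
  have hE'0 : 0 ≤ E' := by
    intro Q
    rw [hE'app, Finsupp.zero_apply]
    exact hE (τ • Q)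
  have hdeg' : Divisor.degree E' = d := SemilinearAut.degree_smul τ⁻¹ E
  -- `τ⁻¹` fixes `∞`
  have hτinv : τ⁻¹ = mw_ref_gal N σ⁻¹ := by
    rw [hτ]
    exact (map_inv (arithmeticGalois (modularFunctionFieldFull N)) σ).symm
  have hinf : τ⁻¹ • Pinf = Pinf := by
    rw [hτinv]
    exact mw_ref_smul_inf N σ⁻¹ Pinf hPinf
  -- the class
  have hfix : σ⁻¹ • a = a := (mw_mem_Gamma.mp ha) σ⁻¹
  have hfix' : τ⁻¹ • a = a := by
    rw [hτinv]
    exact hfix
  rw [← hcl, SemilinearAut.pic0_smul_mk, mw_nstab_mk_eq_mk_iff,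
    SemilinearAut.coe_degZeroSMulHom] at hfix'
  have hpr : E' - E ∈ Divisor.principal (K := mw_K) (F := mw_F N) := by
    have e : τ⁻¹ • ((⟨E - Finsupp.single Pinf (Divisor.degree E), hmem⟩ :
          Divisor.degZero (K := mw_K) (F := mw_F N)) : mw_Div N)
        - ((⟨E - Finsupp.single Pinf (Divisor.degree E), hmem⟩ :
          Divisor.degZero (K := mw_K) (F := mw_F N)) : mw_Div N) = E' - E := by
      show τ⁻¹ • (E - Finsupp.single Pinf (Divisor.degree E))
        - (E - Finsupp.single Pinf (Divisor.degree E)) = E' - E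
      rw [smul_sub, SemilinearAut.smul_single, hinf]
      abel
    rwa [e] at hfix'
  have := mw_nstab_eq_of_l_one hsg hE hE'0 hpr hlE
  rw [← hE'app, this]

end Fermat.Agent.MW
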