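/-
Project MW (S17): THE ASSEMBLY OF `[NORTH]` (architect helper7):
`NSTAB + NPTS + HX + HDLB ⟹ mw_SeamNORTH N`.

For a rational class `a` with minimal representative `E` (`deg E ≤ g`, Galois-stable by [NSTAB]):
every `P ∈ supp E` has a Galois orbit inside `supp E` (`≤ g` points), and
`naive(E) ≤ B`, `h_Δ ≥ -C₀` give `h_Δ(P,∞) ≤ |B| + g|C₀|`, hence `h_x(P) ≤ B'` by [HX]; by [NPTS] such
`P` form a finite set `PP`; `E` is supported in `PP` with multiplicities `≤ g`, and `a` is determined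
by `E`.  Prefix `mw_north_`.
-/
import Fermat.Agent.MW.Global.Seams4
import Fermat.Agent.JT3.Riemann.FBar

set_option autoImplicit false
set_option linter.unusedSectionVars false

noncomputable section

namespace Fermat.Agent.MW

open AlgebraicCurve ModularCurve Fermat.Agent.JT3
open scoped Classical

variable {N : ℕ} [NeZero N]

/-- finitely many divisors with support in a finite set and bounded nonnegative multiplicities -/
theorem mw_north_finite_div (PP : Finset (mw_X N)) (g : ℕ) :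
    {E : mw_Div N | E.support ⊆ PP ∧ ∀ P, 0 ≤ E P ∧ E P ≤ (g : ℤ)}.Finite := by
  let Φ : (↥PP → Fin (g + 1)) → mw_Div N := fun f =>
    Finsupp.onFinset PP (fun P => if h : P ∈ PP then ((f ⟨P, h⟩ : ℕ) : ℤ) else 0)
      (fun P hP => by
        by_contra h
        exact hP (dif_neg h))
  refine (Set.finite_range Φ).subset ?_
  rintro E ⟨hsupp, hE⟩
  refine ⟨fun P => ⟨(E P.1).toNat, ?_⟩, ?_⟩
  · have := hE P.1
    omega
  · ext P
    show (if h : P ∈ PP then (((E P).toNat : ℕ) : ℤ) else 0) = E P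
    by_cases h : P ∈ PP
    · rw [dif_pos h, Int.toNat_of_nonneg (hE P).1]
    · rw [dif_neg h]
      have : P ∉ E.support := fun h' => h (hsupp h')
      exact (Finsupp.notMem_support_iff.mp this).symm

variable (N)

/-- **[NORTH] from its seams.** -/
theorem mw_north (hSTAB : mw_SeamNSTAB N) (hPTS : mw_SeamNPTS N) (hHX : mw_SeamHX N)
    (hHDLB : mw_SeamHDLB N) : mw_SeamNORTH N := by
  intro r x hx Pinf hPinf B
  have hsg := rt_isSepGen_jBar N
  obtain ⟨g, hg⟩ := rt_riemann_ineq_fbar N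
  obtain ⟨C₀, hC₀⟩ := hHDLB x hx
  obtain ⟨k', C', hC'⟩ := hHX x hx Pinf hPinf
  set B₁ : ℝ := |B| + (g : ℝ) * |C₀| with hB₁
  have hB₁0 : 0 ≤ B₁ := by positivity
  set B' : ℝ := (k' : ℝ) * B₁ + C' with hB'
  have hPPfin := hPTS x hx g B'
  set PP : Finset (mw_X N) := hPPfin.toFinset with hPP
  -- the class map
  let Ψ : mw_Div N → JZero N := fun E =>
    if h : E - Finsupp.single Pinf (Divisor.degree E) ∈
        Divisor.degZero (K := mw_K) (F := mw_F N) then mw_cl ⟨_, h⟩ else 0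
  refine ((mw_north_finite_div PP g).image Ψ).subset ?_
  rintro a ⟨haΓ, E, hmin, hnaive⟩
  obtain ⟨hE, hEinf, hlE, hmem, hcl⟩ := hmin
  refine ⟨E, ?_, ?_⟩
  swap
  · show (if h : E - Finsupp.single Pinf (Divisor.degree E) ∈
        Divisor.degZero (K := mw_K) (F := mw_F N) then mw_cl ⟨_, h⟩ else 0) = a
    rw [dif_pos hmem, hcl]
  -- `deg E ≤ g`
  have hdeg : Divisor.degree E ≤ (g : ℤ) := by
    have := hg E
    rw [hlE] at this
    push_cast at this
    omega
  have hdegsum := rt_degree_eq_sum hsg E E.support (Finset.Subset.refl _)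
  have hEle : ∀ P, E P ≤ (g : ℤ) := by
    intro P
    by_cases hP : P ∈ E.support
    · have : E P ≤ ∑ v ∈ E.support, E v :=
        Finset.single_le_sum (f := fun v => E v) (fun v _ => hE v) hP
      exact this.trans (hdegsum ▸ hdeg)
    · rw [Finsupp.notMem_support_iff.mp hP]
      exact Int.natCast_nonneg g
  have hcard : E.support.card ≤ g := by
    have h1 : ∀ P ∈ E.support, (1 : ℤ) ≤ E P := fun P hP => by
      have h1 : 0 ≤ E P := hE P
      have h2 : E P ≠ 0 := Finsupp.mem_support_iff.mp hP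
      omega
    have h2 : (E.support.card : ℤ) ≤ ∑ P ∈ E.support, E P := by
      calc (E.support.card : ℤ) = ∑ _P ∈ E.support, (1 : ℤ) := by simp
        _ ≤ ∑ P ∈ E.support, E P := Finset.sum_le_sum h1
    have h3 : (E.support.card : ℤ) ≤ (g : ℤ) := h2.trans (hdegsum ▸ hdeg)
    exact_mod_cast h3
  refine ⟨?_, fun P => ⟨hE P, hEle P⟩⟩
  -- the points of `E` lie in `PP`
  intro P hP
  rw [hPP, Set.Finite.mem_toFinset]
  refine ⟨⟨E.support, hcard, fun σ => ?_⟩, ?_⟩
  · rw [Finsupp.mem_support_iff, hSTAB Pinf hPinf a haΓ E ⟨hE, hEinf, hlE, hmem, hcl⟩ σ P]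
    exact Finsupp.mem_support_iff.mp hP
  · have hPinf' : P ≠ Pinf := by
      rintro rfl
      exact (Finsupp.mem_support_iff.mp hP) hEinf
    -- `E(P)·h₁(P) ≤ B₁`
    have hne : ∀ Q ∈ E.support, Q ≠ Pinf := by
      rintro Q hQ rfl
      exact (Finsupp.mem_support_iff.mp hQ) hEinf
    have hterm : ∀ Q ∈ E.support, -((E Q : ℝ) * |C₀|) ≤ (E Q : ℝ) * mw_hD x Q Pinf := by
      intro Q hQ
      have h1 := hC₀ Q Pinf (hne Q hQ)
      have h2 : (0 : ℝ) ≤ (E Q : ℝ) := by exact_mod_cast hE Q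
      have h3 := neg_abs_le C₀
      have h4 : -|C₀| ≤ mw_hD x Q Pinf := by
        have := neg_le_neg (le_abs_self C₀)
        linarith
      nlinarith
    have hsumE : (∑ Q ∈ E.support, (E Q : ℝ)) ≤ (g : ℝ) := by
      have h2 : ((∑ v ∈ E.support, E v : ℤ) : ℝ) ≤ ((g : ℤ) : ℝ) := by
        exact_mod_cast (hdegsum ▸ hdeg)
      push_cast at h2
      exact h2
    have hsplit : mw_naive N x Pinf E = (E P : ℝ) * mw_hD x P Pinf
        + ∑ Q ∈ E.support.erase P, (E Q : ℝ) * mw_hD x Q Pinf := by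
      unfold mw_naive
      rw [Finsupp.sum, ← Finset.add_sum_erase _ _ hP]
    have hrest : -(∑ Q ∈ E.support.erase P, (E Q : ℝ) * |C₀|)
        ≤ ∑ Q ∈ E.support.erase P, (E Q : ℝ) * mw_hD x Q Pinf := by
      rw [← Finset.sum_neg_distrib]
      exact Finset.sum_le_sum fun Q hQ => hterm Q (Finset.mem_of_mem_erase hQ)
    have hrest2 : (∑ Q ∈ E.support.erase P, (E Q : ℝ) * |C₀|) ≤ (g : ℝ) * |C₀| := by
      rw [← Finset.sum_mul]
      refine mul_le_mul_of_nonneg_right ?_ (abs_nonneg _)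
      refine le_trans ?_ hsumE
      exact Finset.sum_le_sum_of_subset_of_nonneg (Finset.erase_subset _ _)
        (fun Q _ _ => by exact_mod_cast hE Q)
    have hEP1 : (1 : ℝ) ≤ (E P : ℝ) := by
      have h1 : 0 ≤ E P := hE P
      have h2 : E P ≠ 0 := Finsupp.mem_support_iff.mp hP
      have : (1 : ℤ) ≤ E P := by omega
      exact_mod_cast this
    have hprod : (E P : ℝ) * mw_hD x P Pinf ≤ B₁ := by
      have := le_abs_self B
      rw [hB₁]
      linarith
    have hh1 : mw_hD x P Pinf ≤ B₁ := by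
      by_cases hneg : mw_hD x P Pinf ≤ 0
      · linarith
      · push Not at hneg
        nlinarith
    have := hC' P hPinf'
    have hk : (0 : ℝ) ≤ (k' : ℝ) := Nat.cast_nonneg _
    show mw_ht (mw_vec x P) ≤ B'
    rw [hB']
    nlinarith

end Fermat.Agent.MW
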