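/-
Project MW (S17): THE ASSEMBLY OF `[POS1]` (architect helper7):
`RRK + SPEC + TWO + BASE + CPL + EXP + VDMC + HG + HY + AMPLE ⟹ mw_SeamPOS1 N`.

For the minimal representative `E` (degree `d ≤ g`) of the class `a`:
`β(a,a) ≥ 2d·naive(E) + ∑ E(P)² h_𝔊(P) - ∑_{P≠Q} E(P)E(Q) h_Δ(P,Q) - C` ([EXP]); [VDMC] for the complete
system `y = L(a'∞)` and `𝔅 = 𝔅₀ + A` (`𝔅₀ ~ a'∞ - 𝔇₁` one of `g + 1` pairwise disjoint effective
divisors, `A` from [SPEC]: `a'∞ - 𝔅 ~ 𝔇₁ - A` is a special system of dimension `d` on which `E`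
imposes independent conditions) removes the off-diagonal terms:
`β(a,a) ≥ ∑_P E(P)·[2d·h₁ + h_𝔊 + 2h_𝔅 - 2h_y](P) - C`; then [HY] (`h_y = a'·h₁ + O(1)`), [HG]
(`h_𝔊 ≥ h_{𝔇ᵢ} - C`, `i = 1, 2` according to `P ∉ supp 𝔇ᵢ`, [TWO]) and [AMPLE] for the divisor
`𝔇ᵢ + 2𝔅 + (2d - 2a' - 1)∞` of degree `1` give `[…](P) ≥ h₁(P) - C`.  Prefix `mw_pos1_`.
-/
import Fermat.Agent.MW.Global.Seams3
import Fermat.Agent.JT3.Riemann.FBar

set_option autoImplicit false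
set_option linter.unusedSectionVars false

noncomputable section

namespace Fermat.Agent.MW

open AlgebraicCurve ModularCurve Fermat.Agent.JT3
open scoped Classical

variable {N : ℕ} [NeZero N]

/-! ### the Weil machine is additive -/

theorem mw_pos1_hDiv_add {r : ℕ} (x : Fin (r + 1) → mw_F N) (D D' : mw_Div N) (P : mw_X N) :
    mw_hDiv N x (D + D') P = mw_hDiv N x D P + mw_hDiv N x D' P := by
  unfold mw_hDiv
  exact Finsupp.sum_add_index' (fun z => by simp) (fun z m n => by push_cast; ring)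

theorem mw_pos1_hDiv_single {r : ℕ} (x : Fin (r + 1) → mw_F N) (z : mw_X N) (n : ℤ)
    (P : mw_X N) : mw_hDiv N x (Finsupp.single z n) P = (n : ℝ) * mw_hD x P z := by
  unfold mw_hDiv
  rw [Finsupp.sum_single_index]
  simp

/-! ### a uniform constant for a finite family -/

theorem mw_pos1_uniform {ι : Type*} (s : Finset ι) (p : ι → ℝ → Prop)
    (hmono : ∀ i C C', C ≤ C' → p i C → p i C') (h : ∀ i ∈ s, ∃ C, p i C) :
    ∃ C, ∀ i ∈ s, p i C := by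
  choose! f hf using h
  refine ⟨∑ i ∈ s, |f i|, fun i hi => hmono i (f i) _ ?_ (hf i hi)⟩
  exact (le_abs_self _).trans
    (Finset.single_le_sum (f := fun i => |f i|) (fun _ _ => abs_nonneg _) hi)

/-! ### one configuration `(d, 𝔅)` -/

theorem mw_pos1_config {r : ℕ} (x : Fin (r + 1) → mw_F N) (Pinf : mw_X N)
    (β : JZero N → JZero N → ℝ) (g : ℕ) (Ce : ℝ)
    (hCe : ∀ (a : JZero N) (E : mw_Div N) (π : mw_X N → mw_F N), mw_IsMinRep N Pinf a E →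
      Divisor.degree E ≤ (g : ℤ) → (∀ P ∈ E.support, P.ord (π P) = 1) →
      2 * (Divisor.degree E : ℝ) * mw_naive N x Pinf E
        + (E.sum fun P n => (n : ℝ) ^ 2 * mw_hGauss N x P (π P))
        - (E.sum fun P n => E.sum fun Q m =>
            if P = Q then (0 : ℝ) else (n : ℝ) * (m : ℝ) * mw_hD x P Q) - Ce ≤ β a a)
    (𝔇₁ 𝔇₂ : mw_Div N) (hdis : ∀ z : mw_X N, z ≠ Pinf → 𝔇₁ z = 0 ∨ 𝔇₂ z = 0)
    (C1 C2 : ℝ)
    (hC1 : ∀ (P : mw_X N) (π : mw_F N), P ∉ 𝔇₁.support → P ≠ Pinf → P.ord π = 1 →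
      mw_hDiv N x 𝔇₁ P - C1 ≤ mw_hGauss N x P π)
    (hC2 : ∀ (P : mw_X N) (π : mw_F N), P ∉ 𝔇₂.support → P ≠ Pinf → P.ord π = 1 →
      mw_hDiv N x 𝔇₂ P - C2 ≤ mw_hGauss N x P π)
    (a' : ℕ) {s : ℕ} (y : Fin (s + 1) → mw_F N) (Cy : ℝ)
    (hCy : ∀ P : mw_X N, P ≠ Pinf → |mw_ht (mw_vec y P) - (a' : ℝ) * mw_hD x P Pinf| ≤ Cy)
    (d : ℕ) (hd : d ≤ g) (𝔅 : mw_Div N) (Cv : ℝ)
    (hCv : ∀ (E : mw_Div N) (π : mw_X N → mw_F N), 0 ≤ E → E Pinf = 0 →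
      Disjoint E.support 𝔅.support →
      Divisor.degree E = (mw_l N (Finsupp.single Pinf (a' : ℤ) - 𝔅) : ℤ) →
      mw_l N (Finsupp.single Pinf (a' : ℤ) - 𝔅 - E) = 0 →
      (∀ P ∈ E.support, 2 ≤ E P → P.ord (π P) = 1) →
      (E.sum fun P n => E.sum fun Q m =>
          if P = Q then (0 : ℝ) else (n : ℝ) * (m : ℝ) / 2 * mw_hD x P Q)
        + (E.sum fun P n => (n : ℝ) * mw_hDiv N x 𝔅 P)
        ≤ (E.sum fun P n => (n : ℝ) * mw_ht (mw_vec y P))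
          + (E.sum fun P n => (n : ℝ) * ((n : ℝ) - 1) / 2 * mw_hGauss N x P (π P)) + Cv)
    (Ca1 Ca2 : ℝ)
    (hCa1 : ∀ P : mw_X N,
      P ∉ (𝔇₁ + 𝔅 + 𝔅 + Finsupp.single Pinf (2 * (d : ℤ) - 2 * a' - 1)).support →
      -Ca1 ≤ mw_hDiv N x (𝔇₁ + 𝔅 + 𝔅 + Finsupp.single Pinf (2 * (d : ℤ) - 2 * a' - 1)) P)
    (hCa2 : ∀ P : mw_X N,
      P ∉ (𝔇₂ + 𝔅 + 𝔅 + Finsupp.single Pinf (2 * (d : ℤ) - 2 * a' - 1)).support →
      -Ca2 ≤ mw_hDiv N x (𝔇₂ + 𝔅 + 𝔅 + Finsupp.single Pinf (2 * (d : ℤ) - 2 * a' - 1)) P) :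
    ∃ C : ℝ, ∀ (a : JZero N) (E : mw_Div N), mw_IsMinRep N Pinf a E →
      Divisor.degree E = (d : ℤ) → Disjoint E.support 𝔅.support →
      Divisor.degree E = (mw_l N (Finsupp.single Pinf (a' : ℤ) - 𝔅) : ℤ) →
      mw_l N (Finsupp.single Pinf (a' : ℤ) - 𝔅 - E) = 0 →
      mw_naive N x Pinf E - C ≤ β a a := by
  have hsg := rt_isSepGen_jBar N
  set K : ℝ := |C1| + |C2| + |Ca1| + |Ca2| + 2 * |Cy| with hK
  have hK0 : 0 ≤ K := by positivity
  refine ⟨(g : ℝ) * K + 2 * Cv + Ce, fun a E hmin hdeg hdisj hl1 hl2 => ?_⟩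
  choose π hπ0 hπ using fun P : mw_X N => rt_exists_ord_eq_one (K := mw_K) P
  have hE : 0 ≤ E := hmin.1
  have hEinf : E Pinf = 0 := hmin.2.1
  have exp := hCe a E π hmin (by rw [hdeg]; exact_mod_cast hd) (fun P _ => hπ P)
  have vd := hCv E π hE hEinf hdisj hl1 hl2 (fun P _ _ => hπ P)
  -- the points of `E`
  have hpt : ∀ P ∈ E.support,
      mw_hD x P Pinf - K ≤ 2 * (d : ℝ) * mw_hD x P Pinf + mw_hGauss N x P (π P)
        + 2 * mw_hDiv N x 𝔅 P - 2 * mw_ht (mw_vec y P) := by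
    intro P hP
    have hPinf' : P ≠ Pinf := by
      rintro rfl
      exact (Finsupp.mem_support_iff.mp hP) hEinf
    have hPB : 𝔅 P = 0 := by
      by_contra h
      exact (Finset.disjoint_left.mp hdisj hP) (Finsupp.mem_support_iff.mpr h)
    have hy := (abs_le.mp (hCy P hPinf')).2
    have hm : (((2 * (d : ℤ) - 2 * a' - 1 : ℤ)) : ℝ) = 2 * (d : ℝ) - 2 * a' - 1 := by
      push_cast; ring
    have hsup : ∀ 𝔇 : mw_Div N, 𝔇 P = 0 →
        P ∉ (𝔇 + 𝔅 + 𝔅 + Finsupp.single Pinf (2 * (d : ℤ) - 2 * a' - 1)).support := by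
      intro 𝔇 h
      rw [Finsupp.notMem_support_iff, Finsupp.add_apply, Finsupp.add_apply, Finsupp.add_apply, h,
        hPB, Finsupp.single_apply, if_neg (Ne.symm hPinf')]
      simp
    have hexp : ∀ 𝔇 : mw_Div N,
        mw_hDiv N x (𝔇 + 𝔅 + 𝔅 + Finsupp.single Pinf (2 * (d : ℤ) - 2 * a' - 1)) P
          = mw_hDiv N x 𝔇 P + 2 * mw_hDiv N x 𝔅 P
            + (2 * (d : ℝ) - 2 * a' - 1) * mw_hD x P Pinf := by
      intro 𝔇
      rw [mw_pos1_hDiv_add, mw_pos1_hDiv_add, mw_pos1_hDiv_add, mw_pos1_hDiv_single, hm]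
      ring
    have k1 := le_abs_self C1
    have k2 := le_abs_self C2
    have k3 := le_abs_self Ca1
    have k4 := le_abs_self Ca2
    have k5 := le_abs_self Cy
    have k1' := abs_nonneg C1
    have k2' := abs_nonneg C2
    have k3' := abs_nonneg Ca1
    have k4' := abs_nonneg Ca2
    rcases hdis P hPinf' with h | h
    · have hg := hC1 P (π P) (Finsupp.notMem_support_iff.mpr h) hPinf' (hπ P)
      have ham := hCa1 P (hsup 𝔇₁ h)
      rw [hexp 𝔇₁] at ham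
      rw [hK]
      nlinarith
    · have hg := hC2 P (π P) (Finsupp.notMem_support_iff.mpr h) hPinf' (hπ P)
      have ham := hCa2 P (hsup 𝔇₂ h)
      rw [hexp 𝔇₂] at ham
      rw [hK]
      nlinarith
  -- bookkeeping
  have hn0 : ∀ P, (0 : ℝ) ≤ (E P : ℝ) := fun P => by exact_mod_cast hE P
  have hsumE : (∑ P ∈ E.support, (E P : ℝ)) = (d : ℝ) := by
    have := rt_degree_eq_sum hsg E E.support (Finset.Subset.refl _)
    rw [hdeg] at this
    have h2 : ((d : ℤ) : ℝ) = ((∑ v ∈ E.support, E v : ℤ) : ℝ) := by rw [this]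
    push_cast at h2
    rw [← h2]
  have hw := Finset.sum_le_sum fun P hP => mul_le_mul_of_nonneg_left (hpt P hP) (hn0 P)
  have e1 : (∑ P ∈ E.support, (E P : ℝ) * (mw_hD x P Pinf - K))
      = mw_naive N x Pinf E - (d : ℝ) * K := by
    rw [← hsumE, Finset.sum_mul]
    unfold mw_naive
    rw [Finsupp.sum, ← Finset.sum_sub_distrib]
    refine Finset.sum_congr rfl fun P _ => ?_
    ring
  have e2 : (∑ P ∈ E.support, (E P : ℝ) * (2 * (d : ℝ) * mw_hD x P Pinf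
        + mw_hGauss N x P (π P) + 2 * mw_hDiv N x 𝔅 P - 2 * mw_ht (mw_vec y P)))
      = 2 * (d : ℝ) * mw_naive N x Pinf E
        + (E.sum fun P n => (n : ℝ) ^ 2 * mw_hGauss N x P (π P))
        - 2 * (E.sum fun P n => (n : ℝ) * ((n : ℝ) - 1) / 2 * mw_hGauss N x P (π P))
        + 2 * (E.sum fun P n => (n : ℝ) * mw_hDiv N x 𝔅 P)
        - 2 * (E.sum fun P n => (n : ℝ) * mw_ht (mw_vec y P)) := by
    unfold mw_naive
    simp only [Finsupp.sum, Finset.mul_sum]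
    rw [← Finset.sum_add_distrib, ← Finset.sum_sub_distrib, ← Finset.sum_add_distrib,
      ← Finset.sum_sub_distrib]
    refine Finset.sum_congr rfl fun P _ => ?_
    ring
  have e3 : (E.sum fun P n => E.sum fun Q m =>
        if P = Q then (0 : ℝ) else (n : ℝ) * (m : ℝ) / 2 * mw_hD x P Q)
      = (E.sum fun P n => E.sum fun Q m =>
        if P = Q then (0 : ℝ) else (n : ℝ) * (m : ℝ) * mw_hD x P Q) / 2 := by
    simp only [Finsupp.sum, Finset.sum_div]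
    refine Finset.sum_congr rfl fun P _ => Finset.sum_congr rfl fun Q _ => ?_
    split_ifs
    · simp
    · ring
  rw [e1, e2] at hw
  rw [e3] at vd
  rw [hdeg] at exp
  have hdK : (d : ℝ) * K ≤ (g : ℝ) * K :=
    mul_le_mul_of_nonneg_right (by exact_mod_cast hd) hK0
  have hcast : (((d : ℤ)) : ℝ) = (d : ℝ) := by norm_cast
  rw [hcast] at exp
  linarith

/-! ### small facts -/

theorem mw_pos1_degree_canon (g : ℕ) (𝔇 : mw_Div N) (h : mw_IsCanon N g 𝔇) :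
    Divisor.degree 𝔇 = 2 * (g : ℤ) - 2 := by
  have h0 := h 0
  have h1 := h 𝔇
  rw [sub_zero, map_zero] at h0
  rw [sub_self] at h1
  omega

theorem mw_pos1_degree_le (g : ℕ) (𝔇 : mw_Div N) (h : mw_IsCanon N g 𝔇) (E : mw_Div N)
    (hE : mw_l N E = 1) : Divisor.degree E ≤ (g : ℤ) := by
  have h1 := h E
  rw [hE] at h1
  have : (0 : ℤ) ≤ (mw_l N (𝔇 - E) : ℤ) := Int.natCast_nonneg _
  push_cast at h1
  omega

theorem mw_pos1_card_le (E : mw_Div N) (hE : 0 ≤ E) :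
    (E.support.card : ℤ) ≤ Divisor.degree E := by
  have hsg := rt_isSepGen_jBar N
  rw [rt_degree_eq_sum hsg E E.support (Finset.Subset.refl _)]
  have : ∀ P ∈ E.support, (1 : ℤ) ≤ E P := fun P hP => by
    have h1 : 0 ≤ E P := hE P
    have h2 : E P ≠ 0 := Finsupp.mem_support_iff.mp hP
    omega
  calc (E.support.card : ℤ) = ∑ _P ∈ E.support, (1 : ℤ) := by simp
    _ ≤ ∑ P ∈ E.support, E P := Finset.sum_le_sum this

/-- pigeonhole: one of `n + 1` pairwise disjoint supports misses a set of `≤ n` points -/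
theorem mw_pos1_pigeon {n : ℕ} (𝔅 : Fin (n + 1) → mw_Div N)
    (hdis : ∀ i j, i ≠ j → Disjoint (𝔅 i).support (𝔅 j).support)
    (S : Finset (mw_X N)) (hS : S.card ≤ n) : ∃ j, Disjoint S (𝔅 j).support := by
  by_contra hcon
  push Not at hcon
  have hex : ∀ j, ∃ P, P ∈ S ∧ P ∈ (𝔅 j).support := fun j => by
    have := hcon j
    rw [Finset.not_disjoint_iff] at this
    exact this
  choose f hfS hfB using hex
  have hinj : Function.Injective f := by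
    intro i j hij
    by_contra hne
    exact (Finset.disjoint_left.mp (hdis i j hne) (hfB i)) (hij ▸ hfB j)
  have := Finset.card_le_card_of_injOn f (s := Finset.univ) (t := S)
    (fun j _ => hfS j) hinj.injOn
  rw [Finset.card_univ, Fintype.card_fin] at this
  omega

theorem mw_pos1_eq_zero (E : mw_Div N) (hE : 0 ≤ E) (hdeg : Divisor.degree E = 0) : E = 0 := by
  have hsg := rt_isSepGen_jBar N
  by_contra hne
  have := rt_degree_lt_of_lt hsg hE (Ne.symm hne)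
  rw [map_zero, hdeg] at this
  exact lt_irrefl _ this

/-! ### the assembly -/

variable (N)

/-- **[POS1] from its seams.** -/
theorem mw_pos1 (hRRK : mw_SeamRRK N) (hSPEC : mw_SeamSPEC N) (hTWO : mw_SeamTWO N)
    (hBASE : mw_SeamBASE N) (hCPL : mw_SeamCPL N) (hEXP : mw_SeamEXP N) (hVDMC : mw_SeamVDMC N)
    (hHG : mw_SeamHG N) (hHY : mw_SeamHY N) (hAMPLE : mw_SeamAMPLE N) : mw_SeamPOS1 N := by
  intro r x hx Pinf hPinf β hβ hβq
  have hsg := rt_isSepGen_jBar N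
  obtain ⟨g, hg⟩ := hRRK
  obtain ⟨t₁, t₂, ht₁, ht₂, htwo⟩ := hTWO Pinf hPinf
  obtain ⟨𝔇₁, h𝔇₁, hcan₁⟩ := hg t₁ ht₁
  obtain ⟨𝔇₂, h𝔇₂, hcan₂⟩ := hg t₂ ht₂
  have hdis : ∀ z : mw_X N, z ≠ Pinf → 𝔇₁ z = 0 ∨ 𝔇₂ z = 0 := fun z hz => by
    rw [h𝔇₁, h𝔇₂]; exact htwo z hz
  obtain ⟨cB, hB⟩ := hBASE
  obtain ⟨av, hV⟩ := hVDMC x hx Pinf hPinf
  obtain ⟨ay, hY⟩ := hHY x hx Pinf hPinf
  -- the degree `a'` of the auxiliary complete system
  obtain ⟨a', ha'v, ha'y, ha'B⟩ : ∃ a' : ℕ, av ≤ a' ∧ ay ≤ a' ∧ cB + 2 * (g : ℤ) ≤ (a' : ℤ) :=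
    ⟨max (max av ay) (cB + 2 * (g : ℤ)).toNat, by omega, by omega, by omega⟩
  obtain ⟨s, y, hy⟩ := hCPL Pinf hPinf a'
  obtain ⟨Cy, hCy⟩ := hY a' ha'y y hy
  have hVa := hV a' ha'v y hy
  set D₀ : mw_Div N := Finsupp.single Pinf (a' : ℤ) - 𝔇₁ with hD₀
  have hdegD₀ : Divisor.degree D₀ = (a' : ℤ) - (2 * (g : ℤ) - 2) := by
    rw [hD₀, map_sub, rt_degree_single hsg, mw_pos1_degree_canon g 𝔇₁ hcan₁]
  obtain ⟨𝔅₀, h𝔅nn, h𝔅f, h𝔅dis⟩ := hB D₀ (by rw [hdegD₀]; omega) g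
  obtain ⟨C1, hC1⟩ := hHG x hx Pinf hPinf t₁ 𝔇₁ h𝔇₁
  obtain ⟨C2, hC2⟩ := hHG x hx Pinf hPinf t₂ 𝔇₂ h𝔇₂
  obtain ⟨Ce, hCe⟩ := hEXP x hx Pinf hPinf β hβ hβq g
  -- the [SPEC] families
  have hspec : ∀ d : ℕ, ∃ Fam : Finset (mw_Div N), 1 ≤ d → d ≤ g →
      (∀ A ∈ Fam, 0 ≤ A ∧ Divisor.degree A = (g : ℤ) - d ∧
        Disjoint A.support (∅ : Finset (mw_X N)) ∧ mw_l N (𝔇₁ - A) = d) ∧
      ∀ E : mw_Div N, 0 ≤ E → Divisor.degree E = d → mw_l N E = 1 →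
        ∃ A ∈ Fam, Disjoint A.support E.support ∧ mw_l N (𝔇₁ - A - E) = 0 := fun d => by
    by_cases h : 1 ≤ d ∧ d ≤ g
    · obtain ⟨Fam, hF⟩ := hSPEC g 𝔇₁ hcan₁ d h.1 h.2 ∅
      exact ⟨Fam, fun _ _ => hF⟩
    · exact ⟨∅, fun h1 h2 => absurd ⟨h1, h2⟩ h⟩
  choose Fam hFam using hspec
  -- linear equivalence: `a'∞ - (𝔅₀ j + A) ~ 𝔇₁ - A`
  have hlin : ∀ (j : Fin (g + 1)) (A : mw_Div N),
      mw_l N (Finsupp.single Pinf (a' : ℤ) - (𝔅₀ j + A)) = mw_l N (𝔇₁ - A) ∧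
      ∀ E : mw_Div N, mw_l N (Finsupp.single Pinf (a' : ℤ) - (𝔅₀ j + A) - E)
        = mw_l N (𝔇₁ - A - E) := by
    intro j A
    obtain ⟨f, hf0, hf⟩ := h𝔅f j
    have h1 : 𝔅₀ j = D₀ + rt_div hsg f := by
      ext z
      rw [hf z, Finsupp.add_apply, rt_div_apply]
    have h2 : ∀ X : mw_Div N, Finsupp.single Pinf (a' : ℤ) - (𝔅₀ j + A) - X
        = (𝔇₁ - A - X) + rt_div hsg f⁻¹ := by
      intro X
      rw [h1, hD₀, rt_div_inv]
      abel
    constructor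
    · have := h2 0
      rw [sub_zero, sub_zero] at this
      unfold mw_l
      rw [this, rt_finrank_L_add_div hsg _ (inv_ne_zero hf0)]
    · intro E
      unfold mw_l
      rw [h2 E, rt_finrank_L_add_div hsg _ (inv_ne_zero hf0)]
  -- the configurations
  set 𝒞 : Finset (ℕ × mw_Div N) := (Finset.Icc 1 g).biUnion fun d =>
    (Finset.univ : Finset (Fin (g + 1))).biUnion fun j =>
      (Fam d).image fun A => (d, 𝔅₀ j + A) with h𝒞
  obtain ⟨C, hC⟩ := mw_pos1_uniform 𝒞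
    (fun c C => ∀ (a : JZero N) (E : mw_Div N), mw_IsMinRep N Pinf a E →
      Divisor.degree E = (c.1 : ℤ) → Disjoint E.support c.2.support →
      Divisor.degree E = (mw_l N (Finsupp.single Pinf (a' : ℤ) - c.2) : ℤ) →
      mw_l N (Finsupp.single Pinf (a' : ℤ) - c.2 - E) = 0 →
      mw_naive N x Pinf E - C ≤ β a a)
    (fun c C C' hCC' h a E h1 h2 h3 h4 h5 => by
      have := h a E h1 h2 h3 h4 h5
      linarith)
    (by
      intro c hc
      rw [h𝒞, Finset.mem_biUnion] at hc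
      obtain ⟨d, hd, hc⟩ := hc
      rw [Finset.mem_biUnion] at hc
      obtain ⟨j, -, hc⟩ := hc
      rw [Finset.mem_image] at hc
      obtain ⟨A, hA, rfl⟩ := hc
      rw [Finset.mem_Icc] at hd
      obtain ⟨hAnn, hAdeg, -, hAl⟩ := (hFam d hd.1 hd.2).1 A hA
      have h𝔅nn' : 0 ≤ 𝔅₀ j + A := add_nonneg (h𝔅nn j) hAnn
      obtain ⟨Cv, hCv⟩ := hVa (𝔅₀ j + A) h𝔅nn'
      have hdeg𝔅 : Divisor.degree (𝔅₀ j) = (a' : ℤ) - (2 * (g : ℤ) - 2) := by
        obtain ⟨f, hf0, hf⟩ := h𝔅f j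
        have h1 : 𝔅₀ j = D₀ + rt_div hsg f := by
          ext z
          rw [hf z, Finsupp.add_apply, rt_div_apply]
        rw [h1, map_add, rt_degree_div, add_zero, hdegD₀]
      have hdegD2 : ∀ 𝔇 : mw_Div N, mw_IsCanon N g 𝔇 → 1 ≤ Divisor.degree
          (𝔇 + (𝔅₀ j + A) + (𝔅₀ j + A) + Finsupp.single Pinf (2 * (d : ℤ) - 2 * a' - 1)) := by
        intro 𝔇 h
        rw [map_add, map_add, map_add, map_add, rt_degree_single hsg,
          mw_pos1_degree_canon g 𝔇 h, hdeg𝔅, hAdeg]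
        omega
      obtain ⟨Ca1, hCa1⟩ := hAMPLE x hx _ (hdegD2 𝔇₁ hcan₁)
      obtain ⟨Ca2, hCa2⟩ := hAMPLE x hx _ (hdegD2 𝔇₂ hcan₂)
      exact mw_pos1_config x Pinf β g Ce hCe 𝔇₁ 𝔇₂ hdis C1 C2 hC1 hC2 a' y Cy hCy d hd.2
        (𝔅₀ j + A) Cv hCv Ca1 Ca2 hCa1 hCa2)
  -- the final constant
  refine ⟨|C| + |Ce|, fun a E hmin => ?_⟩
  have hE : 0 ≤ E := hmin.1
  have hlE : mw_l N E = 1 := hmin.2.2.1
  have hdegnn : 0 ≤ Divisor.degree E := rt_degree_nonneg hsg hE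
  have hdegle : Divisor.degree E ≤ (g : ℤ) := mw_pos1_degree_le g 𝔇₁ hcan₁ E hlE
  obtain ⟨d, hd⟩ : ∃ d : ℕ, Divisor.degree E = (d : ℤ) := ⟨(Divisor.degree E).toNat, by omega⟩
  have hdg : d ≤ g := by omega
  rcases Nat.eq_zero_or_pos d with h0 | h0
  · -- `E = 0`
    have hE0 : E = 0 := mw_pos1_eq_zero E hE (by rw [hd, h0]; rfl)
    have := hCe a E (fun _ => 0) hmin hdegle (fun P hP => by rw [hE0] at hP; simp at hP)
    subst hE0
    simp only [mw_naive, Finsupp.sum_zero_index, map_zero, Int.cast_zero, mul_zero,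
      add_zero, sub_zero, zero_sub] at this ⊢
    have k1 := le_abs_self Ce
    have k2 := abs_nonneg C
    linarith
  · obtain ⟨A, hA, hAE, hAl⟩ := (hFam d h0 hdg).2 E hE hd hlE
    have hcard : E.support.card ≤ g := by
      have := mw_pos1_card_le E hE
      omega
    obtain ⟨j, hj⟩ := mw_pos1_pigeon 𝔅₀ h𝔅dis E.support hcard
    have hc : (d, 𝔅₀ j + A) ∈ 𝒞 := by
      rw [h𝒞, Finset.mem_biUnion]
      refine ⟨d, Finset.mem_Icc.mpr ⟨h0, hdg⟩, ?_⟩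
      rw [Finset.mem_biUnion]
      refine ⟨j, Finset.mem_univ _, ?_⟩
      rw [Finset.mem_image]
      exact ⟨A, hA, rfl⟩
    have hdisj : Disjoint E.support (𝔅₀ j + A).support := by
      refine Finset.disjoint_of_subset_right Finsupp.support_add ?_
      rw [Finset.disjoint_union_right]
      exact ⟨hj, hAE.symm⟩
    obtain ⟨hAnn, hAdeg, -, hAld⟩ := (hFam d h0 hdg).1 A hA
    have h4 : Divisor.degree E = (mw_l N (Finsupp.single Pinf (a' : ℤ) - (𝔅₀ j + A)) : ℤ) := by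
      rw [(hlin j A).1, hAld, hd]
    have h5 : mw_l N (Finsupp.single Pinf (a' : ℤ) - (𝔅₀ j + A) - E) = 0 := by
      rw [(hlin j A).2 E, hAl]
    have := hC (d, 𝔅₀ j + A) hc a E hmin hd hdisj h4 h5
    have k1 := le_abs_self C
    have k2 := abs_nonneg Ce
    linarith

end Fermat.Agent.MW
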