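/-
Project MW (S17), GLOBAL leaf [SPEC] (helper25): a FINITE family of special systems `L(𝔇 - A)`
serving every effective `E` of degree `d` with `l(E) = 1`.

Generic form `mw_spec_generic` in the `rt_` context (`F / K` a function field with separating
generator `x` over an algebraically closed field `K`), from Riemann–Roch with duality
(`hC : ∀ D, l(D) - l(𝔇 - D) = deg D + 1 - g`) alone:
* pool := `3g` places outside `S`;
* `Fam` := the `ffg_sum T`, `T ⊆ pool`, `|T| = g - d`, with `l(𝔇 - ffg_sum T) = d`;
* for `E`: greedy choice of `g - d` pool points outside `supp E`, each one lowering `l(𝔇 - E - …)`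
  (a point `Q` outside `supp (div f + D)`, `0 ≠ f ∈ L(D)`, has `l(D - Q) < l(D)`, and
  `|supp (div f + D)| ≤ deg D`); at the end `l(𝔇 - E - A) = 0`, hence `l(E + A) = 1`, `l(A) = 1`
  and `l(𝔇 - A) = d`.
Prefix `mw_spec_`.
-/
import Mathlib
import Fermat.Agent.MW.Global.Seams
import Fermat.Agent.JT3.Riemann.FBar
import Fermat.Agent.FF.Generic

set_option autoImplicit false
set_option linter.unusedSectionVars false

noncomputable section

namespace Fermat.Agent.MW

open AlgebraicCurve ModularCurve Fermat.Agent.JT3 Fermat.Agent.FF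

section generic

universe u v
variable {K : Type u} {F : Type v} [Field K] [Field F] [Algebra K F]

theorem mw_spec_support_sum (T : Finset (Place K F)) : (ffg_sum T).support = T := by
  classical
  ext v
  rw [Finsupp.mem_support_iff, ffg_sum_apply]
  split_ifs with h
  · simp [h]
  · simp [h]

variable [IsAlgClosed K] {x : F} (hx : rt_IsSepGen K x)

include hx

/-- an effective divisor has at most `deg` points -/
theorem mw_spec_card_support_le {E : Divisor K F} (hE : 0 ≤ E) :
    (E.support.card : ℤ) ≤ Divisor.degree E := by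
  rw [rt_degree_eq_sum hx E E.support (Finset.Subset.refl _), Finset.card_eq_sum_ones,
    Nat.cast_sum]
  refine Finset.sum_le_sum fun v hv => ?_
  have h1 : (0 : ℤ) ≤ E v := Finsupp.le_def.mp hE v
  have h2 : E v ≠ 0 := Finsupp.mem_support_iff.mp hv
  push_cast
  omega

/-- outside a set of at most `deg D` points, removing a point lowers `l(D)` -/
theorem mw_spec_exists_bad (D : Divisor K F) :
    ∃ B : Finset (Place K F), (B.card : ℤ) ≤ max (Divisor.degree D) 0 ∧
      ∀ Q : Place K F, Q ∉ B →
        Module.finrank K ↥(riemannRochSpace (D - Finsupp.single Q 1)) ≤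
          Module.finrank K ↥(riemannRochSpace D) - 1 := by
  classical
  have hle : ∀ Q : Place K F, D - Finsupp.single Q 1 ≤ D := by
    intro Q
    rw [Finsupp.le_def]
    intro v
    rw [Finsupp.sub_apply, Finsupp.single_apply]
    split_ifs <;> omega
  by_cases hbot : ∃ f ∈ riemannRochSpace D, f ≠ 0
  · obtain ⟨f, hf, hf0⟩ := hbot
    have hfL := (rt_mem_L_iff hf0).mp hf
    have hD' : 0 ≤ D + rt_div hx f := by
      rw [Finsupp.le_def]
      intro v
      rw [Finsupp.zero_apply, Finsupp.add_apply, rt_div_apply]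
      have := hfL v
      omega
    refine ⟨(D + rt_div hx f).support, ?_, fun Q hQ => ?_⟩
    · have := mw_spec_card_support_le hx hD'
      rw [map_add, rt_degree_div hx f, add_zero] at this
      exact this.trans (le_max_left _ _)
    · have hQ0 : (D + rt_div hx f) Q = 0 := Finsupp.notMem_support_iff.mp hQ
      rw [Finsupp.add_apply, rt_div_apply] at hQ0
      have hnot : f ∉ riemannRochSpace (D - Finsupp.single Q 1) := by
        rw [rt_mem_L_iff hf0]
        push Not
        refine ⟨Q, ?_⟩
        rw [Finsupp.sub_apply, Finsupp.single_eq_same]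
        omega
      have hlt : riemannRochSpace (D - Finsupp.single Q 1) < riemannRochSpace D :=
        lt_of_le_of_ne (rt_L_mono (hle Q)) fun h => hnot (h ▸ hf)
      have := rt_L_finite hx D
      have := Submodule.finrank_lt_finrank_of_lt hlt
      omega
  · push Not at hbot
    have h0 : Module.finrank K ↥(riemannRochSpace D) = 0 := by
      have : riemannRochSpace D = ⊥ := by
        rw [eq_bot_iff]
        intro f hf
        exact (Submodule.mem_bot K).mpr (hbot f hf)
      rw [this]
      exact finrank_bot K F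
    refine ⟨∅, ?_, fun Q _ => ?_⟩
    · rw [Finset.card_empty, Nat.cast_zero]
      exact le_max_right _ _
    · have := rt_l_mono hx (hle Q)
      omega

/-- the greedy choice -/
theorem mw_spec_greedy (pool U : Finset (Place K F)) (D₀ : Divisor K F) (k : ℕ)
    (hpool : (U.card : ℤ) + k + max (Divisor.degree D₀) 0 < pool.card) :
    ∀ j : ℕ, j ≤ k → ∃ T : Finset (Place K F), T ⊆ pool ∧ T.card = j ∧ Disjoint T U ∧
      Module.finrank K ↥(riemannRochSpace (D₀ - ffg_sum T)) ≤
        Module.finrank K ↥(riemannRochSpace D₀) - j := by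
  classical
  intro j
  induction j with
  | zero =>
    intro _
    refine ⟨∅, Finset.empty_subset _, Finset.card_empty, Finset.disjoint_empty_left _, ?_⟩
    rw [ffg_sum_empty, sub_zero, Nat.sub_zero]
  | succ j ih =>
    intro hj
    obtain ⟨T, hTp, hTc, hTU, hTl⟩ := ih (by omega)
    obtain ⟨B, hBc, hB⟩ := mw_spec_exists_bad hx (D₀ - ffg_sum T)
    have hdeg : Divisor.degree (D₀ - ffg_sum T) = Divisor.degree D₀ - j := by
      rw [map_sub, ffg_degree_sum hx, hTc]
    have hcard : (U ∪ T ∪ B).card < pool.card := by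
      have h1 : (U ∪ T ∪ B).card ≤ U.card + T.card + B.card :=
        (Finset.card_union_le _ _).trans (Nat.add_le_add_right (Finset.card_union_le _ _) _)
      have h2 : ((U ∪ T ∪ B).card : ℤ) ≤ U.card + T.card + B.card := by exact_mod_cast h1
      rw [hdeg] at hBc
      have h3 : max (Divisor.degree D₀ - (j : ℤ)) 0 ≤ max (Divisor.degree D₀) 0 :=
        max_le_max (by omega) le_rfl
      have h4 : ((U ∪ T ∪ B).card : ℤ) < pool.card := by
        rw [hTc] at h2
        have : (j : ℤ) + 1 ≤ k := by exact_mod_cast hj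
        omega
      exact_mod_cast h4
    obtain ⟨Q, hQp, hQn⟩ := Finset.exists_mem_notMem_of_card_lt_card hcard
    rw [Finset.mem_union, Finset.mem_union] at hQn
    push Not at hQn
    obtain ⟨⟨hQU, hQT⟩, hQB⟩ := hQn
    refine ⟨insert Q T, Finset.insert_subset hQp hTp, ?_, ?_, ?_⟩
    · rw [Finset.card_insert_of_notMem hQT, hTc]
    · rw [Finset.disjoint_insert_left]
      exact ⟨hQU, hTU⟩
    · rw [ffg_sum_insert hQT, ← sub_sub]
      have := hB Q hQB
      omega

/-- **[SPEC], generic form** -/
theorem mw_spec_generic (g : ℕ) (𝔇 : Divisor K F)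
    (hC : ∀ D : Divisor K F, (Module.finrank K ↥(riemannRochSpace D) : ℤ) -
      Module.finrank K ↥(riemannRochSpace (𝔇 - D)) = Divisor.degree D + 1 - g)
    (d : ℕ) (hd1 : 1 ≤ d) (hdg : d ≤ g) (S : Finset (Place K F)) :
    ∃ Fam : Finset (Divisor K F),
      (∀ A ∈ Fam, 0 ≤ A ∧ Divisor.degree A = (g : ℤ) - d ∧ Disjoint A.support S ∧
        Module.finrank K ↥(riemannRochSpace (𝔇 - A)) = d) ∧
      ∀ E : Divisor K F, 0 ≤ E → Divisor.degree E = d →
        Module.finrank K ↥(riemannRochSpace E) = 1 →
        ∃ A ∈ Fam, Disjoint A.support E.support ∧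
          Module.finrank K ↥(riemannRochSpace (𝔇 - A - E)) = 0 := by
  classical
  have hinfP : Infinite (Place K F) := ffg_infinite_place hx
  -- `deg 𝔇 = 2g - 2`
  have hdeg𝔇 : Divisor.degree 𝔇 = 2 * (g : ℤ) - 2 := by
    have h1 := hC 0
    have h2 := hC 𝔇
    rw [sub_zero, map_zero] at h1
    rw [sub_self] at h2
    omega
  -- the pool
  have hinf : ((S : Set (Place K F))ᶜ).Infinite := S.finite_toSet.infinite_compl
  obtain ⟨pool, hpoolS, hpoolc⟩ := hinf.exists_subset_card_eq (3 * g)
  have hpool_disj : ∀ T : Finset (Place K F), T ⊆ pool → Disjoint T S := by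
    intro T hT
    rw [Finset.disjoint_left]
    intro v hvT hvS
    exact hpoolS (Finset.mem_coe.mpr (hT hvT)) (Finset.mem_coe.mpr hvS)
  refine ⟨((pool.powersetCard (g - d)).image ffg_sum).filter
    (fun A => Module.finrank K ↥(riemannRochSpace (𝔇 - A)) = d), ?_, ?_⟩
  · intro A hA
    rw [Finset.mem_filter, Finset.mem_image] at hA
    obtain ⟨⟨T, hT, rfl⟩, hl⟩ := hA
    rw [Finset.mem_powersetCard] at hT
    refine ⟨ffg_sum_nonneg T, ?_, ?_, hl⟩
    · rw [ffg_degree_sum hx, hT.2, Nat.cast_sub hdg]
    · rw [mw_spec_support_sum]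
      exact hpool_disj T hT.1
  · intro E hE hEd hEl
    -- `l(𝔇 - E) = g - d`
    have h1 := hC E
    rw [hEl, hEd] at h1
    have hdegD₀ : Divisor.degree (𝔇 - E) = 2 * (g : ℤ) - 2 - d := by
      rw [map_sub, hdeg𝔇, hEd]
    have hUc := mw_spec_card_support_le hx hE
    rw [hEd] at hUc
    have hpool : (E.support.card : ℤ) + (g - d : ℕ) + max (Divisor.degree (𝔇 - E)) 0 <
        pool.card := by
      rw [hpoolc, hdegD₀, Nat.cast_sub hdg]
      have hg1 : (1 : ℤ) ≤ g := by exact_mod_cast hd1.trans hdg
      have hdg' : (d : ℤ) ≤ g := by exact_mod_cast hdg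
      rcases le_total (2 * (g : ℤ) - 2 - d) 0 with h | h
      · rw [max_eq_right h]
        push_cast
        omega
      · rw [max_eq_left h]
        push_cast
        omega
    obtain ⟨T, hTp, hTc, hTU, hTl⟩ :=
      mw_spec_greedy hx pool E.support (𝔇 - E) (g - d) hpool (g - d) le_rfl
    have hl0 : Module.finrank K ↥(riemannRochSpace (𝔇 - E - ffg_sum T)) = 0 := by
      have hd' : (d : ℤ) ≤ g := by exact_mod_cast hdg
      have h2 : Module.finrank K ↥(riemannRochSpace (𝔇 - E)) = g - d := by
        have : (Module.finrank K ↥(riemannRochSpace (𝔇 - E)) : ℤ) = (g : ℤ) - d := by omega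
        omega
      omega
    -- `l(E + A) = 1`
    have h3 := hC (E + ffg_sum T)
    rw [sub_add_eq_sub_sub, hl0, map_add, hEd, ffg_degree_sum hx, hTc, Nat.cast_sub hdg] at h3
    have hEA : Module.finrank K ↥(riemannRochSpace (E + ffg_sum T)) = 1 := by
      have : (Module.finrank K ↥(riemannRochSpace (E + ffg_sum T)) : ℤ) = 1 := by
        push_cast at h3
        omega
      exact_mod_cast this
    -- `l(A) = 1`
    have hA1 : Module.finrank K ↥(riemannRochSpace (ffg_sum T)) = 1 := by
      have h4 := rt_l_mono hx (le_add_of_nonneg_left hE : ffg_sum T ≤ E + ffg_sum T)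
      have h5 := rt_one_le_l hx (ffg_sum_nonneg T)
      omega
    -- `l(𝔇 - A) = d`
    have h6 := hC (ffg_sum T)
    rw [hA1, ffg_degree_sum hx, hTc, Nat.cast_sub hdg] at h6
    have hAd : Module.finrank K ↥(riemannRochSpace (𝔇 - ffg_sum T)) = d := by
      have : (Module.finrank K ↥(riemannRochSpace (𝔇 - ffg_sum T)) : ℤ) = d := by
        push_cast at h6
        omega
      exact_mod_cast this
    refine ⟨ffg_sum T, ?_, ?_, ?_⟩
    · rw [Finset.mem_filter, Finset.mem_image]
      exact ⟨⟨T, Finset.mem_powersetCard.mpr ⟨hTp, hTc⟩, rfl⟩, hAd⟩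
    · rw [mw_spec_support_sum]
      exact hTU
    · rw [sub_right_comm]
      exact hl0

end generic

/-- **[SPEC]** -/
theorem mw_spec (N : ℕ) [NeZero N] : mw_SeamSPEC N := by
  intro g 𝔇 h𝔇 d hd1 hdg S
  exact mw_spec_generic (rt_isSepGen_jBar N) g 𝔇 h𝔇 d hd1 hdg S

end Fermat.Agent.MW
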