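/-
Project MW (S17), GLOBAL leaf **[VDMC]** (architect helper7; helper11, with helper1's jets
`VDMC/{Jets,Confluent}.lean` and regrouping `VDMC/Regroup.lean`, helper18's summation machine
`GKL/{Sum,Global,Wedge,Bound}.lean`): the confluent arithmetic Vandermonde inequality

  `mw_vdmc : mw_SeamKLmu N → mw_SeamABS → mw_SeamEMB N → mw_SeamVDMC N`.

Enumerate `E = P_0 + … + P_{m-1}`, `m = l(a∞ - 𝔅)`; `J` = the confluent matrix of a fixed basis of
`L(a∞ - 𝔅)`; expand `D_{n+1}(ρ)` along its last column: the cofactor combination is a section of the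
complete system `y` vanishing along `𝔅` and at `P_0, …, P_{n-1}`, with leading coefficient
`D_{n+1}(ρ)` at `P_n`; the upper half of `[KLμ]` at every place + induction + product formula for
`D_m ≠ 0` + `[ABS]`.  Prefix `mw_vdmc_`.
-/
import Fermat.Agent.MW.Global.VDMC.Global
import Fermat.Agent.MW.Global.VDMC.Indep
import Fermat.Agent.MW.Global.VDMC.Regroup
import Fermat.Agent.MW.Core.SYL
import Fermat.Agent.MW.Bil
import Fermat.Agent.MW.Core.Seams2

set_option autoImplicit false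
set_option linter.unusedSectionVars false

noncomputable section

namespace Fermat.Agent.MW

open AlgebraicCurve ModularCurve Fermat.Agent.S24 Fermat.Agent.JT3 Fermat.Agent.FF
open scoped Classical

/-- a basis of a finite-dimensional subspace, as a family of vectors of the ambient space -/
theorem mw_vdmc_exists_basis {K F : Type*} [Field K] [Field F] [Algebra K F] (V : Submodule K F)
    [FiniteDimensional K V] (m : ℕ) (hm : Module.finrank K V = m) :
    ∃ vb : Fin m → F, LinearIndependent K vb ∧ ∀ i, vb i ∈ V := by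
  let b := Module.finBasisOfFinrankEq K V hm
  refine ⟨fun i => ((b i : V) : F), ?_, fun i => (b i).2⟩
  exact b.linearIndependent.map' V.subtype (Submodule.ker_subtype V)

/-- a number field containing a given one and a finite set of algebraic numbers -/
theorem mw_vdmc_exists_field (K₀ : IntermediateField ℚ mw_K) [FiniteDimensional ℚ ↥K₀]
    (T : Set mw_K) (hT : T.Finite) :
    ∃ K' : IntermediateField ℚ mw_K, FiniteDimensional ℚ ↥K' ∧ K₀ ≤ K' ∧ ∀ t ∈ T, t ∈ K' := by
  have : Finite ↥T := hT.to_subtype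
  have h1 : FiniteDimensional ℚ ↥(IntermediateField.adjoin ℚ T) :=
    IntermediateField.finiteDimensional_adjoin fun x _ =>
      ((AlgebraicClosure.isAlgebraic ℚ).isAlgebraic x).isIntegral
  refine ⟨K₀ ⊔ IntermediateField.adjoin ℚ T, IntermediateField.finiteDimensional_sup _ _,
    le_sup_left, fun t ht => ?_⟩
  exact (le_sup_right : IntermediateField.adjoin ℚ T ≤ K₀ ⊔ IntermediateField.adjoin ℚ T)
    (IntermediateField.subset_adjoin ℚ T ht)

variable {N : ℕ} [NeZero N]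

/-- an effective divisor of degree `0` is `0` -/
theorem mw_vdmc_eq_zero_of_degree {E : mw_Div N} (hE : 0 ≤ E) (hdeg : Divisor.degree E = 0) :
    E = 0 := by
  by_contra hne
  have := rt_degree_lt_of_lt (rt_isSepGen_jBar N) hE (Ne.symm hne)
  rw [map_zero, hdeg] at this
  exact lt_irrefl _ this

/-- **[VDMC]** -/
theorem mw_vdmc (N : ℕ) [NeZero N] (hKL : mw_SeamKLmu N) (hABS : mw_SeamABS)
    (hEMB : mw_SeamEMB N) : mw_SeamVDMC N := by
  intro r x hx Pinf hPinf
  obtain ⟨a₀, H⟩ := hKL x hx Pinf hPinf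
  obtain ⟨hsep, htanw⟩ := hEMB x hx
  obtain ⟨-, hxli, Pinf', k, g, hInf', hkg, hR, hxspan⟩ := hx
  have hP : Pinf' = Pinf := by
    apply Place.ext
    ext f
    rw [hInf' f, hPinf f]
  subst hP
  have hxN := rt_isSepGen_jBar N
  have hx0 : ∃ b, x b ≠ 0 := mw_v_exists_ne_zero hxli
  refine ⟨max a₀ k, fun a ha s y hy 𝔅 h𝔅 => ?_⟩
  obtain ⟨γ, cp, K₀, hK₀, hγ, hcp, hfin, HKL⟩ := H a (le_trans (le_max_left _ _) ha) y hy
  obtain ⟨hym, hy0, hypiv⟩ :=
    mw_syl_system g k Pinf' hR a (le_trans (le_max_right _ _) ha) y hy.2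
  -- a basis of `L(a∞ - 𝔅)` and its matrix in the system `y`
  have hfinV : FiniteDimensional mw_K ↥(riemannRochSpace (Finsupp.single Pinf' (a : ℤ) - 𝔅)) :=
    rt_L_finite hxN _
  obtain ⟨m, hml⟩ : ∃ m : ℕ, mw_l N (Finsupp.single Pinf' (a : ℤ) - 𝔅) = m := ⟨_, rfl⟩
  obtain ⟨vb, hvbli, hvbm⟩ :=
    mw_vdmc_exists_basis (riemannRochSpace (Finsupp.single Pinf' (a : ℤ) - 𝔅)) m hml
  have hsub : ∀ i, ∃ c : Fin (s + 1) → mw_K, vb i = mw_sec y c := by
    intro i
    have h1 : vb i ∈ riemannRochSpace (Finsupp.single Pinf' (a : ℤ)) :=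
      rt_L_mono (sub_le_self _ h𝔅) (hvbm i)
    rw [← hy.2] at h1
    obtain ⟨c, hc⟩ := (Submodule.mem_span_range_iff_exists_fun mw_K).mp h1
    refine ⟨c, ?_⟩
    rw [← hc, mw_sec]
    exact Finset.sum_congr rfl fun b _ => by rw [Algebra.smul_def]
  choose Mx hMx using hsub
  refine ⟨(m : ℝ) * (mw_ht (fun p : Fin m × Fin (s + 1) => Mx p.1 p.2)
      + ((Real.log m + a * Real.log 2) + γ) + ∑ p ∈ hfin.toFinset, cp p * Real.log p),
    fun E π hE hEinf hdisj hdeg hl0 hπ => ?_⟩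
  rw [hml] at hdeg
  rcases Nat.eq_zero_or_pos m with hm0 | hmpos
  · -- the degenerate case
    rw [hm0] at hdeg
    have hE0 : E = 0 := mw_vdmc_eq_zero_of_degree hE (by exact_mod_cast hdeg)
    have hmR : (m : ℝ) = 0 := by exact_mod_cast hm0
    rw [hE0]
    simp only [Finsupp.sum_zero_index]
    rw [hmR]
    simp
  -- the enumeration of `E`
  obtain ⟨pts, hpts⟩ := mw_syl_enum m E hE hdeg
  have hEcnt := mw_vdmc_rg_apply pts E hpts
  have hsupp := mw_vdmc_rg_mem_support pts E hpts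
  have G : mw_vdmc_Geom y Pinf' a 𝔅 vb Mx pts π :=
    { hyli := hy.1
      hym := hym
      hypiv := hypiv
      hB := h𝔅
      hvbm := hvbm
      hvb := hMx
      hpB := fun l => by
        have h1 := Finset.disjoint_left.mp hdisj (hsupp l)
        exact Finsupp.notMem_support_iff.mp h1
      hπ := fun l h2 => hπ (pts l) (hsupp l) (by rw [hEcnt]; exact_mod_cast h2) }
  have hΔ : mw_vdmc_D (mw_vdmc_J y vb pts π) m le_rfl id ≠ 0 :=
    mw_vdmc_det_ne_zero G hvbli E hEcnt hl0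
  -- the zeros of all the cofactor sections
  set Zall : Set (mw_X N) := ⋃ (n : Fin m) (ρ : Fin (n.val + 1) → Fin m),
    {z | mw_vdmc_D (mw_vdmc_J y vb pts π) (n.val + 1) n.2 ρ ≠ 0 ∧
      mw_zeroMult y (mw_vdmc_cc y vb Mx pts π n.val n.2 ρ) z ≠ 0} with hZall
  have hZfin : Zall.Finite := by
    refine Set.finite_iUnion fun n => Set.finite_iUnion fun ρ => ?_
    by_cases hD : mw_vdmc_D (mw_vdmc_J y vb pts π) (n.val + 1) n.2 ρ ≠ 0
    · obtain ⟨-, -, -, -, Zd, hZd, -⟩ := mw_vdmc_step G n.val n.2 ρ hD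
      refine Zd.support.finite_toSet.subset fun z hz => ?_
      rw [Finset.mem_coe, Finsupp.mem_support_iff, hZd z]
      exact hz.2
    · refine Set.finite_empty.subset fun z hz => ?_
      exact absurd hz.1 hD
  -- the finite set of all coordinates
  set T : Set mw_K :=
    Set.range (fun p : Fin m × Fin (s + 1) => Mx p.1 p.2)
      ∪ Set.range (fun p : Fin m × Fin m => mw_vdmc_J y vb pts π p.1 p.2)
      ∪ Set.range (fun p : Fin m × Fin (r + 1) => mw_vec x (pts p.1) p.2)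
      ∪ Set.range (fun p : Fin m × Fin (s + 1) => mw_vec y (pts p.1) p.2)
      ∪ Set.range (fun p : Fin m × Fin (r + 1) => mw_tanAt N x (pts p.1) (π (pts p.1)) p.2)
      ∪ (fun p : mw_X N × Fin (r + 1) => mw_vec x p.1 p.2) ''
          ((Zall ∪ (𝔅.support : Set (mw_X N))) ×ˢ Set.univ) with hT
  have hTfin : T.Finite := by
    refine Set.Finite.union (Set.Finite.union (Set.Finite.union (Set.Finite.union
      (Set.Finite.union (Set.finite_range _) (Set.finite_range _)) (Set.finite_range _))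
      (Set.finite_range _)) (Set.finite_range _)) ?_
    exact Set.Finite.image _ ((hZfin.union 𝔅.support.finite_toSet).prod Set.finite_univ)
  obtain ⟨K', hK'fd, hK₀K', hTK'⟩ := mw_vdmc_exists_field K₀ T hTfin
  have hNF : NumberField ↥K' :=
    { to_charZero := inferInstance
      to_finiteDimensional := hK'fd }
  have R : mw_vdmc_Rat x y vb Mx pts π K' :=
    { hMx := fun i b => hTK' _ (Or.inl (Or.inl (Or.inl (Or.inl (Or.inl ⟨(i, b), rfl⟩)))))
      hJ := fun i l => hTK' _ (Or.inl (Or.inl (Or.inl (Or.inl (Or.inr ⟨(i, l), rfl⟩)))))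
      hxP := fun l b => hTK' _ (Or.inl (Or.inl (Or.inl (Or.inr ⟨(l, b), rfl⟩))))
      hyP := fun l b => hTK' _ (Or.inl (Or.inl (Or.inr ⟨(l, b), rfl⟩)))
      hZ := fun n hn ρ hD z hz b => hTK' _ (Or.inr ⟨(z, b), ⟨Or.inl (by
        rw [hZall]
        simp only [Set.mem_iUnion]
        exact ⟨⟨n, hn⟩, ρ, hD, hz⟩), Set.mem_univ _⟩, rfl⟩)
      htan := fun l _ b => hTK' _ (Or.inl (Or.inr ⟨(l, b), rfl⟩)) }
  have hxB : ∀ z ∈ 𝔅.support, ∀ b, mw_vec x z b ∈ K' := fun z hz b =>
    hTK' _ (Or.inr ⟨(z, b), ⟨Or.inr hz, Set.mem_univ _⟩, rfl⟩)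
  have htw : ∀ l, 1 ≤ mw_vdmc_jn pts l →
      mw_wedge (mw_tanAt N x (pts l) (π (pts l))) (mw_vec x (pts l)) ≠ 0 := fun l hl =>
    htanw (pts l) (π (pts l)) (mw_vdmc_hπ_of_jn G l hl)
  have hglob := mw_vdmc_global K' hABS hx0 hsep G R hxB htw hγ hcp hfin hmpos
    (fun w bnd hb => HKL K' w bnd hK₀K' hb) hΔ
  -- regrouping
  have e1 := mw_vdmc_rg_sum pts E hpts (fun P => mw_ht (mw_vec y P))
  have e2 := mw_vdmc_rg_sum_jn pts E hpts (fun P => mw_hGauss N x P (π P))
  have e3 := mw_vdmc_rg_sum_pairs pts E hpts (fun P Q => mw_hD x P Q) (mw_bil_hD_symm x)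
  have e4 := mw_vdmc_rg_sum pts E hpts (fun P => mw_hDiv N x 𝔅 P)
  have hTg : ∑ l, mw_vdmc_Tg x y 𝔅 pts π l
      = ∑ l, mw_ht (mw_vec y (pts l))
        + ∑ l, (mw_vdmc_jn pts l : ℝ) * mw_hGauss N x (pts l) (π (pts l))
        - ∑ l : Fin m, ∑ l' : Fin m,
            (if l'.val < l.val ∧ pts l' ≠ pts l then mw_hD x (pts l) (pts l') else 0)
        - ∑ l, mw_hDiv N x 𝔅 (pts l) := by
    unfold mw_vdmc_Tg
    rw [Finset.sum_sub_distrib, Finset.sum_sub_distrib, Finset.sum_add_distrib]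
  rw [hTg, e1, e2, e3, e4] at hglob
  linarith

end Fermat.Agent.MW
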