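/-
Project MW (S17), GLOBAL leaf [EVOFF] (helper25): the off-diagonal values of the pairing,
`β([P-∞],[Q-∞]) = h_Δ(P,∞) + h_Δ(Q,∞) - h_Δ(P,Q) + O(1)`.

`mw_evoff : mw_SeamLEI N → mw_SeamEVOFF N`.

Route: a FIXED divisor `Z ~ ∞` (`Z = ∞ + div u`) avoiding `∞` (two choices `Z₁`, `Z₂` with
disjoint supports, so that a given `P` is outside one of them); then `[Q - ∞] = [Q - Z]`,
`β([P-∞],[Q-∞]) = B(P - ∞, Q - Z) + O(1)` (`mw_IsPairing`),
`B(P - ∞, Q - Z) = -h_Δ(P,Q) + h_Z(P) + h_Δ(∞,Q) - h_Z(∞)` (biadditivity), and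
`h_Z(P) = h_Δ(P,∞) + κ + O(1)` by [LEI] for `B(P - R, Z - ∞)`, `R` a fixed point.
Prefix `mw_evoff_`.
-/
import Fermat.Agent.MW.Move

set_option autoImplicit false
set_option linter.unusedSectionVars false

noncomputable section

namespace Fermat.Agent.MW

open AlgebraicCurve ModularCurve Fermat.Agent.JT3 Fermat.Agent.FF
open scoped Classical

variable (N : ℕ) [NeZero N]

/-- `h_Z(P) = ∑_z Z(z) h_Δ(P,z)` -/
def mw_evoff_h {r : ℕ} (x : Fin (r + 1) → mw_F N) (Z : mw_Div N) (P : mw_X N) : ℝ :=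
  Z.sum fun z n => (n : ℝ) * mw_hD x P z

omit [NeZero N] in
theorem mw_evoff_B_single_left {r : ℕ} (x : Fin (r + 1) → mw_F N) (P : mw_X N) (E : mw_Div N) :
    mw_B x (Finsupp.single P 1) E = -mw_evoff_h N x E P := by
  unfold mw_B mw_evoff_h
  rw [Finsupp.sum_single_index]
  · congr 1
    refine Finsupp.sum_congr fun Q _ => ?_
    rw [one_mul]
  · simp [Finsupp.sum]

omit [NeZero N] in
theorem mw_evoff_h_single {r : ℕ} (x : Fin (r + 1) → mw_F N) (P Q : mw_X N) :
    mw_evoff_h N x (Finsupp.single Q 1) P = mw_hD x P Q := by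
  unfold mw_evoff_h
  rw [Finsupp.sum_single_index]
  · simp
  · simp

omit [NeZero N] in
theorem mw_evoff_norm_single (P : mw_X N) :
    mw_norm (Finsupp.single P (1 : ℤ) : mw_Div N) ≤ 1 := by
  have := mw_mv_norm_single_le P 1
  rwa [Nat.cast_one] at this

omit [NeZero N] in
theorem mw_evoff_support_pair (A B : mw_X N) :
    (Finsupp.single A (1 : ℤ) - Finsupp.single B (1 : ℤ) : mw_Div N).support ⊆ {A, B} := by
  refine Finsupp.support_sub.trans ?_
  intro v hv
  rw [Finset.mem_union] at hv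
  rw [Finset.mem_insert, Finset.mem_singleton]
  rcases hv with hv | hv
  · exact Or.inl (Finset.mem_singleton.mp (Finsupp.support_single_subset hv))
  · exact Or.inr (Finset.mem_singleton.mp (Finsupp.support_single_subset hv))

omit [NeZero N] in
theorem mw_evoff_support_sub_single (Q : mw_X N) (Z : mw_Div N) :
    (Finsupp.single Q (1 : ℤ) - Z : mw_Div N).support ⊆ insert Q Z.support := by
  refine Finsupp.support_sub.trans ?_
  intro v hv
  rw [Finset.mem_union] at hv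
  rw [Finset.mem_insert]
  rcases hv with hv | hv
  · exact Or.inl (Finset.mem_singleton.mp (Finsupp.support_single_subset hv))
  · exact Or.inr hv

/-- linearly equivalent divisors of degree zero have the same class -/
theorem mw_evoff_cl_eq {D D' : mw_Div0 N} {u : mw_F N} (hu : u ≠ 0)
    (h : D.1 = D'.1 + rt_div (rt_isSepGen_jBar N) u) : mw_cl D = mw_cl D' := by
  have hx := rt_isSepGen_jBar N
  show Pic0.mk _ = Pic0.mk _
  refine QuotientAddGroup.eq.2 ?_
  rw [AddSubgroup.mem_addSubgroupOf]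
  have : ((-D + D' : mw_Div0 N) : mw_Div N) = rt_div hx u⁻¹ := by
    rw [rt_div_inv]
    show -D.1 + D'.1 = _
    rw [h]
    abel
  rw [this]
  exact rt_div_isPrincipal hx (inv_ne_zero hu)

theorem mw_evoff_pair_mem (A B : mw_X N) :
    (Finsupp.single A (1 : ℤ) - Finsupp.single B (1 : ℤ) : mw_Div N) ∈
      Divisor.degZero (K := mw_K) (F := mw_F N) := by
  have hx := rt_isSepGen_jBar N
  rw [Divisor.mem_degZero, map_sub, rt_degree_single hx, rt_degree_single hx, sub_self]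

/-- a divisor `Z = ∞ + div u` of bounded norm avoiding `∞` and a given finite set -/
theorem mw_evoff_exists_move (Pinf : mw_X N) :
    ∃ n₁ : ℕ, ∀ S : Finset (mw_X N), ∃ (Z : mw_Div N) (u : mw_F N), u ≠ 0 ∧
      Z = Finsupp.single Pinf 1 + rt_div (rt_isSepGen_jBar N) u ∧
      Disjoint Z.support (insert Pinf S) ∧ mw_norm Z ≤ n₁ := by
  have hx := rt_isSepGen_jBar N
  obtain ⟨g, c, hR⟩ := rt_riemann_fbar N
  obtain ⟨n, hn⟩ : ∃ n : ℕ, c + 1 ≤ (n : ℤ) :=
    ⟨(max (c + 1) 0).toNat, by rw [Int.toNat_of_nonneg (le_max_right _ _)]; exact le_max_left _ _⟩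
  refine ⟨2 * n + 1, fun S => ?_⟩
  have hinf : Infinite (mw_X N) := ffg_infinite_place hx
  obtain ⟨R₀, hR₀⟩ := Infinite.exists_notMem_finset (insert Pinf S)
  have hD₀ : Divisor.degree (Finsupp.single Pinf (1 : ℤ) - Finsupp.single R₀ (1 : ℤ) : mw_Div N)
      = 0 := by
    rw [map_sub, rt_degree_single hx, rt_degree_single hx, sub_self]
  obtain ⟨Q, E', f, hQ, hf0, hEnn, hdeg, hES, hEq⟩ :=
    mw_mv_exists hx g c (fun D hD => (hR D).2 hD) n hn _ hD₀ (insert Pinf S)
  refine ⟨E' + Finsupp.single R₀ 1 - Finsupp.single Q (n : ℤ), f, hf0, ?_, ?_, ?_⟩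
  · have : Finsupp.single Pinf (1 : ℤ) + rt_div hx f =
        (Finsupp.single Pinf (1 : ℤ) - Finsupp.single R₀ (1 : ℤ) + rt_div hx f) +
          Finsupp.single R₀ (1 : ℤ) := by abel
    rw [this, hEq]
    abel
  · rw [Finset.disjoint_left]
    intro P hP hPS
    rw [Finsupp.mem_support_iff] at hP
    apply hP
    have hPQ : Q ≠ P := fun h => hQ (h ▸ hPS)
    have hPR : R₀ ≠ P := fun h => hR₀ (h ▸ hPS)
    rw [Finsupp.sub_apply, Finsupp.add_apply, hES P hPS, Finsupp.single_apply, if_neg hPR,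
      Finsupp.single_apply, if_neg hPQ]
    ring
  · have h1 : mw_norm E' = n := by
      have := mw_mv_norm_of_nonneg N hEnn
      rw [hdeg] at this
      exact_mod_cast this
    have h2 := mw_mv_norm_single_le Q n
    have h3 := mw_bil_norm_sub_le (E' + Finsupp.single R₀ 1) (Finsupp.single Q (n : ℤ))
    have h4 := mw_bil_norm_add_le E' (Finsupp.single R₀ 1)
    have h5 := mw_evoff_norm_single N R₀
    omega

/-- the estimate for the points `P` outside a fixed `Z ~ ∞` -/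
theorem mw_evoff_aux (hLEI : mw_SeamLEI N) {r : ℕ} (x : Fin (r + 1) → mw_F N) (hx : mw_IsRef N x)
    (Pinf : mw_X N) (β : JZero N → JZero N → ℝ) (hβ : mw_IsPairing N x β)
    (Z : mw_Div N) (u : mw_F N) (hu : u ≠ 0)
    (hZ : Z = Finsupp.single Pinf 1 + rt_div (rt_isSepGen_jBar N) u)
    (hZinf : Pinf ∉ Z.support) :
    ∃ C : ℝ, ∀ P Q : mw_X N, P ≠ Pinf → Q ≠ Pinf → P ≠ Q → P ∉ Z.support →
      |β (mw_aj N Pinf P) (mw_aj N Pinf Q)
        - (mw_hD x P Pinf + mw_hD x Q Pinf - mw_hD x P Q)| ≤ C := by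
  have hsep := rt_isSepGen_jBar N
  have hinf : Infinite (mw_X N) := ffg_infinite_place hsep
  obtain ⟨R, hR⟩ := Infinite.exists_notMem_finset (insert Pinf Z.support)
  have hRinf : R ≠ Pinf := fun h => hR (h ▸ Finset.mem_insert_self _ _)
  have hRZ : R ∉ Z.support := fun h => hR (Finset.mem_insert_of_mem h)
  set n := mw_norm Z + 2 with hn
  obtain ⟨CL, hCL⟩ := hLEI x hx n
  obtain ⟨CP, hCP⟩ := hβ n
  set κ : ℝ := mw_evoff_h N x Z R - mw_hD x R Pinf with hκ
  set c₀ : ℝ := mw_evoff_h N x Z Pinf with hc₀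
  refine ⟨CP + CL + |κ - c₀|, fun P Q hP hQ hPQ hPZ => ?_⟩
  -- the classes
  have hmemP := mw_evoff_pair_mem N P Pinf
  have hmemQ := mw_evoff_pair_mem N Q Pinf
  have hdegZ : Divisor.degree Z = 1 := by
    rw [hZ, map_add, rt_degree_single hsep, rt_degree_div hsep, add_zero]
  have hmemQZ : (Finsupp.single Q (1 : ℤ) - Z : mw_Div N) ∈
      Divisor.degZero (K := mw_K) (F := mw_F N) := by
    rw [Divisor.mem_degZero, map_sub, rt_degree_single hsep, hdegZ, sub_self]
  have hajP : mw_aj N Pinf P = mw_cl ⟨_, hmemP⟩ := by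
    rw [mw_aj, dif_pos hmemP]
  have hajQ : mw_aj N Pinf Q = mw_cl ⟨_, hmemQZ⟩ := by
    rw [mw_aj, dif_pos hmemQ]
    refine mw_evoff_cl_eq N hu ?_
    show Finsupp.single Q (1 : ℤ) - Finsupp.single Pinf (1 : ℤ) =
      Finsupp.single Q (1 : ℤ) - Z + rt_div hsep u
    rw [hZ]
    abel
  -- the pairing
  have hnP : mw_norm (Finsupp.single P (1 : ℤ) - Finsupp.single Pinf (1 : ℤ) : mw_Div N) ≤ n := by
    have h1 := mw_bil_norm_sub_le (Finsupp.single P (1 : ℤ)) (Finsupp.single Pinf (1 : ℤ) : mw_Div N)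
    have h2 := mw_evoff_norm_single N P
    have h3 := mw_evoff_norm_single N Pinf
    omega
  have hnQ : mw_norm (Finsupp.single Q (1 : ℤ) - Z : mw_Div N) ≤ n := by
    have h1 := mw_bil_norm_sub_le (Finsupp.single Q (1 : ℤ)) Z
    have h2 := mw_evoff_norm_single N Q
    omega
  have hdisj1 : Disjoint (Finsupp.single P (1 : ℤ) - Finsupp.single Pinf (1 : ℤ) : mw_Div N).support
      (Finsupp.single Q (1 : ℤ) - Z : mw_Div N).support := by
    rw [Finset.disjoint_left]
    intro v hv hv'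
    have h1 := mw_evoff_support_pair N P Pinf hv
    have h2 := mw_evoff_support_sub_single N Q Z hv'
    rw [Finset.mem_insert, Finset.mem_singleton] at h1
    rw [Finset.mem_insert] at h2
    rcases h1 with rfl | rfl
    · rcases h2 with h2 | h2
      · exact hPQ h2
      · exact hPZ h2
    · rcases h2 with h2 | h2
      · exact hQ h2.symm
      · exact hZinf h2
  have h1 := hCP ⟨_, hmemP⟩ ⟨_, hmemQZ⟩ hnP hnQ hdisj1
  rw [← hajP, ← hajQ] at h1
  -- expansion of `B(P - ∞, Q - Z)`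
  have hB1 : mw_B x (Finsupp.single P (1 : ℤ) - Finsupp.single Pinf (1 : ℤ))
      (Finsupp.single Q (1 : ℤ) - Z) =
      -mw_hD x P Q + mw_evoff_h N x Z P + mw_hD x Pinf Q - c₀ := by
    rw [mw_bil_B_sub_left, mw_bil_B_sub_right, mw_bil_B_sub_right, mw_evoff_B_single_left,
      mw_evoff_B_single_left, mw_evoff_B_single_left, mw_evoff_B_single_left,
      mw_evoff_h_single, mw_evoff_h_single]
    ring
  -- [LEI] for `B(P - R, Z - ∞)`
  have hdivOf : mw_IsDivOf (Z - Finsupp.single Pinf (1 : ℤ)) u := by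
    refine ⟨hu, fun v => ?_⟩
    rw [hZ, add_sub_cancel_left, rt_div_apply]
  have hnPR : mw_norm (Finsupp.single P (1 : ℤ) - Finsupp.single R (1 : ℤ) : mw_Div N) ≤ n := by
    have h1 := mw_bil_norm_sub_le (Finsupp.single P (1 : ℤ)) (Finsupp.single R (1 : ℤ) : mw_Div N)
    have h2 := mw_evoff_norm_single N P
    have h3 := mw_evoff_norm_single N R
    omega
  have hnZ : mw_norm (Z - Finsupp.single Pinf (1 : ℤ) : mw_Div N) ≤ n := by
    have h1 := mw_bil_norm_sub_le Z (Finsupp.single Pinf (1 : ℤ))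
    have h2 := mw_evoff_norm_single N Pinf
    omega
  have hdisj2 : Disjoint (Finsupp.single P (1 : ℤ) - Finsupp.single R (1 : ℤ) : mw_Div N).support
      (Z - Finsupp.single Pinf (1 : ℤ) : mw_Div N).support := by
    rw [Finset.disjoint_left]
    intro v hv hv'
    have h1 := mw_evoff_support_pair N P R hv
    have h2 := Finsupp.support_sub hv'
    rw [Finset.mem_insert, Finset.mem_singleton] at h1
    rw [Finset.mem_union] at h2
    rcases h1 with rfl | rfl
    · rcases h2 with h2 | h2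
      · exact hPZ h2
      · exact hP (Finset.mem_singleton.mp (Finsupp.support_single_subset h2))
    · rcases h2 with h2 | h2
      · exact hRZ h2
      · exact hRinf (Finset.mem_singleton.mp (Finsupp.support_single_subset h2))
  have hdeg0 : Divisor.degree (Finsupp.single P (1 : ℤ) - Finsupp.single R (1 : ℤ) : mw_Div N)
      = 0 := by
    rw [map_sub, rt_degree_single hsep, rt_degree_single hsep, sub_self]
  have h2 := hCL _ _ u hdivOf hdeg0 hnPR hnZ hdisj2
  have hB2 : mw_B x (Finsupp.single P (1 : ℤ) - Finsupp.single R (1 : ℤ))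
      (Z - Finsupp.single Pinf (1 : ℤ)) =
      -mw_evoff_h N x Z P + mw_hD x P Pinf + κ := by
    rw [mw_bil_B_sub_left, mw_bil_B_sub_right, mw_bil_B_sub_right, mw_evoff_B_single_left,
      mw_evoff_B_single_left, mw_evoff_B_single_left, mw_evoff_B_single_left,
      mw_evoff_h_single, mw_evoff_h_single]
    ring
  rw [hB1] at h1
  rw [hB2] at h2
  rw [mw_bil_hD_symm x Pinf Q] at h1
  -- conclusion
  have h3 : β (mw_aj N Pinf P) (mw_aj N Pinf Q)
      - (mw_hD x P Pinf + mw_hD x Q Pinf - mw_hD x P Q) =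
      (β (mw_aj N Pinf P) (mw_aj N Pinf Q) -
        (-mw_hD x P Q + mw_evoff_h N x Z P + mw_hD x Q Pinf - c₀))
      - (-mw_evoff_h N x Z P + mw_hD x P Pinf + κ) + (κ - c₀) := by ring
  rw [h3]
  have h4 := abs_add_le ((β (mw_aj N Pinf P) (mw_aj N Pinf Q) -
        (-mw_hD x P Q + mw_evoff_h N x Z P + mw_hD x Q Pinf - c₀))
      - (-mw_evoff_h N x Z P + mw_hD x P Pinf + κ)) (κ - c₀)
  have h5 := abs_sub (β (mw_aj N Pinf P) (mw_aj N Pinf Q) -
        (-mw_hD x P Q + mw_evoff_h N x Z P + mw_hD x Q Pinf - c₀))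
      (-mw_evoff_h N x Z P + mw_hD x P Pinf + κ)
  linarith

/-- **[EVOFF]** -/
theorem mw_evoff (hLEI : mw_SeamLEI N) : mw_SeamEVOFF N := by
  intro _ _ r x hx Pinf _ β hβ _
  obtain ⟨n₁, hmove⟩ := mw_evoff_exists_move N Pinf
  obtain ⟨Z₁, u₁, hu₁, hZ₁, hZ₁d, -⟩ := hmove ∅
  obtain ⟨Z₂, u₂, hu₂, hZ₂, hZ₂d, -⟩ := hmove Z₁.support
  have hZ₁inf : Pinf ∉ Z₁.support := fun h =>
    Finset.disjoint_left.mp hZ₁d h (Finset.mem_insert_self _ _)
  have hZ₂inf : Pinf ∉ Z₂.support := fun h =>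
    Finset.disjoint_left.mp hZ₂d h (Finset.mem_insert_self _ _)
  obtain ⟨C₁, hC₁⟩ := mw_evoff_aux N hLEI x hx Pinf β hβ Z₁ u₁ hu₁ hZ₁ hZ₁inf
  obtain ⟨C₂, hC₂⟩ := mw_evoff_aux N hLEI x hx Pinf β hβ Z₂ u₂ hu₂ hZ₂ hZ₂inf
  refine ⟨max C₁ C₂, fun P Q hP hQ hPQ => ?_⟩
  by_cases hPZ : P ∈ Z₁.support
  · have hPZ₂ : P ∉ Z₂.support := fun h =>
      Finset.disjoint_left.mp hZ₂d h (Finset.mem_insert_of_mem hPZ)
    exact (hC₂ P Q hP hQ hPQ hPZ₂).trans (le_max_right _ _)
  · exact (hC₁ P Q hP hQ hPQ hPZ).trans (le_max_left _ _)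

end Fermat.Agent.MW
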